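/-
S52 / [Frob] / abstract chain argument (helper68).

`E` an abelian group (the points over the function field), `φ` an endomorphism (Frobenius),
`Γ` a `φ`-stable subgroup with a height `h` satisfying
* `h (P + G) + h (P - G) = 2 h P + 2` on `Γ`,
* `h (φ P) = ℓ h P` on `Γ`, `h G = 1`, `h (φ G - G) = N > 0`,
* substitution endomorphisms `s` with `s G = ± Q` multiplying heights by `h Q`,
  fixing the points of height zero,
* the points of height zero in `Γ` are killed by `2`.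
Then `φ² G - (ℓ + 1 - N) φ G + ℓ G = 0`.
-/
import Mathlib

set_option autoImplicit false

namespace Fermat.Agent.S52.Frob.Chain

/-- A two-sided sequence with constant second difference `2` is a monic quadratic. -/
theorem quad_of_rec (d : ℤ → ℤ) (h : ∀ n, d (n + 1) + d (n - 1) = 2 * d n + 2) (n : ℤ) :
    d n = n ^ 2 + (d 1 - d 0 - 1) * n + d 0 := by
  have pos : ∀ k : ℕ, d k = (k : ℤ) ^ 2 + (d 1 - d 0 - 1) * k + d 0 ∧
      d (k + 1) = ((k : ℤ) + 1) ^ 2 + (d 1 - d 0 - 1) * (k + 1) + d 0 := by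
    intro k
    induction k with
    | zero =>
      constructor
      · simp
      · simp only [Nat.cast_zero, zero_add]; ring
    | succ k ih =>
      obtain ⟨h0, h1⟩ := ih
      refine ⟨by push_cast; exact h1, ?_⟩
      have h2 := h (k + 1)
      rw [add_sub_cancel_right] at h2
      push_cast
      linear_combination h2 - h0 + 2 * h1
  have neg : ∀ k : ℕ, d (-(k : ℤ)) = (-(k : ℤ)) ^ 2 + (d 1 - d 0 - 1) * (-(k : ℤ)) + d 0 ∧
      d (-(k : ℤ) + 1) = (-(k : ℤ) + 1) ^ 2 + (d 1 - d 0 - 1) * (-(k : ℤ) + 1) + d 0 := by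
    intro k
    induction k with
    | zero =>
      constructor
      · simp
      · simp only [Nat.cast_zero, neg_zero, zero_add]; ring
    | succ k ih =>
      obtain ⟨h0, h1⟩ := ih
      have e1 : -((k + 1 : ℕ) : ℤ) + 1 = -(k : ℤ) := by push_cast; ring
      refine ⟨?_, by rw [e1]; exact h0⟩
      have h2 := h (-(k : ℤ))
      have e2 : -((k + 1 : ℕ) : ℤ) = -(k : ℤ) - 1 := by push_cast; ring
      rw [e2]
      linear_combination h2 - h1 + 2 * h0
  rcases Int.eq_nat_or_neg n with ⟨k, rfl | rfl⟩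
  · exact (pos k).1
  · exact (neg k).1

variable {E : Type*} [AddCommGroup E]

/-- **The chain argument.** -/
theorem chain_relation (Γ : AddSubgroup E) (φ : E →+ E) (h : E → ℕ) (G : E) (ℓ N : ℕ)
    (hN : 0 < N) (hG : G ∈ Γ) (hφΓ : ∀ P ∈ Γ, φ P ∈ Γ) (hneg : ∀ P, h (-P) = h P)
    (hR : ∀ P ∈ Γ, h (P + G) + h (P - G) = 2 * h P + 2)
    (hFr : ∀ P ∈ Γ, h (φ P) = ℓ * h P) (hG1 : h G = 1) (hM : h (φ G - G) = N)
    (hC : ∀ Q ∈ Γ, 0 < h Q → ∃ s : E →+ E, (∀ P, s (φ P) = φ (s P)) ∧ (s G = Q ∨ s G = -Q) ∧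
      (∀ R ∈ Γ, h (s R) = h R * h Q) ∧ (∀ P ∈ Γ, h P = 0 → s P = P))
    (hK : ∀ P ∈ Γ, h P = 0 → P + P = 0) :
    φ (φ G) - ((ℓ : ℤ) + 1 - N) • φ G + (ℓ : ℤ) • G = 0 := by
  set t : ℤ := (ℓ : ℤ) + 1 - N with ht
  have hφG : φ G ∈ Γ := hφΓ G hG
  have hφφG : φ (φ G) ∈ Γ := hφΓ _ hφG
  -- the first chain
  have hPn : ∀ n : ℤ, φ G - n • G ∈ Γ := fun n => Γ.sub_mem hφG (Γ.zsmul_mem hG n)
  set d : ℤ → ℤ := fun n => (h (φ G - n • G) : ℤ) with hd
  have hdrec : ∀ n, d (n + 1) + d (n - 1) = 2 * d n + 2 := by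
    intro n
    have h1 := hR _ (hPn n)
    have e1 : φ G - n • G + G = φ G - (n - 1) • G := by module
    have e2 : φ G - n • G - G = φ G - (n + 1) • G := by module
    rw [e1, e2] at h1
    simp only [hd]
    have h2 : ((h (φ G - (n - 1) • G) + h (φ G - (n + 1) • G) : ℕ) : ℤ) =
        ((2 * h (φ G - n • G) + 2 : ℕ) : ℤ) := congrArg _ h1
    push_cast at h2
    linarith
  have hd0 : d 0 = ℓ := by
    simp only [hd, zero_smul, sub_zero]
    rw [hFr G hG, hG1, mul_one]
  have hd1 : d 1 = N := by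
    simp only [hd, one_smul]
    rw [hM]
  have hdq : ∀ n, d n = n ^ 2 - t * n + ℓ := by
    intro n
    rw [quad_of_rec d hdrec n, hd0, hd1, ht]
    ring
  -- the second chain
  set R₀ : E := φ (φ G) - t • φ G with hR₀
  have hR₀Γ : R₀ ∈ Γ := Γ.sub_mem hφφG (Γ.zsmul_mem hφG t)
  have hRn : ∀ n : ℤ, R₀ + n • G ∈ Γ := fun n => Γ.add_mem hR₀Γ (Γ.zsmul_mem hG n)
  set e : ℤ → ℤ := fun n => (h (R₀ + n • G) : ℤ) with he
  have herec : ∀ n, e (n + 1) + e (n - 1) = 2 * e n + 2 := by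
    intro n
    have h1 := hR _ (hRn n)
    have e1 : R₀ + n • G + G = R₀ + (n + 1) • G := by module
    have e2 : R₀ + n • G - G = R₀ + (n - 1) • G := by module
    rw [e1, e2] at h1
    simp only [he]
    have h2 : ((h (R₀ + (n + 1) • G) + h (R₀ + (n - 1) • G) : ℕ) : ℤ) =
        ((2 * h (R₀ + n • G) + 2 : ℕ) : ℤ) := congrArg _ h1
    push_cast at h2
    linarith
  have he0 : e 0 = (ℓ : ℤ) ^ 2 := by
    simp only [he, zero_smul, add_zero]
    have e1 : R₀ = φ (φ G - t • G) := by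
      rw [hR₀, map_sub, map_zsmul]
    rw [e1, hFr _ (hPn t)]
    have := hdq t
    simp only [hd] at this
    push_cast
    rw [this]
    ring
  have heq : ∀ n, e n = n ^ 2 + (e 1 - e 0 - 1) * n + e 0 := quad_of_rec e herec
  -- composition
  have hcomp : ∀ a b : ℤ, 0 < d b →
      (h (φ (φ G) - (a + b) • φ G + (a * b) • G) : ℤ) = d a * d b := by
    intro a b hb
    have hb' : 0 < h (φ G - b • G) := by
      simp only [hd] at hb
      exact_mod_cast hb
    obtain ⟨s, hsφ, hsG, hsh, -⟩ := hC _ (hPn b) hb'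
    have h1 := hsh _ (hPn a)
    have e1 : s (φ G - a • G) = φ (s G) - a • s G := by
      rw [map_sub, map_zsmul, hsφ]
    rw [e1] at h1
    simp only [hd]
    rcases hsG with hs | hs
    · rw [hs] at h1
      have e2 : φ (φ G - b • G) - a • (φ G - b • G) =
          φ (φ G) - (a + b) • φ G + (a * b) • G := by
        rw [map_sub, map_zsmul]
        module
      rw [e2] at h1
      rw [h1]
      push_cast
      ring
    · rw [hs] at h1
      have e2 : φ (-(φ G - b • G)) - a • (-(φ G - b • G)) =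
          -(φ (φ G) - (a + b) • φ G + (a * b) • G) := by
        rw [map_neg, map_sub, map_zsmul]
        module
      rw [e2, hneg] at h1
      rw [h1]
      push_cast
      ring
  -- the linear coefficient of the second chain
  have hβ : e 1 - e 0 - 1 = -2 * (ℓ : ℤ) := by
    have hNt : (N : ℤ) = ℓ + 1 - t := by rw [ht]; ring
    by_cases ht1 : t = 1
    · have hdm : d (-1) = ℓ + 2 := by rw [hdq, ht1]; ring
      have hd2 : d 2 = ℓ + 2 := by rw [hdq, ht1]; ring
      have hpos : 0 < d (-1) := by rw [hdm]; positivity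
      have h1 := hcomp 2 (-1) hpos
      have e1 : φ (φ G) - ((2 : ℤ) + -1) • φ G + ((2 : ℤ) * -1) • G = R₀ + (-2 : ℤ) • G := by
        rw [hR₀, ht1]
        module
      rw [e1] at h1
      have h2 := heq (-2)
      simp only [he] at h2
      rw [h1, hd2, hdm] at h2
      have h3 := he0
      simp only [he] at h3 h2 ⊢
      rw [h3] at h2 ⊢
      linarith
    · have hdt : d (t - 1) = N := by rw [hdq, hNt]; ring
      have hpos : 0 < d (t - 1) := by rw [hdt]; exact_mod_cast hN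
      have h1 := hcomp 1 (t - 1) hpos
      have e1 : φ (φ G) - ((1 : ℤ) + (t - 1)) • φ G + ((1 : ℤ) * (t - 1)) • G =
          R₀ + (t - 1) • G := by
        rw [hR₀]
        module
      rw [e1] at h1
      have h2 := heq (t - 1)
      simp only [he] at h2
      rw [h1, hd1, hdt] at h2
      have h3 := he0
      simp only [he] at h3 h2 ⊢
      rw [h3] at h2 ⊢
      have h4 : (t - 1) * ((h (R₀ + (1 : ℤ) • G) : ℤ) - (ℓ : ℤ) ^ 2 - 1 + 2 * ℓ) = 0 := by
        rw [hNt] at h2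
        linear_combination -h2
      rcases mul_eq_zero.mp h4 with h5 | h5
      · exact absurd (by linarith) ht1
      · linarith
  -- the height of `θ G` vanishes
  have hθ0 : h (R₀ + (ℓ : ℤ) • G) = 0 := by
    have h1 := heq ℓ
    rw [hβ, he0] at h1
    have h2 : e ℓ = 0 := by rw [h1]; ring
    simp only [he] at h2
    exact_mod_cast h2
  have hθΓ : R₀ + (ℓ : ℤ) • G ∈ Γ := hRn ℓ
  have hθ2 : (R₀ + (ℓ : ℤ) • G) + (R₀ + (ℓ : ℤ) • G) = 0 := hK _ hθΓ hθ0
  -- `h 0 = 0` and `h (G + G) = 4`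
  have h00 : h 0 = 0 := by
    have h1 := hR 0 Γ.zero_mem
    rw [zero_add, zero_sub, hneg, hG1] at h1
    omega
  have h2G : h (G + G) = 4 := by
    have h1 := hR G hG
    rw [sub_self, h00, hG1] at h1
    omega
  obtain ⟨s, hsφ, hsG, -, hsfix⟩ := hC (G + G) (Γ.add_mem hG hG) (by rw [h2G]; norm_num)
  have hfix := hsfix _ hθΓ hθ0
  have hs1 : s (R₀ + (ℓ : ℤ) • G) = φ (φ (s G)) - t • φ (s G) + (ℓ : ℤ) • s G := by
    rw [hR₀, map_add, map_sub, map_zsmul, map_zsmul, hsφ, hsφ]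
  have hgoal : R₀ + (ℓ : ℤ) • G = 0 := by
    rw [← hfix, hs1]
    rcases hsG with hs | hs
    · rw [hs, map_add, map_add, ← hθ2, hR₀]
      module
    · rw [hs, map_neg, map_neg, map_add, map_add]
      have : -(φ (φ G) + φ (φ G)) - t • -(φ G + φ G) + (ℓ : ℤ) • -(G + G) =
          -((R₀ + (ℓ : ℤ) • G) + (R₀ + (ℓ : ℤ) • G)) := by
        rw [hR₀]
        module
      rw [this, hθ2, neg_zero]
  exact hgoal

/-- Transfer of the relation to a point `P` such that some endomorphism commuting with `φ`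
sends `G` to `± (G + P)`. -/
theorem chain_transfer (φ : E →+ E) (G : E) (t : ℤ) (ℓ : ℕ)
    (hG0 : φ (φ G) - t • φ G + (ℓ : ℤ) • G = 0) (P : E) (s : E →+ E)
    (hs : ∀ x, s (φ x) = φ (s x)) (hsG : s G = G + P ∨ s G = -(G + P)) :
    φ (φ P) - t • φ P + (ℓ : ℤ) • P = 0 := by
  have h1 : s (φ (φ G) - t • φ G + (ℓ : ℤ) • G) = 0 := by rw [hG0, map_zero]
  rw [map_add, map_sub, map_zsmul, map_zsmul, hs, hs] at h1
  rcases hsG with h | h
  · rw [h, map_add, map_add] at h1
    have : φ (φ P) - t • φ P + (ℓ : ℤ) • P =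
        (φ (φ G) + φ (φ P) - t • (φ G + φ P) + (ℓ : ℤ) • (G + P)) -
          (φ (φ G) - t • φ G + (ℓ : ℤ) • G) := by module
    rw [this, h1, hG0, sub_zero]
  · rw [h, map_neg, map_neg, map_add, map_add] at h1
    have : φ (φ P) - t • φ P + (ℓ : ℤ) • P =
        -(-(φ (φ G) + φ (φ P)) - t • -(φ G + φ P) + (ℓ : ℤ) • -(G + P)) -
          (φ (φ G) - t • φ G + (ℓ : ℤ) • G) := by module
    rw [this, h1, hG0, sub_zero, neg_zero]

end Fermat.Agent.S52.Frob.Chain
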