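/-
S52 / block [Frob], leaf [P7] (owner: helper78).  Mathlib-only.

"Odd" points of a Weierstrass curve `W` over a field `F`, relative to a subfield `L` and an element
`η₀` with `η₀ ^ 2 ∈ L`: the point at infinity, and the affine points `(x, y)` with `x ∈ L` and
`2 y + a₁ x + a₃ ∈ L · η₀`.  They are stable under negation and (when `2 ≠ 0` and the
coefficients of `W` lie in `L`) under addition.

With `μ := λ + a₁ / 2` (`λ` the slope of the chord or tangent) and `η := 2 y + a₁ x + a₃`: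
* `x₁ ≠ x₂` : `2 μ = (η₁ - η₂) / (x₁ - x₂)`;
* doubling  : `2 μ = (6 x² + b₂ x + b₄) / η`, `η ≠ 0`;
* in both cases `x₃ = μ² - b₂ / 4 - x₁ - x₂` and `η₃ = - 2 μ (x₃ - x₁) - η₁`.
-/
import Mathlib

set_option autoImplicit false

namespace Fermat.Agent.S52.Frob

open WeierstrassCurve WeierstrassCurve.Affine

universe u

variable {F : Type u} [Field F] (W : WeierstrassCurve F)

/-- A point is *odd* (relative to the subfield `L` and the element `η₀`) if it is the point at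
infinity, or an affine point `(x, y)` with `x ∈ L` and `2 y + a₁ x + a₃ ∈ L · η₀`. -/
def IsOdd (L : Subfield F) (η₀ : F) (P : W.toAffine.Point) : Prop :=
  P = 0 ∨ ∃ (x y : F) (h : W.toAffine.Nonsingular x y),
    P = Point.some x y h ∧ x ∈ L ∧ ∃ b ∈ L, 2 * y + W.a₁ * x + W.a₃ = b * η₀

theorem isOdd_zero (L : Subfield F) (η₀ : F) : IsOdd W L η₀ 0 := Or.inl rfl

theorem isOdd_some (L : Subfield F) (η₀ : F) {x y : F} (h : W.toAffine.Nonsingular x y)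
    (hx : x ∈ L) {b : F} (hb : b ∈ L) (hy : 2 * y + W.a₁ * x + W.a₃ = b * η₀) :
    IsOdd W L η₀ (Point.some x y h) :=
  Or.inr ⟨x, y, h, rfl, hx, b, hb, hy⟩

/-- The negative of an odd point is odd. -/
theorem isOdd_neg (L : Subfield F) (η₀ : F) {P : W.toAffine.Point} (hP : IsOdd W L η₀ P) :
    IsOdd W L η₀ (-P) := by
  rcases hP with rfl | ⟨x, y, h, rfl, hx, b, hb, hy⟩
  · exact Or.inl rfl
  · rw [Point.neg_some]
    refine isOdd_some W L η₀ _ hx (neg_mem hb) ?_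
    simp only [negY]
    linear_combination -hy

variable [DecidableEq F]

/-- The common core of the chord and tangent cases: if `2 λ + a₁ = c η₀` with `c ∈ L`, then the sum
is odd. -/
theorem isOdd_add_of_slope (h2 : (2 : F) ≠ 0) (L : Subfield F) (η₀ : F) (hη : η₀ ^ 2 ∈ L)
    (h₁ : W.a₁ ∈ L) (h₂ : W.a₂ ∈ L) {x₁ x₂ y₁ y₂ : F}
    (hn₁ : W.toAffine.Nonsingular x₁ y₁) (hn₂ : W.toAffine.Nonsingular x₂ y₂)
    (hxy : ¬(x₁ = x₂ ∧ y₁ = W.toAffine.negY x₂ y₂)) (hx₁ : x₁ ∈ L) (hx₂ : x₂ ∈ L)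
    {b₁ : F} (hb₁ : b₁ ∈ L) (hy₁ : 2 * y₁ + W.a₁ * x₁ + W.a₃ = b₁ * η₀)
    {c : F} (hc : c ∈ L) (hslope : 2 * W.toAffine.slope x₁ x₂ y₁ y₂ + W.a₁ = c * η₀) :
    IsOdd W L η₀ (Point.some x₁ y₁ hn₁ + Point.some x₂ y₂ hn₂) := by
  rw [Point.add_some hxy]
  have h4 : (4 : F) ≠ 0 := by
    have : (4 : F) = 2 * 2 := by norm_num
    rw [this]; exact mul_ne_zero h2 h2
  have h4L : (4 : F) ∈ L := ofNat_mem L 4
  -- the abscissa of the sum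
  have hx₃ : W.toAffine.addX x₁ x₂ (W.toAffine.slope x₁ x₂ y₁ y₂) =
      (c ^ 2 * η₀ ^ 2 - W.a₁ ^ 2 - 4 * W.a₂ - 4 * x₁ - 4 * x₂) / 4 := by
    rw [eq_div_iff h4]
    simp only [addX]
    linear_combination (2 * W.toAffine.slope x₁ x₂ y₁ y₂ + W.a₁ + c * η₀) * hslope
  have hx₃L : W.toAffine.addX x₁ x₂ (W.toAffine.slope x₁ x₂ y₁ y₂) ∈ L := by
    rw [hx₃]
    refine div_mem (sub_mem (sub_mem (sub_mem (sub_mem (mul_mem (pow_mem hc 2) hη)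
      (pow_mem h₁ 2)) (mul_mem h4L h₂)) (mul_mem h4L hx₁)) (mul_mem h4L hx₂)) h4L
  refine isOdd_some W L η₀ _ hx₃L
    (b := -c * (W.toAffine.addX x₁ x₂ (W.toAffine.slope x₁ x₂ y₁ y₂) - x₁) - b₁)
    (sub_mem (mul_mem (neg_mem hc) (sub_mem hx₃L hx₁)) hb₁) ?_
  simp only [addY, negAddY, negY]
  linear_combination
    (-(W.toAffine.addX x₁ x₂ (W.toAffine.slope x₁ x₂ y₁ y₂) - x₁)) * hslope - hy₁

set_option linter.unusedVariables false in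
/-- The sum of two odd points is odd (`2 ≠ 0`, coefficients of `W` in `L`, `η₀ ^ 2 ∈ L`). -/
theorem isOdd_add (h2 : (2 : F) ≠ 0) (L : Subfield F) (η₀ : F) (hη : η₀ ^ 2 ∈ L)
    (h₁ : W.a₁ ∈ L) (h₂ : W.a₂ ∈ L) (h₃ : W.a₃ ∈ L) (h₄ : W.a₄ ∈ L) (h₆ : W.a₆ ∈ L)
    {P Q : W.toAffine.Point} (hP : IsOdd W L η₀ P) (hQ : IsOdd W L η₀ Q) :
    IsOdd W L η₀ (P + Q) := by
  rcases hP with rfl | ⟨x₁, y₁, hn₁, rfl, hx₁, b₁, hb₁, hy₁⟩
  · rw [zero_add]; exact hQ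
  rcases hQ with rfl | ⟨x₂, y₂, hn₂, rfl, hx₂, b₂, hb₂, hy₂⟩
  · rw [add_zero]; exact isOdd_some W L η₀ hn₁ hx₁ hb₁ hy₁
  by_cases hxy : x₁ = x₂ ∧ y₁ = W.toAffine.negY x₂ y₂
  · rw [Point.add_of_Y_eq hxy.1 hxy.2]; exact isOdd_zero W L η₀
  by_cases hx : x₁ = x₂
  · -- doubling
    have hy : y₁ ≠ W.toAffine.negY x₂ y₂ := fun h => hxy ⟨hx, h⟩
    have hyy : y₁ = y₂ := Y_eq_of_Y_ne hn₁.1 hn₂.1 hx hy
    subst hx; subst hyy
    have hη₁ : b₁ * η₀ ≠ 0 := by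
      rw [← hy₁]
      intro h0
      apply hy
      simp only [negY]
      linear_combination h0
    have hb₁0 : b₁ ≠ 0 := left_ne_zero_of_mul hη₁
    have hη₀ : η₀ ≠ 0 := right_ne_zero_of_mul hη₁
    have h2L : (2 : F) ∈ L := ofNat_mem L 2
    have h4L : (4 : F) ∈ L := ofNat_mem L 4
    have h6L : (6 : F) ∈ L := ofNat_mem L 6
    refine isOdd_add_of_slope W h2 L η₀ hη h₁ h₂ hn₁ hn₁ hxy hx₁ hx₁ hb₁ hy₁
      (c := (6 * x₁ ^ 2 + (W.a₁ ^ 2 + 4 * W.a₂) * x₁ + (2 * W.a₄ + W.a₁ * W.a₃)) /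
        (b₁ * η₀ ^ 2)) ?_ ?_
    · exact div_mem (add_mem (add_mem (mul_mem h6L (pow_mem hx₁ 2))
        (mul_mem (add_mem (pow_mem h₁ 2) (mul_mem h4L h₂)) hx₁))
        (add_mem (mul_mem h2L h₄) (mul_mem h₁ h₃))) (mul_mem hb₁ hη)
    · rw [slope_of_Y_ne rfl hy]
      have hden : y₁ - W.toAffine.negY x₁ y₁ = b₁ * η₀ := by
        simp only [negY]
        linear_combination hy₁
      rw [hden]
      have key : 2 * (3 * x₁ ^ 2 + 2 * W.a₂ * x₁ + W.a₄ - W.a₁ * y₁) + W.a₁ * (b₁ * η₀) =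
          6 * x₁ ^ 2 + (W.a₁ ^ 2 + 4 * W.a₂) * x₁ + (2 * W.a₄ + W.a₁ * W.a₃) := by
        linear_combination (-W.a₁) * hy₁
      rw [← key]
      field_simp
  · -- chord
    have hD : x₁ - x₂ ≠ 0 := sub_ne_zero.mpr hx
    refine isOdd_add_of_slope W h2 L η₀ hη h₁ h₂ hn₁ hn₂ hxy hx₁ hx₂ hb₁ hy₁
      (c := (b₁ - b₂) / (x₁ - x₂)) (div_mem (sub_mem hb₁ hb₂) (sub_mem hx₁ hx₂)) ?_
    rw [slope_of_X_ne hx]
    field_simp
    linear_combination hy₁ - hy₂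

end Fermat.Agent.S52.Frob
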