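/-
S52 / block [Frob] (sub-captain helper98).  Shared definitions for the elementary proof of
`Frob² - [t] Frob + [ℓ] = 0` on the points of a Weierstrass curve over `ZMod ℓ`.

* `rdeg a`    : degree of a rational function `a ∈ K(X)` as a map `ℙ¹ → ℙ¹`.
* `rcomp r a` : the composition `r ∘ a` of rational functions.
* `dPoly W`   : `4 X³ + b₂ X² + 2 b₄ X + b₆`.
-/
import Mathlib

set_option autoImplicit false

open Polynomial

namespace Fermat.Agent.S52.Frob

universe u

variable {K : Type u} [Field K]

/-- The degree of a rational function, as a map `ℙ¹ → ℙ¹`: `max (deg num) (deg denom)`. -/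
noncomputable def rdeg (a : RatFunc K) : ℕ := max a.num.natDegree a.denom.natDegree

/-- Composition of rational functions: `rcomp r a = r ∘ a`. -/
noncomputable def rcomp (r a : RatFunc K) : RatFunc K :=
  (Polynomial.aeval a r.num) / (Polynomial.aeval a r.denom)

/-- The polynomial `4 X³ + b₂ X² + 2 b₄ X + b₆` (so that `(2y + a₁x + a₃)² = dPoly(x)` on `W`). -/
noncomputable def dPoly {R : Type*} [CommRing R] (W : WeierstrassCurve R) : R[X] :=
  C 4 * X ^ 3 + C W.b₂ * X ^ 2 + C (2 * W.b₄) * X + C W.b₆

end Fermat.Agent.S52.Frob
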