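/-
S52 / block [Frob] (helper98).  Concrete setting: `F = AlgebraicClosure K(X)`, the generic point
`G = (X, y₀)`, the subgroup `Γ` of odd points and the height `hgt`.
-/
import Fermat.Agent.S52.Frob.Defs

set_option autoImplicit false

open Polynomial
open scoped WeierstrassCurve.Affine

namespace Fermat.Agent.S52.Frob

universe u

noncomputable section

attribute [local instance] Classical.propDecidable

variable (ℓ : ℕ) [Fact ℓ.Prime] (W : WeierstrassCurve (ZMod ℓ)) (K : Type u) [Field K]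
  [Algebra (ZMod ℓ) K]

/-- The big field `F = AlgebraicClosure K(X)`. -/
abbrev FF : Type u := AlgebraicClosure (RatFunc K)

/-- The inclusion `K(X) → F`. -/
abbrev iota : RatFunc K →+* FF K := algebraMap (RatFunc K) (FF K)

/-- The curve over `F`. -/
abbrev WF : WeierstrassCurve (FF K) := W.toAffine⁄(FF K)

/-- `X` as an element of `F`. -/
def Xf : FF K := iota K RatFunc.X

lemma iota_injective : Function.Injective (iota K) := (iota K).injective

lemma WF_Δ_ne_zero (hΔ : W.Δ ≠ 0) : (WF ℓ W K).Δ ≠ 0 := by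
  change (W.map (algebraMap (ZMod ℓ) (FF K))).Δ ≠ 0
  rw [WeierstrassCurve.map_Δ]
  exact fun h => hΔ ((algebraMap (ZMod ℓ) (FF K)).injective (by rw [h, map_zero]))

lemma exists_y0 : ∃ y : FF K, (WF ℓ W K).toAffine.Equation (Xf K) y := by
  have hdeg : (X ^ 2 + C ((WF ℓ W K).a₁ * Xf K + (WF ℓ W K).a₃) * X
      - C (Xf K ^ 3 + (WF ℓ W K).a₂ * Xf K ^ 2 + (WF ℓ W K).a₄ * Xf K + (WF ℓ W K).a₆) :
        (FF K)[X]).degree = 2 := by
    compute_degree!
  obtain ⟨y, hy⟩ := IsAlgClosed.exists_root (k := FF K)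
    (X ^ 2 + C ((WF ℓ W K).a₁ * Xf K + (WF ℓ W K).a₃) * X
      - C (Xf K ^ 3 + (WF ℓ W K).a₂ * Xf K ^ 2 + (WF ℓ W K).a₄ * Xf K + (WF ℓ W K).a₆))
    (by rw [hdeg]; norm_num)
  refine ⟨y, ?_⟩
  rw [WeierstrassCurve.Affine.equation_iff]
  simp only [IsRoot.def, eval_sub, eval_add, eval_pow, eval_X, eval_mul, eval_C] at hy
  linear_combination hy

/-- The `y`-coordinate of the generic point. -/
def y0 : FF K := (exists_y0 ℓ W K).choose

lemma y0_equation : (WF ℓ W K).toAffine.Equation (Xf K) (y0 ℓ W K) :=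
  (exists_y0 ℓ W K).choose_spec

lemma y0_nonsingular (hΔ : W.Δ ≠ 0) : (WF ℓ W K).toAffine.Nonsingular (Xf K) (y0 ℓ W K) :=
  ((WF ℓ W K).toAffine.equation_iff_nonsingular_of_Δ_ne_zero (WF_Δ_ne_zero ℓ W K hΔ)).mp
    (y0_equation ℓ W K)

/-- The generic point `G = (X, y₀)`. -/
def Gpt (hΔ : W.Δ ≠ 0) : (WF ℓ W K).toAffine.Point :=
  WeierstrassCurve.Affine.Point.some _ _ (y0_nonsingular ℓ W K hΔ)

/-- `η₀ = 2 y₀ + a₁ X + a₃`. -/
def eta0 : FF K := 2 * y0 ℓ W K + (WF ℓ W K).a₁ * Xf K + (WF ℓ W K).a₃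

/-- `dPoly` of the curve over `K`, as an element of `K(X)`. -/
def dRat : RatFunc K := algebraMap K[X] (RatFunc K) ((dPoly W).map (algebraMap (ZMod ℓ) K))

/-- Coefficients coming from `ZMod ℓ` lie in `K(X)`. -/
lemma algebraMap_eq_iota (z : ZMod ℓ) :
    algebraMap (ZMod ℓ) (FF K) z = iota K (RatFunc.C (algebraMap (ZMod ℓ) K z)) := by
  rw [IsScalarTower.algebraMap_apply (ZMod ℓ) K (FF K),
    IsScalarTower.algebraMap_apply K (RatFunc K) (FF K)]
  rfl

lemma iota_C (c : K) : iota K (RatFunc.C c) = algebraMap K (FF K) c := by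
  rw [IsScalarTower.algebraMap_apply K (RatFunc K) (FF K)]
  rfl

/-- The curve over `K`. -/
abbrev WK : WeierstrassCurve K := W.map (algebraMap (ZMod ℓ) K)

lemma WK_Δ_ne_zero (hΔ : W.Δ ≠ 0) : (WK ℓ W K).Δ ≠ 0 := by
  rw [WeierstrassCurve.map_Δ]
  exact fun h => hΔ ((algebraMap (ZMod ℓ) K).injective (by rw [h, map_zero]))

lemma WF_a₁ : (WF ℓ W K).a₁ = iota K (RatFunc.C (WK ℓ W K).a₁) := by
  change (W.map (algebraMap (ZMod ℓ) (FF K))).a₁ = _
  rw [WeierstrassCurve.map_a₁, WeierstrassCurve.map_a₁, algebraMap_eq_iota]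

lemma WF_a₂ : (WF ℓ W K).a₂ = iota K (RatFunc.C (WK ℓ W K).a₂) := by
  change (W.map (algebraMap (ZMod ℓ) (FF K))).a₂ = _
  rw [WeierstrassCurve.map_a₂, WeierstrassCurve.map_a₂, algebraMap_eq_iota]

lemma WF_a₃ : (WF ℓ W K).a₃ = iota K (RatFunc.C (WK ℓ W K).a₃) := by
  change (W.map (algebraMap (ZMod ℓ) (FF K))).a₃ = _
  rw [WeierstrassCurve.map_a₃, WeierstrassCurve.map_a₃, algebraMap_eq_iota]

lemma WF_a₄ : (WF ℓ W K).a₄ = iota K (RatFunc.C (WK ℓ W K).a₄) := by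
  change (W.map (algebraMap (ZMod ℓ) (FF K))).a₄ = _
  rw [WeierstrassCurve.map_a₄, WeierstrassCurve.map_a₄, algebraMap_eq_iota]

lemma WF_a₆ : (WF ℓ W K).a₆ = iota K (RatFunc.C (WK ℓ W K).a₆) := by
  change (W.map (algebraMap (ZMod ℓ) (FF K))).a₆ = _
  rw [WeierstrassCurve.map_a₆, WeierstrassCurve.map_a₆, algebraMap_eq_iota]

lemma WF_b₂ : (WF ℓ W K).b₂ = iota K (RatFunc.C (WK ℓ W K).b₂) := by
  change (W.map (algebraMap (ZMod ℓ) (FF K))).b₂ = _
  rw [WeierstrassCurve.map_b₂, WeierstrassCurve.map_b₂, algebraMap_eq_iota]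

lemma WF_b₄ : (WF ℓ W K).b₄ = iota K (RatFunc.C (WK ℓ W K).b₄) := by
  change (W.map (algebraMap (ZMod ℓ) (FF K))).b₄ = _
  rw [WeierstrassCurve.map_b₄, WeierstrassCurve.map_b₄, algebraMap_eq_iota]

lemma WF_b₆ : (WF ℓ W K).b₆ = iota K (RatFunc.C (WK ℓ W K).b₆) := by
  change (W.map (algebraMap (ZMod ℓ) (FF K))).b₆ = _
  rw [WeierstrassCurve.map_b₆, WeierstrassCurve.map_b₆, algebraMap_eq_iota]

lemma WF_b₈ : (WF ℓ W K).b₈ = iota K (RatFunc.C (WK ℓ W K).b₈) := by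
  change (W.map (algebraMap (ZMod ℓ) (FF K))).b₈ = _
  rw [WeierstrassCurve.map_b₈, WeierstrassCurve.map_b₈, algebraMap_eq_iota]

lemma dRat_eq : dRat ℓ W K = 4 * RatFunc.X ^ 3 + RatFunc.C (WK ℓ W K).b₂ * RatFunc.X ^ 2
    + 2 * RatFunc.C (WK ℓ W K).b₄ * RatFunc.X + RatFunc.C (WK ℓ W K).b₆ := by
  simp only [dRat, dPoly, Polynomial.map_add, Polynomial.map_mul, Polynomial.map_pow,
    Polynomial.map_C, Polynomial.map_X, map_add, map_mul, map_pow, RatFunc.algebraMap_X,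
    RatFunc.algebraMap_C, WeierstrassCurve.map_b₂, WeierstrassCurve.map_b₄,
    WeierstrassCurve.map_b₆]
  simp only [map_ofNat]

/-- `η₀² = D(X)`. -/
lemma eta0_sq : eta0 ℓ W K ^ 2 = iota K (dRat ℓ W K) := by
  have h := (WeierstrassCurve.Affine.equation_iff _ _).mp (y0_equation ℓ W K)
  rw [dRat_eq]
  simp only [map_add, map_mul, map_pow, map_ofNat, ← WF_b₂, ← WF_b₄, ← WF_b₆]
  simp only [eta0, WeierstrassCurve.b₂, WeierstrassCurve.b₄, WeierstrassCurve.b₆]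
  change _ = 4 * Xf K ^ 3 + _ * Xf K ^ 2 + 2 * _ * Xf K + _
  linear_combination 4 * h

/-- The subfield `K(X)` of `F`. -/
def Lsub : Subfield (FF K) := (iota K).fieldRange

lemma mem_Lsub {x : FF K} : x ∈ Lsub K ↔ ∃ a : RatFunc K, iota K a = x := RingHom.mem_fieldRange

lemma iota_mem_Lsub (a : RatFunc K) : iota K a ∈ Lsub K := mem_Lsub K |>.mpr ⟨a, rfl⟩

/-- A preimage in `K(X)` of an element of `F` (junk value `0` outside `K(X)`). -/
def xInv (x : FF K) : RatFunc K := if h : ∃ a : RatFunc K, iota K a = x then h.choose else 0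

lemma xInv_iota (a : RatFunc K) : xInv K (iota K a) = a := by
  have h : ∃ b : RatFunc K, iota K b = iota K a := ⟨a, rfl⟩
  rw [xInv, dif_pos h]
  exact iota_injective K h.choose_spec

/-- The height: `rdeg` of the `x`-coordinate (meaningful on points with `x ∈ K(X)`). -/
def hgt : (WF ℓ W K).toAffine.Point → ℕ
  | .zero => 0
  | .some x _ _ => rdeg (xInv K x)

lemma hgt_zero : hgt ℓ W K 0 = 0 := rfl

lemma hgt_some {x y : FF K} (h : (WF ℓ W K).toAffine.Nonsingular x y) :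
    hgt ℓ W K (WeierstrassCurve.Affine.Point.some x y h) = rdeg (xInv K x) := rfl

lemma hgt_some_iota {a : RatFunc K} {y : FF K}
    (h : (WF ℓ W K).toAffine.Nonsingular (iota K a) y) :
    hgt ℓ W K (WeierstrassCurve.Affine.Point.some (iota K a) y h) = rdeg a := by
  rw [hgt_some, xInv_iota]

lemma hgt_neg (P : (WF ℓ W K).toAffine.Point) : hgt ℓ W K (-P) = hgt ℓ W K P := by
  rcases P with _ | ⟨x, y, h⟩
  · rfl
  · rfl

/-- The `ℓ`-power Frobenius of `F`, as a `ZMod ℓ`-algebra endomorphism. -/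
def frobF : FF K →ₐ[ZMod ℓ] FF K := FiniteField.frobeniusAlgHom (ZMod ℓ) (FF K)

lemma frobF_apply (z : FF K) : frobF ℓ K z = z ^ ℓ := by
  simp [frobF, FiniteField.coe_frobeniusAlgHom, ZMod.card]

/-- Frobenius on the points over `F`. -/
def phi : (WF ℓ W K).toAffine.Point →+ (WF ℓ W K).toAffine.Point :=
  WeierstrassCurve.Affine.Point.map (W' := W.toAffine) (frobF ℓ K)

lemma phi_some {x y : FF K} (h : (WF ℓ W K).toAffine.Nonsingular x y) :
    ∃ h' : (WF ℓ W K).toAffine.Nonsingular (x ^ ℓ) (y ^ ℓ),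
      phi ℓ W K (WeierstrassCurve.Affine.Point.some x y h) =
        WeierstrassCurve.Affine.Point.some (x ^ ℓ) (y ^ ℓ) h' := by
  have h1 := WeierstrassCurve.Affine.Point.map_some (W' := W.toAffine) (frobF ℓ K) h
  have hx : frobF ℓ K x = x ^ ℓ := frobF_apply ℓ K x
  have hy : frobF ℓ K y = y ^ ℓ := frobF_apply ℓ K y
  have h2 : (WF ℓ W K).toAffine.Nonsingular (frobF ℓ K x) (frobF ℓ K y) :=
    (W.toAffine.baseChange_nonsingular (frobF ℓ K).injective ..).mpr h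
  rw [hx, hy] at h2
  refine ⟨h2, ?_⟩
  change WeierstrassCurve.Affine.Point.map (W' := W.toAffine) (frobF ℓ K) _ = _
  rw [h1]
  congr 1

end

end Fermat.Agent.S52.Frob
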