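/-
S52 / block [Frob] (helper98).  The subgroup `Γ` of odd points of `E(F)`, `F = AlgebraicClosure K(X)`.
-/
import Fermat.Agent.S52.Frob.Setup
import Fermat.Agent.S52.Frob.Odd

set_option autoImplicit false

open Polynomial
open scoped WeierstrassCurve.Affine

namespace Fermat.Agent.S52.Frob

universe u

noncomputable section

attribute [local instance] Classical.propDecidable

variable (ℓ : ℕ) [Fact ℓ.Prime] (W : WeierstrassCurve (ZMod ℓ)) (K : Type u) [Field K]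
  [Algebra (ZMod ℓ) K]

lemma two_ne_zero_FF (hℓ : ℓ ≠ 2) : (2 : FF K) ≠ 0 := by
  have h2 : (2 : ZMod ℓ) ≠ 0 := by
    intro h
    have h' : ((2 : ℕ) : ZMod ℓ) = 0 := by exact_mod_cast h
    rw [ZMod.natCast_eq_zero_iff] at h'
    have := (Nat.prime_dvd_prime_iff_eq (Fact.out : ℓ.Prime) Nat.prime_two).mp h'
    exact hℓ this
  have : (2 : FF K) = algebraMap (ZMod ℓ) (FF K) 2 := (map_ofNat (algebraMap (ZMod ℓ) (FF K)) 2).symm
  rw [this]
  exact fun h => h2 ((algebraMap (ZMod ℓ) (FF K)).injective (by rw [h, map_zero]))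

/-- The subgroup `Γ` of odd points. -/
def Gam (hℓ : ℓ ≠ 2) : AddSubgroup (WF ℓ W K).toAffine.Point where
  carrier := {P | IsOdd (WF ℓ W K) (Lsub K) (eta0 ℓ W K) P}
  zero_mem' := isOdd_zero _ _ _
  add_mem' := fun {P Q} hP hQ =>
    isOdd_add (WF ℓ W K) (two_ne_zero_FF ℓ K hℓ) (Lsub K) (eta0 ℓ W K)
      (by rw [eta0_sq]; exact iota_mem_Lsub K _)
      (by rw [WF_a₁]; exact iota_mem_Lsub K _) (by rw [WF_a₂]; exact iota_mem_Lsub K _)
      (by rw [WF_a₃]; exact iota_mem_Lsub K _) (by rw [WF_a₄]; exact iota_mem_Lsub K _)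
      (by rw [WF_a₆]; exact iota_mem_Lsub K _) hP hQ
  neg_mem' := fun {P} hP => isOdd_neg _ _ _ hP

lemma mem_Gam (hℓ : ℓ ≠ 2) {P : (WF ℓ W K).toAffine.Point} :
    P ∈ Gam ℓ W K hℓ ↔ IsOdd (WF ℓ W K) (Lsub K) (eta0 ℓ W K) P := Iff.rfl

/-- Unfolded membership of an affine point. -/
lemma some_mem_Gam (hℓ : ℓ ≠ 2) {x y : FF K} (h : (WF ℓ W K).toAffine.Nonsingular x y) :
    WeierstrassCurve.Affine.Point.some x y h ∈ Gam ℓ W K hℓ ↔
      ∃ a b : RatFunc K, x = iota K a ∧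
        2 * y + (WF ℓ W K).a₁ * x + (WF ℓ W K).a₃ = iota K b * eta0 ℓ W K := by
  rw [mem_Gam]
  constructor
  · rintro (h0 | ⟨x', y', h', hP, hx, b, hb, hy⟩)
    · exact absurd h0 (WeierstrassCurve.Affine.Point.some_ne_zero _)
    · obtain ⟨rfl, rfl⟩ := WeierstrassCurve.Affine.Point.some.inj hP
      obtain ⟨a, rfl⟩ := (mem_Lsub K).mp hx
      obtain ⟨b', rfl⟩ := (mem_Lsub K).mp hb
      exact ⟨a, b', rfl, hy⟩
  · rintro ⟨a, b, rfl, hy⟩
    exact isOdd_some _ _ _ h (iota_mem_Lsub K a) (iota_mem_Lsub K b) hy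

lemma Gpt_mem_Gam (hℓ : ℓ ≠ 2) (hΔ : W.Δ ≠ 0) : Gpt ℓ W K hΔ ∈ Gam ℓ W K hℓ := by
  rw [Gpt, some_mem_Gam]
  exact ⟨RatFunc.X, 1, rfl, by rw [map_one, one_mul]; rfl⟩

end

end Fermat.Agent.S52.Frob
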