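/-
S52 / block [Frob], glue slice [S5b] (helper72).  Frobenius commutes with base change of points,
and descent of the Frobenius relation from algebraically closed fields to arbitrary fields.
-/
import Fermat.Agent.S52.Frob.Gamma

set_option autoImplicit false

open Polynomial
open scoped WeierstrassCurve.Affine

namespace Fermat.Agent.S52.Frob

universe u

noncomputable section

attribute [local instance] Classical.propDecidable

variable (ℓ : ℕ) [Fact ℓ.Prime] (W : WeierstrassCurve (ZMod ℓ)) (K : Type u) [Field K]
  [Algebra (ZMod ℓ) K]

/-- The `ℓ`-power Frobenius commutes with any ring homomorphism. -/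
lemma descent_frobeniusAlgHom_comm {A B : Type*} [Field A] [Field B] [Algebra (ZMod ℓ) A]
    [Algebra (ZMod ℓ) B] (f : A →+* B) (x : A) :
    FiniteField.frobeniusAlgHom (ZMod ℓ) B (f x) = f (FiniteField.frobeniusAlgHom (ZMod ℓ) A x) := by
  simp only [FiniteField.coe_frobeniusAlgHom, map_pow]

/-- Frobenius on points commutes with base change (general form). -/
theorem descent_map_frobenius_baseChange (A B : Type u) [Field A] [Field B] [DecidableEq A]
    [DecidableEq B] [Algebra (ZMod ℓ) A] [Algebra (ZMod ℓ) B] [Algebra A B]
    [IsScalarTower (ZMod ℓ) A B] (P : (W.toAffine⁄A).Point) :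
    WeierstrassCurve.Affine.Point.map (W' := W.toAffine) (FiniteField.frobeniusAlgHom (ZMod ℓ) B)
        (WeierstrassCurve.Affine.Point.baseChange (W' := W.toAffine) A B P) =
      WeierstrassCurve.Affine.Point.baseChange (W' := W.toAffine) A B
        (WeierstrassCurve.Affine.Point.map (W' := W.toAffine)
          (FiniteField.frobeniusAlgHom (ZMod ℓ) A) P) := by
  rcases P with _ | ⟨x, y, h⟩
  · rfl
  · simp only [WeierstrassCurve.Affine.Point.baseChange,
      WeierstrassCurve.Affine.Point.map_some]
    congr 1
    · exact descent_frobeniusAlgHom_comm ℓ (algebraMap A B) x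
    · exact descent_frobeniusAlgHom_comm ℓ (algebraMap A B) y

/-- `phi` commutes with the base change `E(K) → E(F)`. -/
theorem phi_baseChange (P : (W.toAffine⁄K).Point) :
    phi ℓ W K (WeierstrassCurve.Affine.Point.baseChange (W' := W.toAffine) K (FF K) P) =
      WeierstrassCurve.Affine.Point.baseChange (W' := W.toAffine) K (FF K)
        (WeierstrassCurve.Affine.Point.map (W' := W.toAffine)
          (FiniteField.frobeniusAlgHom (ZMod ℓ) K) P) :=
  descent_map_frobenius_baseChange ℓ W K (FF K) P

/-- Descent: the Frobenius relation over all algebraically closed fields implies it over every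
field. -/
theorem descent_kappa (t : ℤ)
    (H : ∀ (K : Type u) [Field K] [Algebra (ZMod ℓ) K] [IsAlgClosed K] [DecidableEq K]
      (P : (W.toAffine⁄K).Point),
      WeierstrassCurve.Affine.Point.map (W' := W.toAffine)
          (FiniteField.frobeniusAlgHom (ZMod ℓ) K)
          (WeierstrassCurve.Affine.Point.map (W' := W.toAffine)
            (FiniteField.frobeniusAlgHom (ZMod ℓ) K) P)
        - t • WeierstrassCurve.Affine.Point.map (W' := W.toAffine)
            (FiniteField.frobeniusAlgHom (ZMod ℓ) K) P
        + (ℓ : ℤ) • P = 0)
    (κ : Type u) [Field κ] [DecidableEq κ] [Algebra (ZMod ℓ) κ] (P : (W.toAffine⁄κ).Point) :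
    WeierstrassCurve.Affine.Point.map (W' := W.toAffine)
        (FiniteField.frobeniusAlgHom (ZMod ℓ) κ)
        (WeierstrassCurve.Affine.Point.map (W' := W.toAffine)
          (FiniteField.frobeniusAlgHom (ZMod ℓ) κ) P)
      - t • WeierstrassCurve.Affine.Point.map (W' := W.toAffine)
          (FiniteField.frobeniusAlgHom (ZMod ℓ) κ) P
      + (ℓ : ℤ) • P = 0 := by
  have hinj : Function.Injective
      (WeierstrassCurve.Affine.Point.baseChange (W' := W.toAffine) κ (AlgebraicClosure κ)) :=
    WeierstrassCurve.Affine.Point.map_injective _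
  apply hinj
  rw [map_zero, map_add, map_sub, map_zsmul, map_zsmul,
    ← descent_map_frobenius_baseChange, ← descent_map_frobenius_baseChange]
  exact H (AlgebraicClosure κ) _

end

end Fermat.Agent.S52.Frob
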