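/-
S52 / [Frob] leaves [P1] + [P2] (helper38): the degree `rdeg` of a rational function.

* `rdeg_div`              : `rdeg (n / d) = max (deg n) (deg d)` for coprime `n`, `d`;
* `rdeg_eq_zero_iff`      : `rdeg a = 0` iff `a` is constant;
* `rdeg_X_pow`            : `rdeg (X ^ n) = n`;
* `rdeg_add_of_sum_prod`  : if `(S₀ : S₁ : S₂)` is a coprime triple with
  `a₊ + a₋ = S₁ / S₀`, `a₊ a₋ = S₂ / S₀`, then `rdeg a₊ + rdeg a₋ = max deg Sᵢ`.
-/
import Mathlib
import Fermat.Agent.S52.Frob.Defs
import Fermat.Agent.S52.Frob.HtPoly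

set_option autoImplicit false

open Polynomial

namespace Fermat.Agent.S52.Frob

universe u

variable {K : Type u} [Field K]

open Fermat.Agent.S52.HtPoly

private lemma natDegree_eq_of_dvd_dvd {p q : K[X]} (h₁ : p ∣ q) (h₂ : q ∣ p) :
    p.natDegree = q.natDegree := by
  have := degree_eq_degree_of_associated (associated_of_dvd_dvd h₁ h₂)
  exact natDegree_eq_of_degree_eq this

/-- numerator and denominator of a reduced fraction have the degrees of the given ones. -/
theorem natDegree_num_denom_div {n d : K[X]} (hd : d ≠ 0) (hcop : IsCoprime n d) :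
    (algebraMap K[X] (RatFunc K) n / algebraMap K[X] (RatFunc K) d).num.natDegree = n.natDegree ∧
    (algebraMap K[X] (RatFunc K) n / algebraMap K[X] (RatFunc K) d).denom.natDegree
      = d.natDegree := by
  set r : RatFunc K := algebraMap K[X] (RatFunc K) n / algebraMap K[X] (RatFunc K) d with hr
  have hrel : r.num * d = n * r.denom := (RatFunc.num_mul_eq_mul_denom_iff hd).mpr hr
  have hc : IsCoprime r.num r.denom := RatFunc.isCoprime_num_denom r
  constructor
  · apply natDegree_eq_of_dvd_dvd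
    · exact hc.dvd_of_dvd_mul_right ⟨d, by rw [hrel]⟩
    · exact hcop.dvd_of_dvd_mul_right ⟨r.denom, by rw [← hrel]⟩
  · apply natDegree_eq_of_dvd_dvd
    · exact hc.symm.dvd_of_dvd_mul_left ⟨n, by linear_combination hrel⟩
    · exact hcop.symm.dvd_of_dvd_mul_left ⟨r.num, by linear_combination -hrel⟩

/-- **[P1]** the degree of a reduced fraction. -/
theorem rdeg_div {n d : K[X]} (hd : d ≠ 0) (hcop : IsCoprime n d) :
    rdeg (algebraMap K[X] (RatFunc K) n / algebraMap K[X] (RatFunc K) d)
      = max n.natDegree d.natDegree := by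
  obtain ⟨h1, h2⟩ := natDegree_num_denom_div hd hcop
  rw [rdeg, h1, h2]

/-- **[P1]** the rational functions of degree `0` are the constants. -/
theorem rdeg_eq_zero_iff (a : RatFunc K) : rdeg a = 0 ↔ ∃ c : K, a = RatFunc.C c := by
  constructor
  · intro h
    rw [rdeg, Nat.max_eq_zero_iff] at h
    obtain ⟨c₁, hc₁⟩ := natDegree_eq_zero.mp h.1
    obtain ⟨c₂, hc₂⟩ := natDegree_eq_zero.mp h.2
    refine ⟨c₁ / c₂, ?_⟩
    rw [← RatFunc.num_div_denom a, ← hc₁, ← hc₂, RatFunc.algebraMap_C, RatFunc.algebraMap_C,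
      map_div₀]
  · rintro ⟨c, rfl⟩
    rw [rdeg, RatFunc.num_C, RatFunc.denom_C, natDegree_C, natDegree_one, max_self]

/-- **[P1]** `rdeg (X ^ n) = n`. -/
theorem rdeg_X_pow (n : ℕ) : rdeg ((RatFunc.X : RatFunc K) ^ n) = n := by
  have h := rdeg_div (K := K) (n := X ^ n) (d := 1) one_ne_zero isCoprime_one_right
  rw [map_one, div_one, map_pow, RatFunc.algebraMap_X, natDegree_X_pow, natDegree_one] at h
  rw [h, max_eq_left (Nat.zero_le n)]

/-- **[P2]** if `(S₀ : S₁ : S₂)` is a coprime triple of polynomials with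
`a₊ + a₋ = S₁ / S₀` and `a₊ a₋ = S₂ / S₀`, then `rdeg a₊ + rdeg a₋` is the maximal degree
of the `Sᵢ`. -/
theorem rdeg_add_of_sum_prod (ap am : RatFunc K) (S₀ S₁ S₂ : K[X]) (_hS₀ : S₀ ≠ 0)
    (hcop : ∀ π : K[X], Prime π → π ∣ S₀ → π ∣ S₁ → π ∣ S₂ → False)
    (hsum : (ap + am) * algebraMap K[X] (RatFunc K) S₀ = algebraMap K[X] (RatFunc K) S₁)
    (hprod : ap * am * algebraMap K[X] (RatFunc K) S₀ = algebraMap K[X] (RatFunc K) S₂) :
    rdeg ap + rdeg am = max S₀.natDegree (max S₁.natDegree S₂.natDegree) := by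
  set A : Fin 3 → K[X] := symT ap.num ap.denom am.num am.denom with hA
  set B : Fin 3 → K[X] := ![S₂, S₁, S₀] with hB
  have hcA : Cop A := cop_sym (RatFunc.isCoprime_num_denom ap) (RatFunc.isCoprime_num_denom am)
  have hcB : Cop B := by
    apply cop_of_forall_prime
    intro p hp hall
    exact hcop p hp (by simpa [hB] using hall 2) (by simpa [hB] using hall 1)
      (by simpa [hB] using hall 0)
  have hdA : maxDeg A = rdeg ap + rdeg am :=
    maxDeg_sym (RatFunc.isCoprime_num_denom ap) (RatFunc.isCoprime_num_denom am)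
  -- both triples are multiples of `(a₊ a₋, a₊ + a₋, 1)`
  set v : Fin 3 → RatFunc K := ![ap * am, ap + am, 1] with hv
  have hdp : algebraMap K[X] (RatFunc K) ap.denom ≠ 0 :=
    (map_ne_zero_iff _ (RatFunc.algebraMap_injective K)).mpr ap.denom_ne_zero
  have hdm : algebraMap K[X] (RatFunc K) am.denom ≠ 0 :=
    (map_ne_zero_iff _ (RatFunc.algebraMap_injective K)).mpr am.denom_ne_zero
  have hap : algebraMap K[X] (RatFunc K) ap.num = ap * algebraMap K[X] (RatFunc K) ap.denom := by
    rw [← div_eq_iff hdp]; exact RatFunc.num_div_denom ap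
  have ham : algebraMap K[X] (RatFunc K) am.num = am * algebraMap K[X] (RatFunc K) am.denom := by
    rw [← div_eq_iff hdm]; exact RatFunc.num_div_denom am
  have hAv : ∀ i, algebraMap K[X] (RatFunc K) (A i)
      = algebraMap K[X] (RatFunc K) (ap.denom * am.denom) * v i := by
    intro i
    fin_cases i
    · simp only [hA, symT, hv, Fin.zero_eta, Matrix.cons_val_zero, map_mul]
      rw [hap, ham]; ring
    · simp only [hA, symT, hv, Fin.mk_one, Matrix.cons_val_one, Matrix.cons_val_zero, map_mul,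
        map_add]
      rw [hap, ham]; ring
    · simp [hA, symT, hv]
  have hBv : ∀ i, algebraMap K[X] (RatFunc K) (B i)
      = algebraMap K[X] (RatFunc K) S₀ * v i := by
    intro i
    fin_cases i
    · simp only [hB, hv, Fin.zero_eta, Matrix.cons_val_zero]
      rw [← hprod]; ring
    · simp only [hB, hv, Fin.mk_one, Matrix.cons_val_one, Matrix.cons_val_zero]
      rw [← hsum]; ring
    · simp [hB, hv]
  have hprop : ∀ i j, A i * B j = A j * B i := by
    intro i j
    apply RatFunc.algebraMap_injective K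
    rw [map_mul, map_mul, hAv i, hAv j, hBv i, hBv j]
    ring
  have hAB : maxDeg A = maxDeg B := maxDeg_eq_of_cop hcA hcB hprop
  rw [← hdA, hAB]
  simp only [maxDeg, hB, Matrix.cons_val_zero, Matrix.cons_val_one]
  have h2 : (![S₂, S₁, S₀] : Fin 3 → K[X]) 2 = S₀ := rfl
  rw [h2]
  rw [max_comm S₁.natDegree S₀.natDegree, ← max_assoc, max_comm S₂.natDegree S₀.natDegree,
    max_assoc, max_comm S₂.natDegree S₁.natDegree]

end Fermat.Agent.S52.Frob
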