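/-
S52 / block [Frob], leaf [P5] (owner: helper59).  Substitution endomorphisms of
`AlgebraicClosure (RatFunc K)`: for `K` algebraically closed and `z ∉ K` there is a
`K`-algebra endomorphism sending `X` to `z`; and any such endomorphism sending `X` to a
rational function `a` acts on `RatFunc K` as `r ↦ rcomp r a`.
-/
import Mathlib
import Fermat.Agent.S52.Frob.Defs

set_option autoImplicit false

open Polynomial

namespace Fermat.Agent.S52.Frob

universe u

variable {K : Type u} [Field K]

/-- An element of an extension field of an algebraically closed field `K` which does not lie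
in `K` is transcendental over `K`. -/
theorem subst_transcendental [IsAlgClosed K] {L : Type*} [Field L] [Algebra K L] (z : L)
    (hz : z ∉ Set.range (algebraMap K L)) : Transcendental K z := by
  intro halg
  have hint : IsIntegral K z := halg.isIntegral
  have hdeg : (minpoly K z).degree = 1 :=
    IsAlgClosed.degree_eq_one_of_irreducible K (minpoly.irreducible hint)
  exact hz (minpoly.mem_range_of_degree_eq_one K z hdeg)

/-- **[P5] existence of substitutions.** -/
theorem exists_subst [IsAlgClosed K] (z : AlgebraicClosure (RatFunc K))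
    (hz : z ∉ Set.range (algebraMap K (AlgebraicClosure (RatFunc K)))) :
    ∃ s : AlgebraicClosure (RatFunc K) →ₐ[K] AlgebraicClosure (RatFunc K),
      s (algebraMap (RatFunc K) (AlgebraicClosure (RatFunc K)) RatFunc.X) = z := by
  classical
  have htr : Transcendental K z := subst_transcendental z hz
  have hinj : Function.Injective (Polynomial.aeval z : K[X] →ₐ[K] AlgebraicClosure (RatFunc K)) :=
    transcendental_iff_injective.mp htr
  -- the `K`-algebra map `RatFunc K → F`, `X ↦ z`
  let s₀ : RatFunc K →ₐ[K] AlgebraicClosure (RatFunc K) :=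
    RatFunc.liftAlgHom (Polynomial.aeval z)
      (nonZeroDivisors_le_comap_nonZeroDivisors_of_injective _ hinj)
  have hs₀X : s₀ RatFunc.X = z := by
    have h := RatFunc.liftAlgHom_apply_div (φ := (Polynomial.aeval z : K[X] →ₐ[K] _))
      (hφ := nonZeroDivisors_le_comap_nonZeroDivisors_of_injective _ hinj) (X : K[X]) 1
    simp only [map_one, div_one, Polynomial.aeval_X, RatFunc.algebraMap_X] at h
    exact h
  -- extend along the algebraic extension `RatFunc K → F`
  obtain ⟨g, hg⟩ : ∃ g : AlgebraicClosure (RatFunc K) →+* AlgebraicClosure (RatFunc K),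
      ∀ r : RatFunc K, g (algebraMap (RatFunc K) (AlgebraicClosure (RatFunc K)) r) = s₀ r := by
    let f := @IsAlgClosed.lift (AlgebraicClosure (RatFunc K)) _ _ (RatFunc K) _ _
      (AlgebraicClosure (RatFunc K)) _ _ (AlgebraicClosure.instAlgebra (RatFunc K))
      s₀.toRingHom.toAlgebra _ _ _
    refine ⟨@AlgHom.toRingHom (RatFunc K) (AlgebraicClosure (RatFunc K))
      (AlgebraicClosure (RatFunc K)) _ _ _ (AlgebraicClosure.instAlgebra (RatFunc K))
      s₀.toRingHom.toAlgebra f, fun r => ?_⟩
    exact @AlgHom.commutes (RatFunc K) (AlgebraicClosure (RatFunc K))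
      (AlgebraicClosure (RatFunc K)) _ _ _ (AlgebraicClosure.instAlgebra (RatFunc K))
      s₀.toRingHom.toAlgebra f r
  refine ⟨{ g with commutes' := fun c => ?_ }, ?_⟩
  · have h1 : algebraMap K (AlgebraicClosure (RatFunc K)) c
        = algebraMap (RatFunc K) (AlgebraicClosure (RatFunc K)) (algebraMap K (RatFunc K) c) :=
      IsScalarTower.algebraMap_apply K (RatFunc K) (AlgebraicClosure (RatFunc K)) c
    show g (algebraMap K (AlgebraicClosure (RatFunc K)) c)
      = algebraMap K (AlgebraicClosure (RatFunc K)) c
    rw [h1, hg, AlgHom.commutes]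
    exact h1
  · show g (algebraMap (RatFunc K) (AlgebraicClosure (RatFunc K)) RatFunc.X) = z
    rw [hg, hs₀X]

/-- **[P5] substitutions act on `RatFunc K` by composition.** -/
theorem subst_algebraMap
    (s : AlgebraicClosure (RatFunc K) →ₐ[K] AlgebraicClosure (RatFunc K)) (a : RatFunc K)
    (hs : s (algebraMap (RatFunc K) (AlgebraicClosure (RatFunc K)) RatFunc.X)
      = algebraMap (RatFunc K) (AlgebraicClosure (RatFunc K)) a) (r : RatFunc K) :
    s (algebraMap (RatFunc K) (AlgebraicClosure (RatFunc K)) r)
      = algebraMap (RatFunc K) (AlgebraicClosure (RatFunc K)) (rcomp r a) := by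
  have key : ∀ p : K[X],
      s (algebraMap (RatFunc K) (AlgebraicClosure (RatFunc K)) (algebraMap K[X] (RatFunc K) p))
        = algebraMap (RatFunc K) (AlgebraicClosure (RatFunc K)) (Polynomial.aeval a p) := by
    intro p
    have h1 : algebraMap (RatFunc K) (AlgebraicClosure (RatFunc K)) (algebraMap K[X] (RatFunc K) p)
        = Polynomial.aeval
            (algebraMap (RatFunc K) (AlgebraicClosure (RatFunc K)) RatFunc.X) p := by
      have hX : (algebraMap K[X] (RatFunc K) p) = Polynomial.aeval (RatFunc.X : RatFunc K) p := by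
        have h0 := Polynomial.aeval_algebraMap_apply (A := K[X]) (RatFunc K) (X : K[X]) p
        rw [Polynomial.aeval_X_left_apply, RatFunc.algebraMap_X] at h0
        exact h0.symm
      rw [hX, Polynomial.aeval_algebraMap_apply]
    rw [h1, ← Polynomial.aeval_algHom_apply, hs, Polynomial.aeval_algebraMap_apply]
  conv_lhs => rw [← RatFunc.num_div_denom r]
  rw [map_div₀, map_div₀, key, key, rcomp, map_div₀]

end Fermat.Agent.S52.Frob
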