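/-
S52 / block [Frob], slice [S5a] (owner of this file: helper59).  The ENDGAME inputs of the
elementary proof of `φ² - [t] φ + [ℓ] = 0`, in the setting of `Setup.lean` / `Gamma.lean`:

* `glueZ` : an odd point of height `0` is killed by `2` and is either `0` or has both
  coordinates in `K`  (so it is fixed by every substitution endomorphism).
-/
import Fermat.Agent.S52.Frob.Gamma
import Fermat.Agent.S52.Frob.Subst
import Fermat.Agent.S52.Frob.RatDeg

set_option autoImplicit false

open Polynomial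
open scoped WeierstrassCurve.Affine

namespace Fermat.Agent.S52.Frob

universe u

noncomputable section

attribute [local instance] Classical.propDecidable

variable (ℓ : ℕ) [Fact ℓ.Prime] (W : WeierstrassCurve (ZMod ℓ)) (K : Type u) [Field K]
  [Algebra (ZMod ℓ) K]

/-! ### Small facts about the setting -/

lemma endg_some_congr {x x' y y' : FF K} (h : (WF ℓ W K).toAffine.Nonsingular x y)
    (h' : (WF ℓ W K).toAffine.Nonsingular x' y') (hx : x = x') (hy : y = y') :
    WeierstrassCurve.Affine.Point.some x y h = WeierstrassCurve.Affine.Point.some x' y' h' := by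
  subst hx hy; rfl

lemma endg_two_ne_zero_K (hℓ : ℓ ≠ 2) : (2 : K) ≠ 0 := by
  intro h
  apply two_ne_zero_FF ℓ K hℓ
  have := congrArg (algebraMap K (FF K)) h
  rw [map_ofNat, map_zero] at this
  exact this

lemma endg_four_ne_zero_K (hℓ : ℓ ≠ 2) : (4 : K) ≠ 0 := by
  have h2 : (2 : K) ≠ 0 := endg_two_ne_zero_K ℓ K hℓ
  intro h
  apply h2
  have : (2 : K) * 2 = 0 := by rw [← h]; norm_num
  exact (mul_self_eq_zero.mp this)

/-- `dPoly` of the curve, over `K`. -/
def endgD : K[X] := (dPoly W).map (algebraMap (ZMod ℓ) K)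

lemma endgD_eq : endgD ℓ W K = C 4 * X ^ 3 + C (WK ℓ W K).b₂ * X ^ 2
    + C (2 * (WK ℓ W K).b₄) * X + C (WK ℓ W K).b₆ := by
  simp only [endgD, dPoly, Polynomial.map_add, Polynomial.map_mul, Polynomial.map_pow,
    Polynomial.map_C, Polynomial.map_X, WeierstrassCurve.map_b₂, WeierstrassCurve.map_b₄,
    WeierstrassCurve.map_b₆, map_mul, map_ofNat, Polynomial.map_ofNat]

lemma endgD_natDegree (hℓ : ℓ ≠ 2) : (endgD ℓ W K).natDegree = 3 := by
  rw [endgD_eq]
  have h4 := endg_four_ne_zero_K ℓ K hℓ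
  compute_degree!

lemma endgD_ne_zero (hℓ : ℓ ≠ 2) : endgD ℓ W K ≠ 0 := by
  intro h
  have := endgD_natDegree ℓ W K hℓ
  rw [h] at this
  simp at this

lemma endg_dRat : dRat ℓ W K = algebraMap K[X] (RatFunc K) (endgD ℓ W K) := rfl

/-- `X ∉ K`. -/
lemma endg_Xf_not_const : Xf K ∉ Set.range (algebraMap K (FF K)) := by
  rintro ⟨c, hc⟩
  rw [← iota_C] at hc
  have h1 : (RatFunc.C c : RatFunc K) = RatFunc.X := iota_injective K hc
  have h2 : rdeg (RatFunc.X : RatFunc K) = 1 := by simpa using rdeg_X_pow (K := K) 1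
  have h3 : rdeg (RatFunc.C c : RatFunc K) = 0 := (rdeg_eq_zero_iff _).mpr ⟨c, rfl⟩
  rw [h1, h2] at h3
  exact one_ne_zero h3

/-! ### (Z) -/

set_option linter.unusedVariables false in
/-- **[S5a] (Z).**  An odd point of height `0` is `2`-torsion and constant. -/
theorem glueZ (hℓ : ℓ ≠ 2) (hΔ : W.Δ ≠ 0) : ∀ P ∈ Gam ℓ W K hℓ, hgt ℓ W K P = 0 →
    P + P = 0 ∧ (P = 0 ∨ ∃ (x y : FF K) (h : (WF ℓ W K).toAffine.Nonsingular x y),
      P = WeierstrassCurve.Affine.Point.some x y h ∧ x ∈ Set.range (algebraMap K (FF K)) ∧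
        y ∈ Set.range (algebraMap K (FF K))) := by
  intro P hP hh
  rcases P with _ | ⟨x, y, h⟩
  · exact ⟨add_zero _, Or.inl rfl⟩
  · obtain ⟨a, b, rfl, hy⟩ := (some_mem_Gam ℓ W K hℓ h).mp hP
    rw [hgt_some_iota] at hh
    obtain ⟨c, rfl⟩ := (rdeg_eq_zero_iff a).mp hh
    have heq := (WeierstrassCurve.Affine.equation_iff _ _).mp h.left
    have hsq : (2 * y + (WF ℓ W K).a₁ * iota K (RatFunc.C c) + (WF ℓ W K).a₃) ^ 2
        = 4 * (iota K (RatFunc.C c)) ^ 3 + (WF ℓ W K).b₂ * (iota K (RatFunc.C c)) ^ 2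
          + 2 * (WF ℓ W K).b₄ * iota K (RatFunc.C c) + (WF ℓ W K).b₆ := by
      simp only [WeierstrassCurve.b₂, WeierstrassCurve.b₄, WeierstrassCurve.b₆]
      linear_combination 4 * heq
    rw [hy, mul_pow, eta0_sq, WF_b₂, WF_b₄, WF_b₆] at hsq
    set e : K := 4 * c ^ 3 + (WK ℓ W K).b₂ * c ^ 2 + 2 * (WK ℓ W K).b₄ * c + (WK ℓ W K).b₆
      with he
    have hR : b ^ 2 * dRat ℓ W K = RatFunc.C e := by
      apply iota_injective K
      rw [map_mul, map_pow, hsq, he]
      simp only [map_add, map_mul, map_pow, map_ofNat]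
    -- `b = 0` by parity of degrees
    have hb0 : b = 0 := by
      by_contra hb
      have hnd := RatFunc.num_div_denom b
      have hd : b.denom ≠ 0 := RatFunc.denom_ne_zero b
      have hn : b.num ≠ 0 := by
        intro h0
        exact hb ((RatFunc.num_eq_zero_iff).mp h0)
      have hd' : algebraMap K[X] (RatFunc K) b.denom ≠ 0 := RatFunc.algebraMap_ne_zero hd
      have hpoly : b.num ^ 2 * endgD ℓ W K = C e * b.denom ^ 2 := by
        apply RatFunc.algebraMap_injective K
        have hb' : b * algebraMap K[X] (RatFunc K) b.denom = algebraMap K[X] (RatFunc K) b.num :=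
          (eq_div_iff hd').mp hnd.symm
        rw [map_mul, map_mul, map_pow, map_pow, ← endg_dRat, RatFunc.algebraMap_C, ← hR, ← hb']
        ring
      have hdeg := congrArg natDegree hpoly
      rw [natDegree_mul (pow_ne_zero 2 hn) (endgD_ne_zero ℓ W K hℓ), natDegree_pow,
        endgD_natDegree ℓ W K hℓ] at hdeg
      by_cases he0 : e = 0
      · rw [he0, map_zero, zero_mul] at hpoly
        exact mul_ne_zero (pow_ne_zero 2 hn) (endgD_ne_zero ℓ W K hℓ) hpoly
      · rw [natDegree_C_mul he0, natDegree_pow] at hdeg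
        omega
    rw [hb0, map_zero, zero_mul] at hy
    have h2 := two_ne_zero_FF ℓ K hℓ
    have h2K := endg_two_ne_zero_K ℓ K hℓ
    refine ⟨?_, Or.inr ⟨_, _, h, rfl, ⟨c, (iota_C K c).symm⟩,
      ⟨-((WK ℓ W K).a₁ * c + (WK ℓ W K).a₃) / 2, ?_⟩⟩⟩
    · refine WeierstrassCurve.Affine.Point.add_of_Y_eq rfl ?_
      simp only [WeierstrassCurve.Affine.negY]
      linear_combination hy
    · rw [WF_a₁, WF_a₃, iota_C, iota_C, iota_C] at hy
      rw [map_div₀, map_neg, map_add, map_mul, map_ofNat]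
      rw [div_eq_iff h2]
      linear_combination -hy

end

end Fermat.Agent.S52.Frob
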