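/-
S52 / block [Frob], glue slice [S2] (owner: helper78).

In the concrete setting of `Frob/Setup.lean` / `Frob/Gamma.lean`: Frobenius `phi` maps the subgroup
`Γ = Gam` of odd points to itself and multiplies the height by `ℓ`.

For `P = (x, y) ∈ Γ`, `x = ι a`, `η(P) = 2 y + a₁ x + a₃ = ι b · η₀`:
`phi P = (x ^ ℓ, y ^ ℓ)`, `x ^ ℓ = ι (a ^ ℓ)` and
`η(phi P) = η(P) ^ ℓ = ι (b ^ ℓ) η₀ ^ ℓ = ι (b ^ ℓ D ^ ((ℓ - 1) / 2)) η₀` since `η₀² = ι D`.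
-/
import Fermat.Agent.S52.Frob.Gamma
import Fermat.Agent.S52.Frob.RatDeg

set_option autoImplicit false

open Polynomial
open scoped WeierstrassCurve.Affine

namespace Fermat.Agent.S52.Frob

universe u

noncomputable section

attribute [local instance] Classical.propDecidable

namespace GlueF

/-- `rdeg (a ^ n) = n * rdeg a`. -/
theorem rdeg_pow' {K : Type u} [Field K] (a : RatFunc K) (n : ℕ) : rdeg (a ^ n) = n * rdeg a := by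
  have hd : a.denom ≠ 0 := RatFunc.denom_ne_zero a
  have ha : a ^ n = algebraMap K[X] (RatFunc K) (a.num ^ n) /
      algebraMap K[X] (RatFunc K) (a.denom ^ n) := by
    rw [map_pow, map_pow, ← div_pow, RatFunc.num_div_denom]
  rw [ha, rdeg_div (pow_ne_zero n hd) ((RatFunc.isCoprime_num_denom a).pow), natDegree_pow,
    natDegree_pow, rdeg, Nat.mul_max_mul_left]

variable (ℓ : ℕ) [Fact ℓ.Prime] (W : WeierstrassCurve (ZMod ℓ)) (K : Type u) [Field K]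
  [Algebra (ZMod ℓ) K]

/-- Frobenius of `η(P) = 2 y + a₁ x + a₃`. -/
lemma eta_pow (x y : FF K) :
    (2 * y + (WF ℓ W K).a₁ * x + (WF ℓ W K).a₃) ^ ℓ =
      2 * y ^ ℓ + (WF ℓ W K).a₁ * x ^ ℓ + (WF ℓ W K).a₃ := by
  have e₁ : frobF ℓ K (WF ℓ W K).a₁ = (WF ℓ W K).a₁ := (frobF ℓ K).commutes W.a₁
  have e₃ : frobF ℓ K (WF ℓ W K).a₃ = (WF ℓ W K).a₃ := (frobF ℓ K).commutes W.a₃
  have e₂ : frobF ℓ K (2 : FF K) = 2 := map_ofNat (frobF ℓ K) 2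
  rw [← frobF_apply ℓ K (2 * y + (WF ℓ W K).a₁ * x + (WF ℓ W K).a₃), map_add, map_add, map_mul,
    map_mul, e₁, e₂, e₃, frobF_apply, frobF_apply]

/-- `η₀ ^ ℓ = η₀ · ι (D ^ ((ℓ - 1) / 2))` for odd `ℓ`. -/
lemma eta0_pow_eq (hℓ : ℓ ≠ 2) : eta0 ℓ W K ^ ℓ =
    iota K (dRat ℓ W K ^ ((ℓ - 1) / 2)) * eta0 ℓ W K := by
  have hp : ℓ.Prime := Fact.out
  have hodd : ℓ % 2 = 1 := hp.eq_two_or_odd.resolve_left hℓ
  have hl : ℓ = 2 * ((ℓ - 1) / 2) + 1 := by omega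
  rw [map_pow, ← eta0_sq, ← pow_mul, ← pow_succ]
  congr 1

end GlueF

variable (ℓ : ℕ) [Fact ℓ.Prime] (W : WeierstrassCurve (ZMod ℓ)) (K : Type u) [Field K]
  [Algebra (ZMod ℓ) K]

/-- **[S2]** Frobenius maps `Γ` to `Γ`. -/
theorem glueF_mem (hℓ : ℓ ≠ 2) : ∀ P ∈ Gam ℓ W K hℓ, phi ℓ W K P ∈ Gam ℓ W K hℓ := by
  rintro (_ | ⟨x, y, h⟩) hP
  · change phi ℓ W K 0 ∈ Gam ℓ W K hℓ
    rw [map_zero]
    exact (Gam ℓ W K hℓ).zero_mem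
  · obtain ⟨a, b, rfl, hy⟩ := (some_mem_Gam ℓ W K hℓ h).mp hP
    obtain ⟨h', hφ⟩ := phi_some ℓ W K h
    rw [hφ, some_mem_Gam]
    refine ⟨a ^ ℓ, b ^ ℓ * dRat ℓ W K ^ ((ℓ - 1) / 2), by rw [map_pow], ?_⟩
    rw [← GlueF.eta_pow, hy, mul_pow, GlueF.eta0_pow_eq ℓ W K hℓ]
    simp only [map_mul, map_pow]
    ring

/-- **[S2]** Frobenius multiplies the height by `ℓ` on `Γ`. -/
theorem glueF_hgt (hℓ : ℓ ≠ 2) :
    ∀ P ∈ Gam ℓ W K hℓ, hgt ℓ W K (phi ℓ W K P) = ℓ * hgt ℓ W K P := by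
  rintro (_ | ⟨x, y, h⟩) hP
  · change hgt ℓ W K (phi ℓ W K 0) = ℓ * hgt ℓ W K 0
    rw [map_zero, hgt_zero, mul_zero]
  · obtain ⟨a, b, rfl, hy⟩ := (some_mem_Gam ℓ W K hℓ h).mp hP
    obtain ⟨h', hφ⟩ := phi_some ℓ W K h
    rw [hφ, hgt_some, hgt_some, ← map_pow, xInv_iota, xInv_iota, GlueF.rdeg_pow']

end

end Fermat.Agent.S52.Frob
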