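/-
S52 / block [Frob], leaf [P6] (owner: helper41).  The `x(P ± Q)` identities and the duplication
formula in general Weierstrass form, in the exact shape of the [Frob] block table
(thin wrapper on `Fermat/Agent/S52/AddSub.lean`).
-/
import Mathlib
import Fermat.Agent.S52.AddSub

set_option autoImplicit false

namespace Fermat.Agent.S52.Frob

open WeierstrassCurve WeierstrassCurve.Affine

variable {F : Type*} [Field F] [DecidableEq F] (W : WeierstrassCurve F)

/-- Sum and product of `x(P + Q)` and `x(P - Q)` for affine points with distinct abscissae. -/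
theorem addX_add_sub {x₁ y₁ x₂ y₂ xp yp xm ym : F} (h₁ : W.toAffine.Nonsingular x₁ y₁)
    (h₂ : W.toAffine.Nonsingular x₂ y₂) (hp : W.toAffine.Nonsingular xp yp)
    (hm : W.toAffine.Nonsingular xm ym) (hx : x₁ ≠ x₂)
    (hadd : Point.some x₁ y₁ h₁ + Point.some x₂ y₂ h₂ = Point.some xp yp hp)
    (hsub : Point.some x₁ y₁ h₁ - Point.some x₂ y₂ h₂ = Point.some xm ym hm) :
    (xp + xm) * (x₁ - x₂) ^ 2 =
        2 * (x₁ + x₂) * (x₁ * x₂) + W.b₂ * (x₁ * x₂) + W.b₄ * (x₁ + x₂) + W.b₆ ∧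
      xp * xm * (x₁ - x₂) ^ 2 =
        (x₁ * x₂) ^ 2 - W.b₄ * (x₁ * x₂) - W.b₆ * (x₁ + x₂) - W.b₈ := by
  obtain ⟨x₃, y₃, x₄, y₄, h₃, h₄, e₃, e₄, hs, hq⟩ := AddSub.exists_add_sub W.toAffine h₁ h₂ hx
  have hD : (x₁ - x₂) ^ 2 ≠ 0 := pow_ne_zero 2 (sub_ne_zero.mpr hx)
  rw [e₃] at hadd
  rw [e₄] at hsub
  have e1 : x₃ = xp := (Point.some.inj hadd).1
  have e2 : x₄ = xm := (Point.some.inj hsub).1
  subst e1 e2
  rw [hs, hq, div_mul_cancel₀ _ hD, div_mul_cancel₀ _ hD]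
  simp only [AddSub.sumNum, AddSub.prodNum]
  exact ⟨by ring, trivial⟩

/-- The duplication formula. -/
theorem addX_double {x y x2 y2 : F} (h : W.toAffine.Nonsingular x y)
    (h2 : W.toAffine.Nonsingular x2 y2)
    (hdbl : Point.some x y h + Point.some x y h = Point.some x2 y2 h2) :
    x2 * (4 * x ^ 3 + W.b₂ * x ^ 2 + 2 * W.b₄ * x + W.b₆) =
      x ^ 4 - W.b₄ * x ^ 2 - 2 * W.b₆ * x - W.b₈ := by
  by_cases hy : y = W.toAffine.negY x y
  · rw [Point.add_self_of_Y_eq hy] at hdbl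
    exact absurd hdbl (by simp)
  · obtain ⟨x₃, y₃, h₃, e₃, hx₃⟩ := AddSub.exists_add_self W.toAffine h hy
    rw [e₃] at hdbl
    have e1 : x₃ = x2 := (Point.some.inj hdbl).1
    subst e1
    have hd : AddSub.dblDen W.toAffine x ≠ 0 := by
      rw [Ne, AddSub.dblDen_eq_zero_iff W.toAffine h.left]; exact hy
    have := hx₃
    rw [eq_div_iff hd] at this
    simpa only [AddSub.dblDen, AddSub.dblNum] using this

end Fermat.Agent.S52.Frob
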