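/-
S52 / block [Frob], leaf [P3] (owner helper77).

The exact degree recursion for `x`-coordinates along `P ↦ P ± G` (`G` the generic point) and
the degree of the duplication map, as pure statements about rational functions.  The
"no common zero" input is Mathlib's certificate `WeierstrassCurve.addSubMapCoeff_condition`,
so no new resultant identity is needed and every characteristic is covered.

* `rdeg_recursion` : `rdeg ap + rdeg am = 2 * rdeg a + 2`
* `rdeg_dup`       : `rdeg a2 = 4`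
-/
import Mathlib
import Fermat.Agent.S52.Frob.Defs

set_option autoImplicit false

open Polynomial

namespace Fermat.Agent.S52.Frob

universe u

variable {K : Type u} [Field K]

namespace RecAux

/-- Three polynomials generating the unit ideal (Bezout form). -/
def Cop3 (a b c : K[X]) : Prop := ∃ x y z : K[X], x * a + y * b + z * c = 1

lemma cop3_of_span {a b c : K[X]} (h : Ideal.span ({a, b, c} : Set K[X]) = ⊤) : Cop3 a b c := by
  have h1 : (1 : K[X]) ∈ Ideal.span ({a, b, c} : Set K[X]) := by rw [h]; trivial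
  rw [Ideal.mem_span_insert] at h1
  obtain ⟨x, w, hw, e⟩ := h1
  rw [Ideal.mem_span_pair] at hw
  obtain ⟨y, z, rfl⟩ := hw
  exact ⟨x, y, z, by rw [e]; ring⟩

lemma span_of_cop3 {a b c : K[X]} (h : Cop3 a b c) : Ideal.span ({a, b, c} : Set K[X]) = ⊤ := by
  obtain ⟨x, y, z, e⟩ := h
  rw [Ideal.eq_top_iff_one, ← e]
  refine Ideal.add_mem _ (Ideal.add_mem _ ?_ ?_) ?_
  · exact Ideal.mul_mem_left _ _ (Ideal.subset_span (by simp))
  · exact Ideal.mul_mem_left _ _ (Ideal.subset_span (by simp))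
  · exact Ideal.mul_mem_left _ _ (Ideal.subset_span (by simp))

/-- Gauss' lemma for a product of two linear forms, Bezout version. -/
lemma cop3_sym2 {p₁ q₁ p₂ q₂ : K[X]} (h₁ : IsCoprime p₁ q₁) (h₂ : IsCoprime p₂ q₂) :
    Cop3 (q₁ * q₂) (p₁ * q₂ + p₂ * q₁) (p₁ * p₂) := by
  obtain ⟨x₁, y₁, e₁⟩ := h₁
  obtain ⟨x₂, y₂, e₂⟩ := h₂
  refine ⟨-2*x₁*y₁*y₂^2*q₁*p₂ - y₁^2*x₂^2*p₂*p₁ - 2*y₁^2*x₂*y₂*q₂*p₁ + y₁^2*y₂^2*q₁*q₂,
    2*x₁^2*x₂*y₂*p₂*p₁ + x₁^2*y₂^2*q₂*p₁ + 2*x₁*y₁*x₂^2*p₁*p₂ + 2*x₁*y₁*y₂^2*q₁*q₂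
      + y₁^2*x₂^2*p₂*q₁ + 2*y₁^2*x₂*y₂*q₂*q₁,
    x₁^2*x₂^2*p₁*p₂ - 2*x₁^2*x₂*y₂*p₂*q₁ - x₁^2*y₂^2*q₂*q₁ - 2*x₁*y₁*x₂^2*p₁*q₂
      + 4*x₁*y₁*x₂*y₂*q₁*q₂, ?_⟩
  have h : (x₁ * p₁ + y₁ * q₁) ^ 2 * (x₂ * p₂ + y₂ * q₂) ^ 2 = 1 := by rw [e₁, e₂]; ring
  rw [← h]; ring

/-- Two proportional coprime triples differ by a unit. -/
lemma cop3_prop {S₀ S₁ S₂ T₀ T₁ T₂ : K[X]} (hS : Cop3 S₀ S₁ S₂) (hT : Cop3 T₀ T₁ T₂)
    (hT₀ : T₀ ≠ 0) (h₁ : T₁ * S₀ = S₁ * T₀) (h₂ : T₂ * S₀ = S₂ * T₀) :
    ∃ c : K[X], IsUnit c ∧ S₀ = c * T₀ ∧ S₁ = c * T₁ ∧ S₂ = c * T₂ := by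
  obtain ⟨a, b, c, hS⟩ := hS
  obtain ⟨x, y, z, hT⟩ := hT
  have e1 : S₀ = (x * S₀ + y * S₁ + z * S₂) * T₀ := by
    calc S₀ = S₀ * (x * T₀ + y * T₁ + z * T₂) := by rw [hT, mul_one]
      _ = (x * S₀ + y * S₁ + z * S₂) * T₀ := by linear_combination y * h₁ + z * h₂
  have e2 : T₀ = (a * T₀ + b * T₁ + c * T₂) * S₀ := by
    calc T₀ = T₀ * (a * S₀ + b * S₁ + c * S₂) := by rw [hS, mul_one]
      _ = (a * T₀ + b * T₁ + c * T₂) * S₀ := by linear_combination -b * h₁ - c * h₂
  generalize x * S₀ + y * S₁ + z * S₂ = u at e1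
  generalize a * T₀ + b * T₁ + c * T₂ = v at e2
  have huv : u * v = 1 := by
    have h : (u * v) * T₀ = 1 * T₀ := by
      calc (u * v) * T₀ = v * (u * T₀) := by ring
        _ = v * S₀ := by rw [← e1]
        _ = T₀ := e2.symm
        _ = 1 * T₀ := (one_mul _).symm
    exact mul_right_cancel₀ hT₀ h
  refine ⟨u, IsUnit.of_mul_eq_one _ huv, e1, ?_, ?_⟩
  · apply mul_right_cancel₀ hT₀
    calc S₁ * T₀ = T₁ * S₀ := h₁.symm
      _ = T₁ * (u * T₀) := congrArg _ e1
      _ = u * T₁ * T₀ := by ring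
  · apply mul_right_cancel₀ hT₀
    calc S₂ * T₀ = T₂ * S₀ := h₂.symm
      _ = T₂ * (u * T₀) := congrArg _ e1
      _ = u * T₂ * T₀ := by ring

lemma natDegree_eq_of_unit_mul {c p q : K[X]} (hc : IsUnit c) (h : p = c * q) :
    p.natDegree = q.natDegree := by
  obtain ⟨k, hk, rfl⟩ := Polynomial.isUnit_iff.mp hc
  rw [h, natDegree_C_mul hk.ne_zero]

/-- Degree form of Gauss' lemma for a product of two linear forms. -/
lemma natDegree_sym2 {p₁ q₁ p₂ q₂ : K[X]} (hq₁ : q₁ ≠ 0) (hq₂ : q₂ ≠ 0) :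
    max (q₁ * q₂).natDegree (max (p₁ * q₂ + p₂ * q₁).natDegree (p₁ * p₂).natDegree) =
      max p₁.natDegree q₁.natDegree + max p₂.natDegree q₂.natDegree := by
  have hqq : (q₁ * q₂).natDegree = q₁.natDegree + q₂.natDegree := natDegree_mul hq₁ hq₂
  have hpp : (p₁ * p₂).natDegree ≤ p₁.natDegree + p₂.natDegree := natDegree_mul_le
  have h12 : (p₁ * q₂).natDegree ≤ p₁.natDegree + q₂.natDegree := natDegree_mul_le
  have h21 : (p₂ * q₁).natDegree ≤ p₂.natDegree + q₁.natDegree := natDegree_mul_le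
  have hmid : (p₁ * q₂ + p₂ * q₁).natDegree ≤
      max (p₁.natDegree + q₂.natDegree) (p₂.natDegree + q₁.natDegree) :=
    (natDegree_add_le _ _).trans (max_le_max h12 h21)
  rcases le_or_gt p₁.natDegree q₁.natDegree with hA | hA <;>
    rcases le_or_gt p₂.natDegree q₂.natDegree with hB | hB
  · rw [max_eq_right hA, max_eq_right hB, hqq]
    apply max_eq_left
    refine max_le (hmid.trans ?_) (hpp.trans ?_) <;> omega
  · -- deg p₁ ≤ deg q₁, deg p₂ > deg q₂ : the middle term has degree deg p₂ + deg q₁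
    have hp₂ : p₂ ≠ 0 := by rintro rfl; simp at hB
    have e21 : (p₂ * q₁).natDegree = p₂.natDegree + q₁.natDegree := natDegree_mul hp₂ hq₁
    have hm : (p₁ * q₂ + p₂ * q₁).natDegree = p₂.natDegree + q₁.natDegree := by
      rw [natDegree_add_eq_right_of_natDegree_lt (by omega), e21]
    rw [max_eq_right hA, max_eq_left hB.le, hqq, hm]
    have : max (p₂.natDegree + q₁.natDegree) (p₁ * p₂).natDegree = p₂.natDegree + q₁.natDegree :=
      max_eq_left (by omega)
    rw [this]; omega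
  · have hp₁ : p₁ ≠ 0 := by rintro rfl; simp at hA
    have e12 : (p₁ * q₂).natDegree = p₁.natDegree + q₂.natDegree := natDegree_mul hp₁ hq₂
    have hm : (p₁ * q₂ + p₂ * q₁).natDegree = p₁.natDegree + q₂.natDegree := by
      rw [natDegree_add_eq_left_of_natDegree_lt (by omega), e12]
    rw [max_eq_left hA.le, max_eq_right hB, hqq, hm]
    have : max (p₁.natDegree + q₂.natDegree) (p₁ * p₂).natDegree = p₁.natDegree + q₂.natDegree :=
      max_eq_left (by omega)
    rw [this]; omega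
  · have hp₁ : p₁ ≠ 0 := by rintro rfl; simp at hA
    have hp₂ : p₂ ≠ 0 := by rintro rfl; simp at hB
    have epp : (p₁ * p₂).natDegree = p₁.natDegree + p₂.natDegree := natDegree_mul hp₁ hp₂
    rw [max_eq_left hA.le, max_eq_left hB.le, hqq, epp]
    have : max (p₁ * q₂ + p₂ * q₁).natDegree (p₁.natDegree + p₂.natDegree) =
        p₁.natDegree + p₂.natDegree := max_eq_right (hmid.trans (by omega))
    rw [this]; omega

/-- A rational function whose sum and product with a second one are given by a coprime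
triple of polynomials: the degrees add up to the maximal degree of the triple. -/
lemma rdeg_add_of_cop3 (ap am : RatFunc K) (S₀ S₁ S₂ : K[X]) (hS : Cop3 S₀ S₁ S₂)
    (hsum : (ap + am) * algebraMap K[X] (RatFunc K) S₀ = algebraMap K[X] (RatFunc K) S₁)
    (hprod : ap * am * algebraMap K[X] (RatFunc K) S₀ = algebraMap K[X] (RatFunc K) S₂) :
    rdeg ap + rdeg am = max S₀.natDegree (max S₁.natDegree S₂.natDegree) := by
  have hdp : algebraMap K[X] (RatFunc K) ap.denom ≠ 0 :=
    (map_ne_zero_iff _ (RatFunc.algebraMap_injective K)).mpr ap.denom_ne_zero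
  have hdm : algebraMap K[X] (RatFunc K) am.denom ≠ 0 :=
    (map_ne_zero_iff _ (RatFunc.algebraMap_injective K)).mpr am.denom_ne_zero
  have ep : ap * algebraMap K[X] (RatFunc K) ap.denom = algebraMap K[X] (RatFunc K) ap.num :=
    ((div_eq_iff hdp).mp (RatFunc.num_div_denom ap)).symm
  have em : am * algebraMap K[X] (RatFunc K) am.denom = algebraMap K[X] (RatFunc K) am.num :=
    ((div_eq_iff hdm).mp (RatFunc.num_div_denom am)).symm
  have hT := cop3_sym2 (RatFunc.isCoprime_num_denom ap) (RatFunc.isCoprime_num_denom am)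
  have hT₀ : ap.denom * am.denom ≠ 0 := mul_ne_zero ap.denom_ne_zero am.denom_ne_zero
  have h₁ : (ap.num * am.denom + am.num * ap.denom) * S₀ = S₁ * (ap.denom * am.denom) := by
    apply RatFunc.algebraMap_injective K
    simp only [map_mul, map_add]
    rw [← hsum, ← ep, ← em]
    ring
  have h₂ : (ap.num * am.num) * S₀ = S₂ * (ap.denom * am.denom) := by
    apply RatFunc.algebraMap_injective K
    simp only [map_mul]
    rw [← hprod, ← ep, ← em]
    ring
  obtain ⟨c, hc, e₀, e₁, e₂⟩ := cop3_prop hS hT hT₀ h₁ h₂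
  rw [natDegree_eq_of_unit_mul hc e₀, natDegree_eq_of_unit_mul hc e₁,
    natDegree_eq_of_unit_mul hc e₂, natDegree_sym2 ap.denom_ne_zero am.denom_ne_zero]
  rfl

/-- The degree of a quotient of coprime polynomials. -/
lemma rdeg_of_mul_eq {n d : K[X]} (hcop : IsCoprime n d) (a : RatFunc K)
    (h : a * algebraMap K[X] (RatFunc K) d = algebraMap K[X] (RatFunc K) n) :
    rdeg a = max n.natDegree d.natDegree := by
  have hda : algebraMap K[X] (RatFunc K) a.denom ≠ 0 :=
    (map_ne_zero_iff _ (RatFunc.algebraMap_injective K)).mpr a.denom_ne_zero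
  have ea : a * algebraMap K[X] (RatFunc K) a.denom = algebraMap K[X] (RatFunc K) a.num :=
    ((div_eq_iff hda).mp (RatFunc.num_div_denom a)).symm
  have key : a.num * d = n * a.denom := by
    apply RatFunc.algebraMap_injective K
    simp only [map_mul]
    rw [← ea, ← h]
    ring
  have hc := RatFunc.isCoprime_num_denom a
  have h1 : a.num ∣ n := hc.dvd_of_dvd_mul_right ⟨d, key.symm⟩
  have h2 : n ∣ a.num := hcop.dvd_of_dvd_mul_right ⟨a.denom, key⟩
  have h3 : a.denom ∣ d := hc.symm.dvd_of_dvd_mul_left ⟨n, by rw [mul_comm a.denom n, ← key]⟩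
  have h4 : d ∣ a.denom := hcop.symm.dvd_of_dvd_mul_left ⟨a.num, by rw [mul_comm d a.num, key]⟩
  have en : a.num.natDegree = n.natDegree :=
    natDegree_eq_of_degree_eq (degree_eq_degree_of_associated (associated_of_dvd_dvd h1 h2))
  have ed : a.denom.natDegree = d.natDegree :=
    natDegree_eq_of_degree_eq (degree_eq_degree_of_associated (associated_of_dvd_dvd h3 h4))
  unfold rdeg
  rw [en, ed]

/-- The `addSubMap` certificate: the image of a coprime triple is a coprime triple. -/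
lemma cop3_addSub (W : WeierstrassCurve K) [W.IsElliptic] (x : Fin 3 → K[X])
    (hx : Cop3 (x 0) (x 1) (x 2)) :
    Cop3 (MvPolynomial.eval x (WeierstrassCurve.addSubMap (W.map (C : K →+* K[X])) 2))
      (MvPolynomial.eval x (WeierstrassCurve.addSubMap (W.map (C : K →+* K[X])) 1))
      (MvPolynomial.eval x (WeierstrassCurve.addSubMap (W.map (C : K →+* K[X])) 0)) := by
  apply cop3_of_span
  have h4 := Ideal.span_pow_eq_top _ (span_of_cop3 hx) 4
  rw [← top_le_iff, ← h4, Ideal.span_le]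
  rintro _ ⟨y, hy, rfl⟩
  have key : ∀ i : Fin 3, x i ^ 4 ∈ Ideal.span
      ({MvPolynomial.eval x (WeierstrassCurve.addSubMap (W.map (C : K →+* K[X])) 2),
        MvPolynomial.eval x (WeierstrassCurve.addSubMap (W.map (C : K →+* K[X])) 1),
        MvPolynomial.eval x (WeierstrassCurve.addSubMap (W.map (C : K →+* K[X])) 0)} :
        Set K[X]) := by
    intro i
    rw [← WeierstrassCurve.addSubMapCoeff_condition (W.map (C : K →+* K[X])) x i,
      Fin.sum_univ_three]
    refine Ideal.add_mem _ (Ideal.add_mem _ ?_ ?_) ?_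
    · exact Ideal.mul_mem_left _ _ (Ideal.subset_span (by simp))
    · exact Ideal.mul_mem_left _ _ (Ideal.subset_span (by simp))
    · exact Ideal.mul_mem_left _ _ (Ideal.subset_span (by simp))
  simp only [Set.mem_insert_iff, Set.mem_singleton_iff] at hy
  rcases hy with rfl | rfl | rfl
  · exact key 0
  · exact key 1
  · exact key 2

end RecAux

open RecAux

/-- **Degree recursion.**  If `ap`, `am` are the `x`-coordinates of `P + G`, `P - G`, where
`a = x(P)` and `G = (X, ·)` is the generic point, then `deg ap + deg am = 2 deg a + 2`. -/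
theorem rdeg_recursion (W : WeierstrassCurve K) (hΔ : W.Δ ≠ 0) (a ap am : RatFunc K)
    (ha : a ≠ RatFunc.X)
    (hsum : (ap + am) * (a - RatFunc.X) ^ 2 = 2 * (a + RatFunc.X) * (a * RatFunc.X)
      + RatFunc.C W.b₂ * (a * RatFunc.X) + RatFunc.C W.b₄ * (a + RatFunc.X) + RatFunc.C W.b₆)
    (hprod : ap * am * (a - RatFunc.X) ^ 2 = (a * RatFunc.X) ^ 2
      - RatFunc.C W.b₄ * (a * RatFunc.X) - RatFunc.C W.b₆ * (a + RatFunc.X) - RatFunc.C W.b₈) :
    rdeg ap + rdeg am = 2 * rdeg a + 2 := by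
  have : W.IsElliptic := ⟨isUnit_iff_ne_zero.mpr hΔ⟩
  obtain ⟨n, hn⟩ : ∃ n, n = a.num := ⟨_, rfl⟩
  obtain ⟨d, hd⟩ : ∃ d, d = a.denom := ⟨_, rfl⟩
  have hd0 : d ≠ 0 := hd ▸ a.denom_ne_zero
  have hcop : IsCoprime n d := by rw [hn, hd]; exact RatFunc.isCoprime_num_denom a
  have hιd : algebraMap K[X] (RatFunc K) d ≠ 0 :=
    (map_ne_zero_iff _ (RatFunc.algebraMap_injective K)).mpr hd0
  have ea : a * algebraMap K[X] (RatFunc K) d = algebraMap K[X] (RatFunc K) n := by
    rw [hn, hd]; exact ((div_eq_iff (hd ▸ hιd)).mp (RatFunc.num_div_denom a)).symm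
  have hm : rdeg a = max n.natDegree d.natDegree := by rw [hn, hd]; rfl
  -- the coprime triple `(a X : a + X : 1)` in lowest terms
  have hx : Cop3 ((![n * X, n + X * d, d] : Fin 3 → K[X]) 0)
      ((![n * X, n + X * d, d] : Fin 3 → K[X]) 1) ((![n * X, n + X * d, d] : Fin 3 → K[X]) 2) := by
    obtain ⟨u, v, huv⟩ := hcop
    refine ⟨0, u, v - u * X, ?_⟩
    simp only [Matrix.cons_val_zero, Matrix.cons_val_one, Matrix.cons_val]
    linear_combination huv
  have hS := cop3_addSub W _ hx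
  -- explicit form of the three values
  have e0 : MvPolynomial.eval (![n * X, n + X * d, d] : Fin 3 → K[X])
      (WeierstrassCurve.addSubMap (W.map (C : K →+* K[X])) 0) =
      (n * X) ^ 2 - C W.b₄ * (n * X) * d - C W.b₆ * (n + X * d) * d - C W.b₈ * d ^ 2 := by
    simp [WeierstrassCurve.addSubMap]
  have e1 : MvPolynomial.eval (![n * X, n + X * d, d] : Fin 3 → K[X])
      (WeierstrassCurve.addSubMap (W.map (C : K →+* K[X])) 1) =
      2 * (n + X * d) * (n * X) + C W.b₂ * (n * X) * d + C W.b₄ * (n + X * d) * d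
        + C W.b₆ * d ^ 2 := by
    simp [WeierstrassCurve.addSubMap]
  have e2 : MvPolynomial.eval (![n * X, n + X * d, d] : Fin 3 → K[X])
      (WeierstrassCurve.addSubMap (W.map (C : K →+* K[X])) 2) = (n - X * d) ^ 2 := by
    simp [WeierstrassCurve.addSubMap]
    ring
  rw [e0, e1, e2] at hS
  -- the sum/product relations in polynomial form
  have hsum' : (ap + am) * algebraMap K[X] (RatFunc K) ((n - X * d) ^ 2) =
      algebraMap K[X] (RatFunc K) (2 * (n + X * d) * (n * X) + C W.b₂ * (n * X) * d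
        + C W.b₄ * (n + X * d) * d + C W.b₆ * d ^ 2) := by
    simp only [map_sub, map_add, map_mul, map_pow, RatFunc.algebraMap_X, RatFunc.algebraMap_C,
      map_ofNat]
    rw [← ea]
    linear_combination (algebraMap K[X] (RatFunc K) d) ^ 2 * hsum
  have hprod' : ap * am * algebraMap K[X] (RatFunc K) ((n - X * d) ^ 2) =
      algebraMap K[X] (RatFunc K) ((n * X) ^ 2 - C W.b₄ * (n * X) * d - C W.b₆ * (n + X * d) * d
        - C W.b₈ * d ^ 2) := by
    simp only [map_sub, map_add, map_mul, map_pow, RatFunc.algebraMap_X, RatFunc.algebraMap_C]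
    rw [← ea]
    linear_combination (algebraMap K[X] (RatFunc K) d) ^ 2 * hprod
  rw [rdeg_add_of_cop3 ap am _ _ _ hS hsum' hprod', hm]
  -- degree bookkeeping
  obtain ⟨m, hmdef⟩ : ∃ m, m = max n.natDegree d.natDegree := ⟨_, rfl⟩
  rw [← hmdef]
  have hA : n.natDegree ≤ m := hmdef ▸ le_max_left _ _
  have hB : d.natDegree ≤ m := hmdef ▸ le_max_right _ _
  have b_C : ∀ c : K, (C c : K[X]).natDegree ≤ 0 := fun c => (natDegree_C c).le
  have b_two : (2 : K[X]).natDegree ≤ 0 := (natDegree_ofNat 2).le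
  have b_nX : (n * X).natDegree ≤ m + 1 :=
    natDegree_mul_le.trans (by rw [natDegree_X]; omega)
  have b_Xd : (X * d).natDegree ≤ m + 1 :=
    natDegree_mul_le.trans (by rw [natDegree_X]; omega)
  have b_t : (n + X * d).natDegree ≤ m + 1 :=
    (natDegree_add_le _ _).trans (max_le (by omega) b_Xd)
  have b_s : (n - X * d).natDegree ≤ m + 1 :=
    (natDegree_sub_le _ _).trans (max_le (by omega) b_Xd)
  have hS0le : ((n - X * d) ^ 2).natDegree ≤ 2 * m + 2 :=
    (natDegree_pow_le_of_le 2 b_s).trans (by omega)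
  have hS1le : (2 * (n + X * d) * (n * X) + C W.b₂ * (n * X) * d + C W.b₄ * (n + X * d) * d
      + C W.b₆ * d ^ 2).natDegree ≤ 2 * m + 2 := by
    have d1 : (2 * (n + X * d) * (n * X)).natDegree ≤ 2 * m + 2 :=
      (natDegree_mul_le_of_le (natDegree_mul_le_of_le b_two b_t) b_nX).trans (by omega)
    have d2 : (C W.b₂ * (n * X) * d).natDegree ≤ 2 * m + 2 :=
      (natDegree_mul_le_of_le (natDegree_mul_le_of_le (b_C _) b_nX) hB).trans (by omega)
    have d3 : (C W.b₄ * (n + X * d) * d).natDegree ≤ 2 * m + 2 :=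
      (natDegree_mul_le_of_le (natDegree_mul_le_of_le (b_C _) b_t) hB).trans (by omega)
    have d4 : (C W.b₆ * d ^ 2).natDegree ≤ 2 * m + 2 :=
      (natDegree_mul_le_of_le (b_C _) (natDegree_pow_le_of_le 2 hB)).trans (by omega)
    exact (natDegree_add_le _ _).trans (max_le ((natDegree_add_le _ _).trans
      (max_le ((natDegree_add_le _ _).trans (max_le d1 d2)) d3)) d4)
  have hS2le : ((n * X) ^ 2 - C W.b₄ * (n * X) * d - C W.b₆ * (n + X * d) * d
      - C W.b₈ * d ^ 2).natDegree ≤ 2 * m + 2 := by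
    have d1 : ((n * X) ^ 2).natDegree ≤ 2 * m + 2 :=
      (natDegree_pow_le_of_le 2 b_nX).trans (by omega)
    have d2 : (C W.b₄ * (n * X) * d).natDegree ≤ 2 * m + 2 :=
      (natDegree_mul_le_of_le (natDegree_mul_le_of_le (b_C _) b_nX) hB).trans (by omega)
    have d3 : (C W.b₆ * (n + X * d) * d).natDegree ≤ 2 * m + 2 :=
      (natDegree_mul_le_of_le (natDegree_mul_le_of_le (b_C _) b_t) hB).trans (by omega)
    have d4 : (C W.b₈ * d ^ 2).natDegree ≤ 2 * m + 2 :=
      (natDegree_mul_le_of_le (b_C _) (natDegree_pow_le_of_le 2 hB)).trans (by omega)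
    exact (natDegree_sub_le _ _).trans (max_le ((natDegree_sub_le _ _).trans
      (max_le ((natDegree_sub_le _ _).trans (max_le d1 d2)) d3)) d4)
  apply le_antisymm (max_le hS0le (max_le hS1le hS2le))
  rcases le_or_gt n.natDegree d.natDegree with hAB | hAB
  · -- `deg n ≤ deg d`: the first entry `(n - X d)^2` has full degree
    have hmB : m = d.natDegree := by rw [hmdef]; exact max_eq_right hAB
    have eXd : (X * d).natDegree = d.natDegree + 1 := natDegree_X_mul hd0
    have es : (n - X * d).natDegree = d.natDegree + 1 := by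
      rw [natDegree_sub_eq_right_of_natDegree_lt (by omega), eXd]
    have hs0 : n - X * d ≠ 0 := by
      intro h0; rw [h0] at es; simp at es
    apply le_max_of_le_left
    rw [natDegree_pow, es]; omega
  · -- `deg d < deg n`: the last entry is `n² X² + lower`
    have hmA : m = n.natDegree := by rw [hmdef]; exact max_eq_left hAB.le
    have hn0 : n ≠ 0 := by rintro rfl; simp at hAB
    have enX : (n * X).natDegree = n.natDegree + 1 := natDegree_mul_X hn0
    have e1 : ((n * X) ^ 2).natDegree = 2 * n.natDegree + 2 := by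
      rw [natDegree_pow, enX]; ring
    have b_t' : (n + X * d).natDegree ≤ n.natDegree :=
      (natDegree_add_le _ _).trans (max_le le_rfl
        (natDegree_mul_le.trans (by rw [natDegree_X]; omega)))
    have d2 : (C W.b₄ * (n * X) * d).natDegree < 2 * n.natDegree + 2 :=
      lt_of_le_of_lt (natDegree_mul_le_of_le (natDegree_mul_le_of_le (b_C _) enX.le) le_rfl)
        (by omega)
    have d3 : (C W.b₆ * (n + X * d) * d).natDegree < 2 * n.natDegree + 2 :=
      lt_of_le_of_lt (natDegree_mul_le_of_le (natDegree_mul_le_of_le (b_C _) b_t') le_rfl)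
        (by omega)
    have d4 : (C W.b₈ * d ^ 2).natDegree < 2 * n.natDegree + 2 :=
      lt_of_le_of_lt (natDegree_mul_le_of_le (b_C _) (natDegree_pow_le_of_le 2 le_rfl))
        (by omega)
    have f1 : ((n * X) ^ 2 - C W.b₄ * (n * X) * d).natDegree = 2 * n.natDegree + 2 := by
      rw [natDegree_sub_eq_left_of_natDegree_lt (by rw [e1]; exact d2), e1]
    have f2 : ((n * X) ^ 2 - C W.b₄ * (n * X) * d - C W.b₆ * (n + X * d) * d).natDegree =
        2 * n.natDegree + 2 := by
      rw [natDegree_sub_eq_left_of_natDegree_lt (by rw [f1]; exact d3), f1]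
    have f3 : ((n * X) ^ 2 - C W.b₄ * (n * X) * d - C W.b₆ * (n + X * d) * d
        - C W.b₈ * d ^ 2).natDegree = 2 * n.natDegree + 2 := by
      rw [natDegree_sub_eq_left_of_natDegree_lt (by rw [f2]; exact d4), f2]
    apply le_max_of_le_right
    apply le_max_of_le_right
    rw [f3]; omega

/-- **Duplication.**  The `x`-coordinate of `2 G` (`G` the generic point), i.e. the quotient
`(X⁴ - b₄ X² - 2 b₆ X - b₈) / (4 X³ + b₂ X² + 2 b₄ X + b₆)`, has degree `4`. -/
theorem rdeg_dup (W : WeierstrassCurve K) (hΔ : W.Δ ≠ 0) (a2 : RatFunc K)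
    (h : a2 * algebraMap K[X] (RatFunc K) (dPoly W) = algebraMap K[X] (RatFunc K)
      (X ^ 4 - C W.b₄ * X ^ 2 - C (2 * W.b₆) * X - C W.b₈)) : rdeg a2 = 4 := by
  have : W.IsElliptic := ⟨isUnit_iff_ne_zero.mpr hΔ⟩
  have hC2 : (C (2 : K) : K[X]) = 2 := map_ofNat C 2
  have hC4 : (C (4 : K) : K[X]) = 4 := map_ofNat C 4
  -- the three values of `addSubMap` at `(X² : 2 X : 1)`
  have e0 : MvPolynomial.eval (![X ^ 2, 2 * X, 1] : Fin 3 → K[X])
      (WeierstrassCurve.addSubMap (W.map (C : K →+* K[X])) 0) =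
      X ^ 4 - C W.b₄ * X ^ 2 - C (2 * W.b₆) * X - C W.b₈ := by
    simp [WeierstrassCurve.addSubMap, hC2]
    ring
  have e1 : MvPolynomial.eval (![X ^ 2, 2 * X, 1] : Fin 3 → K[X])
      (WeierstrassCurve.addSubMap (W.map (C : K →+* K[X])) 1) = dPoly W := by
    simp [WeierstrassCurve.addSubMap, dPoly, hC2, hC4]
    ring
  have e2 : MvPolynomial.eval (![X ^ 2, 2 * X, 1] : Fin 3 → K[X])
      (WeierstrassCurve.addSubMap (W.map (C : K →+* K[X])) 2) = 0 := by
    simp [WeierstrassCurve.addSubMap]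
    ring
  have hcert := WeierstrassCurve.addSubMapCoeff_condition (W.map (C : K →+* K[X]))
    (![X ^ 2, 2 * X, 1] : Fin 3 → K[X]) 2
  rw [Fin.sum_univ_three, e0, e1, e2] at hcert
  have hcop : IsCoprime (X ^ 4 - C W.b₄ * X ^ 2 - C (2 * W.b₆) * X - C W.b₈ : K[X]) (dPoly W) := by
    rw [mul_zero, add_zero] at hcert
    exact ⟨_, _, hcert.trans (by simp)⟩
  rw [rdeg_of_mul_eq hcop a2 h]
  have hN : (X ^ 4 - C W.b₄ * X ^ 2 - C (2 * W.b₆) * X - C W.b₈ : K[X]).natDegree = 4 := by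
    have b_C : ∀ c : K, (C c : K[X]).natDegree ≤ 0 := fun c => (natDegree_C c).le
    have e4 : (X ^ 4 : K[X]).natDegree = 4 := natDegree_X_pow 4
    have d2 : (C W.b₄ * X ^ 2 : K[X]).natDegree < 4 :=
      lt_of_le_of_lt (natDegree_mul_le_of_le (b_C _) (natDegree_X_pow_le 2)) (by norm_num)
    have d1 : (C (2 * W.b₆) * X : K[X]).natDegree < 4 :=
      lt_of_le_of_lt (natDegree_mul_le_of_le (b_C _) natDegree_X_le) (by norm_num)
    have d0 : (C W.b₈ : K[X]).natDegree < 4 := lt_of_le_of_lt (b_C _) (by norm_num)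
    have f1 : (X ^ 4 - C W.b₄ * X ^ 2 : K[X]).natDegree = 4 := by
      rw [natDegree_sub_eq_left_of_natDegree_lt (by rw [e4]; exact d2), e4]
    have f2 : (X ^ 4 - C W.b₄ * X ^ 2 - C (2 * W.b₆) * X : K[X]).natDegree = 4 := by
      rw [natDegree_sub_eq_left_of_natDegree_lt (by rw [f1]; exact d1), f1]
    rw [natDegree_sub_eq_left_of_natDegree_lt (by rw [f2]; exact d0), f2]
  have hD : (dPoly W : K[X]).natDegree ≤ 3 := by
    unfold dPoly
    have b_C : ∀ c : K, (C c : K[X]).natDegree ≤ 0 := fun c => (natDegree_C c).le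
    have d3 : (C 4 * X ^ 3 : K[X]).natDegree ≤ 3 :=
      (natDegree_mul_le_of_le (b_C _) (natDegree_X_pow_le 3)).trans (by norm_num)
    have d2 : (C W.b₂ * X ^ 2 : K[X]).natDegree ≤ 3 :=
      (natDegree_mul_le_of_le (b_C _) (natDegree_X_pow_le 2)).trans (by norm_num)
    have d1 : (C (2 * W.b₄) * X : K[X]).natDegree ≤ 3 :=
      (natDegree_mul_le_of_le (b_C _) natDegree_X_le).trans (by norm_num)
    have d0 : (C W.b₆ : K[X]).natDegree ≤ 3 := (b_C _).trans (by norm_num)
    exact (natDegree_add_le _ _).trans (max_le ((natDegree_add_le _ _).trans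
      (max_le ((natDegree_add_le _ _).trans (max_le d3 d2)) d1)) d0)
  rw [hN]
  exact max_eq_left (hD.trans (by norm_num))

end Fermat.Agent.S52.Frob
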