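/-
S52 / [Frob] glue slice [S1] (helper38): the hypotheses `hG1` and `hR` of the abstract chain
(`Frob/Chain.lean`) for the concrete objects of `Frob/Setup.lean` / `Frob/Gamma.lean`.

* `hgt_Gpt`          : `h(G) = 1`;
* `GlueR.hgt_two_Gpt`: `h(2G) = 4`;
* `glueR`            : `h(P + G) + h(P - G) = 2 h(P) + 2` for `P ∈ Γ`.
-/
import Fermat.Agent.S52.Frob.Gamma
import Fermat.Agent.S52.Frob.AddSub
import Fermat.Agent.S52.Frob.Rec
import Fermat.Agent.S52.Frob.RatDeg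

set_option autoImplicit false

open Polynomial
open scoped WeierstrassCurve.Affine

namespace Fermat.Agent.S52.Frob

universe u

noncomputable section

attribute [local instance] Classical.propDecidable

variable (ℓ : ℕ) [Fact ℓ.Prime] (W : WeierstrassCurve (ZMod ℓ)) (K : Type u) [Field K]
  [Algebra (ZMod ℓ) K]

open WeierstrassCurve.Affine

/-- `h(G) = 1`. -/
theorem hgt_Gpt (hΔ : W.Δ ≠ 0) : hgt ℓ W K (Gpt ℓ W K hΔ) = 1 := by
  have h := hgt_some_iota ℓ W K (a := RatFunc.X) (y := y0 ℓ W K) (y0_nonsingular ℓ W K hΔ)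
  have h1 := rdeg_X_pow (K := K) 1
  rw [pow_one] at h1
  rw [← h1, ← h]
  rfl

namespace GlueR

lemma two_ne_zero_K (hℓ : ℓ ≠ 2) : (2 : K) ≠ 0 := by
  have h2 : (2 : ZMod ℓ) ≠ 0 := by
    intro h
    have h' : ((2 : ℕ) : ZMod ℓ) = 0 := by exact_mod_cast h
    rw [ZMod.natCast_eq_zero_iff] at h'
    exact hℓ ((Nat.prime_dvd_prime_iff_eq (Fact.out : ℓ.Prime) Nat.prime_two).mp h')
  intro h
  apply h2
  apply (algebraMap (ZMod ℓ) K).injective
  rw [map_ofNat, map_zero]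
  exact h

lemma dRat_ne_zero (hℓ : ℓ ≠ 2) : dRat ℓ W K ≠ 0 := by
  unfold dRat
  rw [Ne, map_eq_zero_iff _ (RatFunc.algebraMap_injective K)]
  intro h
  have hc : ((dPoly W).map (algebraMap (ZMod ℓ) K)).coeff 3 = 0 := by rw [h]; simp
  rw [coeff_map] at hc
  have hc3 : (dPoly W).coeff 3 = 4 := by
    unfold dPoly
    simp only [coeff_add, coeff_C_mul, coeff_X_pow, coeff_X, coeff_C]
    norm_num
  rw [hc3, map_ofNat] at hc
  have h2 := two_ne_zero_K ℓ K hℓ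
  have : (2 : K) * 2 = 0 := by rw [← hc]; norm_num
  rcases mul_eq_zero.mp this with h' | h' <;> exact h2 h'

lemma eta0_ne_zero (hℓ : ℓ ≠ 2) : eta0 ℓ W K ≠ 0 := by
  intro h
  have h1 := eta0_sq ℓ W K
  rw [h, zero_pow two_ne_zero] at h1
  have : dRat ℓ W K = 0 := iota_injective K (by rw [← h1, map_zero])
  exact dRat_ne_zero ℓ W K hℓ this

/-- `G` is not a `2`-torsion point. -/
lemma y0_ne_negY (hℓ : ℓ ≠ 2) :
    y0 ℓ W K ≠ (WF ℓ W K).toAffine.negY (Xf K) (y0 ℓ W K) := by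
  intro h
  apply eta0_ne_zero ℓ W K hℓ
  rw [eta0]
  simp only [WeierstrassCurve.Affine.negY] at h
  linear_combination h

/-- `h(2G) = 4`. -/
theorem hgt_two_Gpt (hℓ : ℓ ≠ 2) (hΔ : W.Δ ≠ 0) :
    hgt ℓ W K (Gpt ℓ W K hΔ + Gpt ℓ W K hΔ) = 4 := by
  have hG := Gpt_mem_Gam ℓ W K hℓ hΔ
  have hmem : Gpt ℓ W K hΔ + Gpt ℓ W K hΔ ∈ Gam ℓ W K hℓ := add_mem hG hG
  have hne : Gpt ℓ W K hΔ + Gpt ℓ W K hΔ ≠ 0 := by
    unfold Gpt
    rw [Point.add_self_of_Y_ne (y0_ne_negY ℓ W K hℓ)]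
    simp
  obtain ⟨x2, y2, h2, e2⟩ : ∃ x2 y2, ∃ h2 : (WF ℓ W K).toAffine.Nonsingular x2 y2,
      Gpt ℓ W K hΔ + Gpt ℓ W K hΔ = Point.some x2 y2 h2 := by
    rcases hP : Gpt ℓ W K hΔ + Gpt ℓ W K hΔ with _ | ⟨x2, y2, h2⟩
    · exact absurd hP hne
    · exact ⟨x2, y2, h2, rfl⟩
  rw [e2] at hmem
  obtain ⟨a2, b2, rfl, -⟩ := (some_mem_Gam ℓ W K hℓ h2).mp hmem
  have hdbl := addX_double (WF ℓ W K) (y0_nonsingular ℓ W K hΔ) h2 e2
  rw [e2, hgt_some_iota]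
  apply rdeg_dup (WK ℓ W K) (WK_Δ_ne_zero ℓ W K hΔ)
  apply iota_injective K
  rw [map_mul]
  have e1 : iota K (algebraMap K[X] (RatFunc K) (dPoly (WK ℓ W K)))
      = 4 * Xf K ^ 3 + (WF ℓ W K).b₂ * Xf K ^ 2 + 2 * (WF ℓ W K).b₄ * Xf K + (WF ℓ W K).b₆ := by
    rw [WF_b₂, WF_b₄, WF_b₆]
    simp only [dPoly, Xf, map_add, map_mul, map_pow, RatFunc.algebraMap_X, RatFunc.algebraMap_C,
      map_ofNat]
  have e3 : iota K (algebraMap K[X] (RatFunc K)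
      (X ^ 4 - C (WK ℓ W K).b₄ * X ^ 2 - C (2 * (WK ℓ W K).b₆) * X - C (WK ℓ W K).b₈))
      = Xf K ^ 4 - (WF ℓ W K).b₄ * Xf K ^ 2 - 2 * (WF ℓ W K).b₆ * Xf K - (WF ℓ W K).b₈ := by
    rw [WF_b₄, WF_b₆, WF_b₈]
    simp only [Xf, map_sub, map_mul, map_pow, RatFunc.algebraMap_X, RatFunc.algebraMap_C,
      map_ofNat]
  rw [e1, e3]
  exact hdbl

end GlueR

open GlueR

/-- **[S1]** the recursion `h(P + G) + h(P - G) = 2 h(P) + 2` on `Γ`. -/
theorem glueR (hℓ : ℓ ≠ 2) (hΔ : W.Δ ≠ 0) : ∀ P ∈ Gam ℓ W K hℓ,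
    hgt ℓ W K (P + Gpt ℓ W K hΔ) + hgt ℓ W K (P - Gpt ℓ W K hΔ) = 2 * hgt ℓ W K P + 2 := by
  intro P hP
  have hG := Gpt_mem_Gam ℓ W K hℓ hΔ
  rcases P with _ | ⟨x, y, h⟩
  · -- `P = 0`
    have e0 : (Point.zero : (WF ℓ W K).toAffine.Point) = 0 := rfl
    rw [e0, zero_add, zero_sub, hgt_neg, hgt_Gpt, hgt_zero]
  · obtain ⟨a, b, rfl, hy⟩ := (some_mem_Gam ℓ W K hℓ h).mp hP
    by_cases hX : a = RatFunc.X
    · subst hX
      rcases Y_eq_of_X_eq h.1 (y0_equation ℓ W K) rfl with hyy | hyy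
      · -- `P = G`
        have e : Point.some _ _ h = Gpt ℓ W K hΔ := by
          unfold Gpt
          congr 1
        rw [e, sub_self, hgt_two_Gpt ℓ W K hℓ hΔ, hgt_zero, hgt_Gpt]
      · -- `P = -G`
        have e : Point.some _ _ h = -Gpt ℓ W K hΔ := by
          unfold Gpt
          rw [Point.neg_some]
          congr 1
        rw [e, neg_add_cancel, ← neg_add', hgt_neg, hgt_two_Gpt ℓ W K hℓ hΔ, hgt_zero, hgt_neg,
          hgt_Gpt]
    · -- the generic case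
      have hx : iota K a ≠ Xf K := fun h' => hX (iota_injective K h')
      have hadd_mem : Point.some _ _ h + Gpt ℓ W K hΔ ∈ Gam ℓ W K hℓ := add_mem hP hG
      have hsub_mem : Point.some _ _ h - Gpt ℓ W K hΔ ∈ Gam ℓ W K hℓ := sub_mem hP hG
      obtain ⟨xp, yp, hp, ep⟩ : ∃ xp yp, ∃ hp : (WF ℓ W K).toAffine.Nonsingular xp yp,
          Point.some _ _ h + Gpt ℓ W K hΔ = Point.some xp yp hp :=
        ⟨_, _, _, Point.add_of_X_ne hx⟩
      obtain ⟨xm, ym, hm, em⟩ : ∃ xm ym, ∃ hm : (WF ℓ W K).toAffine.Nonsingular xm ym,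
          Point.some _ _ h - Gpt ℓ W K hΔ = Point.some xm ym hm := by
        rw [sub_eq_add_neg]
        unfold Gpt
        rw [Point.neg_some]
        exact ⟨_, _, _, Point.add_of_X_ne hx⟩
      rw [ep] at hadd_mem
      rw [em] at hsub_mem
      obtain ⟨ap, bp, rfl, -⟩ := (some_mem_Gam ℓ W K hℓ hp).mp hadd_mem
      obtain ⟨am, bm, rfl, -⟩ := (some_mem_Gam ℓ W K hℓ hm).mp hsub_mem
      obtain ⟨hs, hpd⟩ := addX_add_sub (WF ℓ W K) h (y0_nonsingular ℓ W K hΔ) hp hm hx ep em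
      rw [ep, em, hgt_some_iota, hgt_some_iota, hgt_some_iota]
      rw [WF_b₂, WF_b₄, WF_b₆] at hs
      rw [WF_b₄, WF_b₆, WF_b₈] at hpd
      simp only [Xf] at hs hpd
      apply rdeg_recursion (WK ℓ W K) (WK_Δ_ne_zero ℓ W K hΔ) a ap am hX
      · apply iota_injective K
        simp only [map_mul, map_add, map_sub, map_pow, map_ofNat]
        exact hs
      · apply iota_injective K
        simp only [map_mul, map_add, map_sub, map_pow]
        exact hpd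

end

end Fermat.Agent.S52.Frob
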