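/-
S52 / [Frob] glue slice `glueT` (helper77): the transfer substitution for a constant point.

For `K` algebraically closed and a point `P` of the curve over `K`, the point `Q = G + P_F`
(`G` the generic point, `P_F` the base change of `P` to `F = AlgebraicClosure K(X)`) is affine
with `x(Q) ∉ K`; hence there is a `K`-algebra endomorphism `s₀` of `F` with `s₀ X = x(Q)`, and the
induced endomorphism `s` of `E(F)` commutes with Frobenius and sends `G` to `± Q`.

* `GlueT.Xf_not_mem_range`     : `X ∉ K`;
* `GlueT.baseChange_ne_Gpt`    : `G` is not the base change of a `K`-point;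
* `GlueT.exists_baseChange_eq` : an affine point of `E(F)` with `x ∈ K` is a base change
                                 (`K` algebraically closed);
* `subst_point`                : for any `s₀ : F →ₐ[K] F` and any affine `Q = (xq, yq)` with
                                 `s₀ X = xq`, `s := Point.map s₀` commutes with `phi` and
                                 `s G = Q ∨ s G = -Q`;
* `glueT`                      : the slice of the glue table.
-/
import Mathlib
import Fermat.Agent.S52.Frob.Gamma
import Fermat.Agent.S52.Frob.Subst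

set_option autoImplicit false

open Polynomial
open scoped WeierstrassCurve.Affine

namespace Fermat.Agent.S52.Frob

universe u

noncomputable section

attribute [local instance] Classical.propDecidable

variable (ℓ : ℕ) [Fact ℓ.Prime] (W : WeierstrassCurve (ZMod ℓ)) (K : Type u) [Field K]
  [Algebra (ZMod ℓ) K]

open WeierstrassCurve.Affine

namespace GlueT

/-- `X` is not a constant. -/
lemma Xf_not_mem_range : Xf K ∉ Set.range (algebraMap K (FF K)) := by
  rintro ⟨c, hc⟩
  rw [← iota_C] at hc
  have h : (RatFunc.C c : RatFunc K) = RatFunc.X := iota_injective K hc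
  have h1 := congrArg RatFunc.intDegree h
  rw [RatFunc.intDegree_C, RatFunc.intDegree_X] at h1
  exact zero_ne_one h1

/-- The generic point is not the base change of a point over `K`. -/
lemma baseChange_ne_Gpt (hΔ : W.Δ ≠ 0) (P' : (W.toAffine⁄K).Point) :
    Point.baseChange (W' := W.toAffine) K (FF K) P' ≠ Gpt ℓ W K hΔ := by
  rcases P' with _ | ⟨c, e, h⟩
  · intro h0
    exact (Point.some_ne_zero _) h0.symm
  · intro h0
    rw [Point.map_some] at h0
    have hx := (Point.some.inj h0).1
    exact Xf_not_mem_range K ⟨c, hx⟩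

/-- Over an algebraically closed `K`, an affine point of `E(F)` with `x ∈ K` is the base change
of a point of `E(K)`. -/
lemma exists_baseChange_eq [IsAlgClosed K] {x y : FF K}
    (h : (WF ℓ W K).toAffine.Nonsingular x y) (hx : x ∈ Set.range (algebraMap K (FF K))) :
    ∃ P' : (W.toAffine⁄K).Point,
      Point.baseChange (W' := W.toAffine) K (FF K) P' = Point.some x y h := by
  obtain ⟨c, rfl⟩ := hx
  have hy : y ∈ Set.range (algebraMap K (FF K)) := by
    by_contra hy
    apply subst_transcendental y hy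
    have heq := (WeierstrassCurve.Affine.equation_iff _ _).mp h.1
    rw [WF_a₁, WF_a₂, WF_a₃, WF_a₄, WF_a₆, iota_C, iota_C, iota_C, iota_C, iota_C] at heq
    refine ⟨X ^ 2 + C ((WK ℓ W K).a₁ * c + (WK ℓ W K).a₃) * X
      - C (c ^ 3 + (WK ℓ W K).a₂ * c ^ 2 + (WK ℓ W K).a₄ * c + (WK ℓ W K).a₆), ?_, ?_⟩
    · have hdeg : (X ^ 2 + C ((WK ℓ W K).a₁ * c + (WK ℓ W K).a₃) * X
          - C (c ^ 3 + (WK ℓ W K).a₂ * c ^ 2 + (WK ℓ W K).a₄ * c + (WK ℓ W K).a₆) : K[X]).degree
          = 2 := by
        compute_degree!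
      intro h0
      rw [h0, degree_zero] at hdeg
      exact absurd hdeg (by simp)
    · simp only [map_sub, map_add, map_mul, map_pow, aeval_X, aeval_C]
      linear_combination heq
  obtain ⟨e, rfl⟩ := hy
  have h' : (W.toAffine⁄K).Nonsingular c e :=
    (W.toAffine.baseChange_nonsingular (Algebra.ofId K (FF K)).injective c e).mp h
  exact ⟨Point.some c e h', rfl⟩

end GlueT

open GlueT

/-- **Substitution endomorphisms on points.**  For a `K`-algebra endomorphism `s₀` of `F` and an
affine point `Q = (xq, yq)` with `s₀ X = xq`, the induced endomorphism of `E(F)` commutes with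
Frobenius and sends the generic point to `Q` or `-Q`. -/
theorem subst_point (hΔ : W.Δ ≠ 0) (s₀ : FF K →ₐ[K] FF K) {xq yq : FF K}
    (hq : (WF ℓ W K).toAffine.Nonsingular xq yq) (hs : s₀ (Xf K) = xq) :
    (∀ x, Point.map (W' := W.toAffine) (s₀.restrictScalars (ZMod ℓ)) (phi ℓ W K x) =
        phi ℓ W K (Point.map (W' := W.toAffine) (s₀.restrictScalars (ZMod ℓ)) x)) ∧
    (Point.map (W' := W.toAffine) (s₀.restrictScalars (ZMod ℓ)) (Gpt ℓ W K hΔ) =
        Point.some xq yq hq ∨
      Point.map (W' := W.toAffine) (s₀.restrictScalars (ZMod ℓ)) (Gpt ℓ W K hΔ) =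
        -Point.some xq yq hq) := by
  constructor
  · intro x
    have hcomm : (s₀.restrictScalars (ZMod ℓ)).comp (frobF ℓ K) =
        (frobF ℓ K).comp (s₀.restrictScalars (ZMod ℓ)) := by
      ext z
      simp [frobF_apply]
    unfold phi
    rw [Point.map_map, Point.map_map, hcomm]
  · unfold Gpt
    rw [Point.map_some]
    have hx : (s₀.restrictScalars (ZMod ℓ)) (Xf K) = xq := hs
    have hn : (WF ℓ W K).toAffine.Nonsingular ((s₀.restrictScalars (ZMod ℓ)) (Xf K))
        ((s₀.restrictScalars (ZMod ℓ)) (y0 ℓ W K)) :=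
      (W.toAffine.baseChange_nonsingular (s₀.restrictScalars (ZMod ℓ)).injective ..).mpr
        (y0_nonsingular ℓ W K hΔ)
    rcases Y_eq_of_X_eq hn.1 hq.1 hx with hy | hy
    · left
      rw [Point.some.injEq]
      exact ⟨hx, hy⟩
    · right
      rw [Point.neg_some, Point.some.injEq]
      exact ⟨hx, hy⟩

set_option linter.unusedVariables false in
/-- **Glue slice `glueT`.**  For a constant point `P`, there is an endomorphism `s` of `E(F)`
commuting with Frobenius with `s G = ± (G + P)`. -/
theorem glueT [IsAlgClosed K] (hℓ : ℓ ≠ 2) (hΔ : W.Δ ≠ 0) (P : (W.toAffine⁄K).Point) :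
    ∃ s : (WF ℓ W K).toAffine.Point →+ (WF ℓ W K).toAffine.Point,
      (∀ x, s (phi ℓ W K x) = phi ℓ W K (s x)) ∧
      (s (Gpt ℓ W K hΔ) = Gpt ℓ W K hΔ +
          WeierstrassCurve.Affine.Point.baseChange (W' := W.toAffine) K (FF K) P ∨
        s (Gpt ℓ W K hΔ) = -(Gpt ℓ W K hΔ +
          WeierstrassCurve.Affine.Point.baseChange (W' := W.toAffine) K (FF K) P)) := by
  obtain ⟨Q, hQ⟩ : ∃ Q : (WF ℓ W K).toAffine.Point, Q = Gpt ℓ W K hΔ +
      WeierstrassCurve.Affine.Point.baseChange (W' := W.toAffine) K (FF K) P := ⟨_, rfl⟩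
  rw [← hQ]
  rcases Q with _ | ⟨xq, yq, hq⟩
  · exfalso
    apply baseChange_ne_Gpt ℓ W K hΔ (-P)
    rw [map_neg]
    exact (eq_neg_of_add_eq_zero_left hQ.symm).symm
  · have hxq : xq ∉ Set.range (algebraMap K (FF K)) := by
      intro hx
      obtain ⟨Q', hQ'⟩ := exists_baseChange_eq ℓ W K hq hx
      apply baseChange_ne_Gpt ℓ W K hΔ (Q' - P)
      rw [map_sub, hQ', hQ]
      abel
    obtain ⟨s₀, hs₀⟩ := exists_subst xq hxq
    obtain ⟨h1, h2⟩ := subst_point ℓ W K hΔ s₀ hq hs₀
    exact ⟨Point.map (W' := W.toAffine) (s₀.restrictScalars (ZMod ℓ)), h1, h2⟩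

end

end Fermat.Agent.S52.Frob
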