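/-
S52 / [Frob] / [P4] Manin's count in the shape consumed by the glue file (helper68).

Over any field `K ⊇ ZMod ℓ`: a rational function `aM` with
`aM · 4 (X^ℓ - X)² = D (D^((ℓ-1)/2) + 1)² - (4X^ℓ + 4X + b₂)(X^ℓ - X)²`
(`D` = the image of `dPoly W`) has degree `#W(F_ℓ)` (the point at infinity included).
-/
import Mathlib
import Fermat.Agent.S52.Frob.Defs
import Fermat.Agent.S52.FrobCount

set_option autoImplicit false

open Polynomial

namespace Fermat.Agent.S52.Frob

universe u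

namespace Count

variable {K : Type u} [Field K]

/-- The degree of a fraction `n / d` in lowest terms. -/
theorem rdeg_of_mul_eq {n d : K[X]} (hd : d ≠ 0) (hcop : IsCoprime n d) (a : RatFunc K)
    (h : a * algebraMap K[X] (RatFunc K) d = algebraMap K[X] (RatFunc K) n) :
    rdeg a = max n.natDegree d.natDegree := by
  have ha : a = algebraMap K[X] (RatFunc K) n / algebraMap K[X] (RatFunc K) d := by
    rw [eq_div_iff (RatFunc.algebraMap_ne_zero hd)]
    exact h
  have e : a.num * d = n * a.denom := (RatFunc.num_mul_eq_mul_denom_iff hd).mpr ha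
  have hc := RatFunc.isCoprime_num_denom a
  have hden0 := RatFunc.denom_ne_zero a
  have d1 : a.denom ∣ d := by
    have : a.denom ∣ a.num * d := ⟨n, by rw [e]; ring⟩
    exact hc.symm.dvd_of_dvd_mul_left this
  have d2 : d ∣ a.denom := by
    have : d ∣ n * a.denom := ⟨a.num, by rw [← e]; ring⟩
    exact hcop.symm.dvd_of_dvd_mul_left this
  have d3 : a.num ∣ n := by
    have : a.num ∣ n * a.denom := ⟨d, by rw [← e]⟩
    exact hc.dvd_of_dvd_mul_right this
  have d4 : n ∣ a.num := by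
    have : n ∣ a.num * d := ⟨a.denom, by rw [e]⟩
    exact hcop.dvd_of_dvd_mul_right this
  have e1 : a.denom.natDegree = d.natDegree :=
    natDegree_eq_of_degree_eq (degree_eq_degree_of_associated (associated_of_dvd_dvd d1 d2))
  have e2 : a.num.natDegree = n.natDegree :=
    natDegree_eq_of_degree_eq (degree_eq_degree_of_associated (associated_of_dvd_dvd d3 d4))
  rw [rdeg, e1, e2]

end Count

/-- **[P4] Manin's count.** -/
theorem manin_count (ℓ : ℕ) [Fact ℓ.Prime] (hℓ : ℓ ≠ 2) (W : WeierstrassCurve (ZMod ℓ))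
    (hΔ : W.Δ ≠ 0) (K : Type u) [Field K] [Algebra (ZMod ℓ) K] (aM : RatFunc K)
    (h : aM * algebraMap K[X] (RatFunc K) (4 * (X ^ ℓ - X) ^ 2) =
      algebraMap K[X] (RatFunc K) ((dPoly W).map (algebraMap (ZMod ℓ) K) *
        (((dPoly W).map (algebraMap (ZMod ℓ) K)) ^ ((ℓ - 1) / 2) + 1) ^ 2 -
        (4 * X ^ ℓ + 4 * X + C (algebraMap (ZMod ℓ) K W.b₂)) * (X ^ ℓ - X) ^ 2)) :
    rdeg aM = Nat.card W.toAffine.Point := by
  have hp : ℓ.Prime := Fact.out
  obtain ⟨n, d, hcop, hnd, hn, hd⟩ := Count.manin_count' hℓ W hΔ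
  set φ : ZMod ℓ →+* K := algebraMap (ZMod ℓ) K with hφ
  have hinj : Function.Injective φ := φ.injective
  have hD : dPoly W = Count.Dp W := rfl
  have hφ4 : φ 4 = 4 := map_ofNat φ 4
  have hC4 : (C (φ 4) : K[X]) = 4 := by rw [hφ4]; rfl
  have hmapD : (Count.maninDen ℓ).map φ = 4 * (X ^ ℓ - X) ^ 2 := by
    simp [Count.maninDen, hC4]
  have hmapN : (Count.maninNum W).map φ = (dPoly W).map φ * (((dPoly W).map φ) ^ ((ℓ - 1) / 2) + 1) ^ 2
      - (4 * X ^ ℓ + 4 * X + C (φ W.b₂)) * (X ^ ℓ - X) ^ 2 := by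
    rw [hD]
    simp [Count.maninNum, hC4]
  -- the denominator is nonzero
  have h4 : (4 : K[X]) ≠ 0 := by
    have h4' : φ 4 ≠ 0 := fun h0 => Count.four_ne_zero hℓ (hinj (by rw [h0, map_zero]))
    rw [← hC4]
    exact C_ne_zero.mpr h4'
  have hX : (X ^ ℓ - X : K[X]) ≠ 0 := FiniteField.X_pow_card_sub_X_ne_zero K hp.one_lt
  have hDne : (4 * (X ^ ℓ - X) ^ 2 : K[X]) ≠ 0 := mul_ne_zero h4 (pow_ne_zero 2 hX)
  -- the reduced denominator is nonzero
  have hcard : 0 < Nat.card W.toAffine.Point := Nat.card_pos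
  have hd0 : d ≠ 0 := by
    rintro rfl
    have hu : IsUnit n := isCoprime_zero_right.mp hcop
    have := natDegree_eq_zero_of_isUnit hu
    simp only [natDegree_zero, zero_add] at hd
    omega
  have hd0' : d.map φ ≠ 0 := (Polynomial.map_ne_zero_iff hinj).mpr hd0
  have hcop' : IsCoprime (n.map φ) (d.map φ) := hcop.map (Polynomial.mapRingHom φ)
  -- cross-multiplied identity over `K`
  have hnd' : n.map φ * (4 * (X ^ ℓ - X) ^ 2) =
      ((dPoly W).map φ * (((dPoly W).map φ) ^ ((ℓ - 1) / 2) + 1) ^ 2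
      - (4 * X ^ ℓ + 4 * X + C (φ W.b₂)) * (X ^ ℓ - X) ^ 2) * d.map φ := by
    rw [← hmapD, ← hmapN, ← Polynomial.map_mul, ← Polynomial.map_mul, hnd]
  have key : aM * algebraMap K[X] (RatFunc K) (d.map φ) = algebraMap K[X] (RatFunc K) (n.map φ) := by
    have hne : algebraMap K[X] (RatFunc K) (4 * (X ^ ℓ - X) ^ 2) ≠ 0 :=
      RatFunc.algebraMap_ne_zero hDne
    apply mul_right_cancel₀ hne
    generalize (4 * (X ^ ℓ - X) ^ 2 : K[X]) = Dn at h hnd' ⊢
    generalize ((dPoly W).map φ * (((dPoly W).map φ) ^ ((ℓ - 1) / 2) + 1) ^ 2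
      - (4 * X ^ ℓ + 4 * X + C (φ W.b₂)) * (X ^ ℓ - X) ^ 2 : K[X]) = Nn at h hnd'
    have e1 := congrArg (algebraMap K[X] (RatFunc K)) hnd'
    rw [map_mul, map_mul] at e1
    linear_combination (algebraMap K[X] (RatFunc K) (d.map φ)) * h - e1
  rw [Count.rdeg_of_mul_eq hd0' hcop' aM key, natDegree_map, natDegree_map, hn]
  omega

end Fermat.Agent.S52.Frob
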