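/-
S52 / block [Frob] / Manin's count for the generic point (helper68).

In the setting of `Frob/Setup.lean`: `hgt (φ G) = ℓ` and `hgt (φ G - G) = #W(F_ℓ)`.
-/
import Mathlib
import Fermat.Agent.S52.Frob.Setup
import Fermat.Agent.S52.Frob.RatDeg
import Fermat.Agent.S52.Frob.Count

set_option autoImplicit false
set_option linter.unusedSectionVars false

open Polynomial
open scoped WeierstrassCurve.Affine

namespace Fermat.Agent.S52.Frob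

universe u

noncomputable section

attribute [local instance] Classical.propDecidable

variable (ℓ : ℕ) [Fact ℓ.Prime] (W : WeierstrassCurve (ZMod ℓ)) (K : Type u) [Field K]
  [Algebra (ZMod ℓ) K]

namespace ManinPt

lemma iota_X_pow (n : ℕ) : iota K (RatFunc.X ^ n) = Xf K ^ n := by
  rw [map_pow]; rfl

lemma Xf_pow_ne : Xf K ^ ℓ ≠ Xf K := by
  intro h
  have hp : ℓ.Prime := Fact.out
  have h1 : iota K (RatFunc.X ^ ℓ) = iota K RatFunc.X := by rw [iota_X_pow]; exact h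
  have h2 := iota_injective K h1
  have h3 : algebraMap K[X] (RatFunc K) (X ^ ℓ) = algebraMap K[X] (RatFunc K) X := by
    rw [map_pow, RatFunc.algebraMap_X]; exact h2
  have h4 := RatFunc.algebraMap_injective K h3
  exact FiniteField.X_pow_card_sub_X_ne_zero K hp.one_lt (sub_eq_zero.mpr h4)

/-- `φ G = (X^ℓ, y₀^ℓ)`. -/
lemma phi_G (hΔ : W.Δ ≠ 0) :
    ∃ h' : (WF ℓ W K).toAffine.Nonsingular (Xf K ^ ℓ) (y0 ℓ W K ^ ℓ),
      phi ℓ W K (Gpt ℓ W K hΔ) = WeierstrassCurve.Affine.Point.some (Xf K ^ ℓ) (y0 ℓ W K ^ ℓ) h' :=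
  phi_some ℓ W K (y0_nonsingular ℓ W K hΔ)

/-- `hgt (φ G) = ℓ`. -/
theorem hgt_phi_G (hΔ : W.Δ ≠ 0) : hgt ℓ W K (phi ℓ W K (Gpt ℓ W K hΔ)) = ℓ := by
  obtain ⟨h', he⟩ := phi_G ℓ W K hΔ
  rw [he, hgt_some, ← iota_X_pow, xInv_iota, rdeg_X_pow]

/-- `η₀^ℓ = 2 y₀^ℓ + a₁ X^ℓ + a₃`. -/
lemma eta0_pow : eta0 ℓ W K ^ ℓ =
    2 * y0 ℓ W K ^ ℓ + (WF ℓ W K).a₁ * Xf K ^ ℓ + (WF ℓ W K).a₃ := by
  have h1 : frobF ℓ K (eta0 ℓ W K) = eta0 ℓ W K ^ ℓ := frobF_apply ℓ K _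
  have ha1 : frobF ℓ K (WF ℓ W K).a₁ = (WF ℓ W K).a₁ := by
    change frobF ℓ K (algebraMap (ZMod ℓ) (FF K) W.a₁) = _
    rw [AlgHom.commutes]; rfl
  have ha3 : frobF ℓ K (WF ℓ W K).a₃ = (WF ℓ W K).a₃ := by
    change frobF ℓ K (algebraMap (ZMod ℓ) (FF K) W.a₃) = _
    rw [AlgHom.commutes]; rfl
  rw [← h1, eta0, map_add, map_add, map_mul, map_mul, ha1, ha3, map_ofNat, frobF_apply,
    frobF_apply]

/-- The numerator polynomial of `x(φ G - G)` over `K`. -/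
def numK : K[X] :=
  (dPoly W).map (algebraMap (ZMod ℓ) K) *
      (((dPoly W).map (algebraMap (ZMod ℓ) K)) ^ ((ℓ - 1) / 2) + 1) ^ 2 -
    (4 * X ^ ℓ + 4 * X + C (algebraMap (ZMod ℓ) K W.b₂)) * (X ^ ℓ - X) ^ 2

/-- The denominator polynomial of `x(φ G - G)` over `K`. -/
def denK : K[X] := 4 * (X ^ ℓ - X) ^ 2

lemma denK_ne_zero (hℓ : ℓ ≠ 2) : denK ℓ K ≠ 0 := by
  have hp : ℓ.Prime := Fact.out
  have h4 : (4 : K[X]) ≠ 0 := by
    have h4' : algebraMap (ZMod ℓ) K 4 ≠ 0 := fun h0 =>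
      Count.four_ne_zero hℓ ((algebraMap (ZMod ℓ) K).injective (by rw [h0, map_zero]))
    have : (4 : K[X]) = C (algebraMap (ZMod ℓ) K 4) := by rw [map_ofNat]; rfl
    rw [this]
    exact C_ne_zero.mpr h4'
  exact mul_ne_zero h4 (pow_ne_zero 2 (FiniteField.X_pow_card_sub_X_ne_zero K hp.one_lt))

/-- `x(φ G - G)` as a rational function. -/
def aM : RatFunc K :=
  algebraMap K[X] (RatFunc K) (numK ℓ W K) / algebraMap K[X] (RatFunc K) (denK ℓ K)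

lemma iota_denK : iota K (algebraMap K[X] (RatFunc K) (denK ℓ K)) = 4 * (Xf K ^ ℓ - Xf K) ^ 2 := by
  simp only [denK, map_mul, map_pow, map_sub, RatFunc.algebraMap_X, map_ofNat]
  rfl

lemma iota_numK : iota K (algebraMap K[X] (RatFunc K) (numK ℓ W K)) =
    iota K (dRat ℓ W K) * (iota K (dRat ℓ W K) ^ ((ℓ - 1) / 2) + 1) ^ 2 -
      (4 * Xf K ^ ℓ + 4 * Xf K + (WF ℓ W K).b₂) * (Xf K ^ ℓ - Xf K) ^ 2 := by
  have hb : (WK ℓ W K).b₂ = algebraMap (ZMod ℓ) K W.b₂ := WeierstrassCurve.map_b₂ ..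
  rw [WF_b₂, hb]
  simp only [numK, map_mul, map_pow, map_sub, map_add, map_one, RatFunc.algebraMap_X,
    RatFunc.algebraMap_C, map_ofNat]
  rfl

/-- The key identity for the `x`-coordinate of `φ G - G`. -/
lemma addX_identity (hℓ : ℓ ≠ 2) :
    (WF ℓ W K).toAffine.addX (Xf K ^ ℓ) (Xf K)
      ((WF ℓ W K).toAffine.slope (Xf K ^ ℓ) (Xf K) (y0 ℓ W K ^ ℓ)
        ((WF ℓ W K).toAffine.negY (Xf K) (y0 ℓ W K))) = iota K (aM ℓ W K) := by
  have hx : Xf K ^ ℓ ≠ Xf K := Xf_pow_ne ℓ K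
  have hx' : Xf K ^ ℓ - Xf K ≠ 0 := sub_ne_zero.mpr hx
  have hden := denK_ne_zero ℓ K hℓ
  have hden' : iota K (algebraMap K[X] (RatFunc K) (denK ℓ K)) ≠ 0 := by
    intro h
    exact RatFunc.algebraMap_ne_zero hden (iota_injective K (by rw [h, map_zero]))
  rw [aM, map_div₀, eq_div_iff hden', iota_denK, iota_numK, ← eta0_sq,
    WeierstrassCurve.Affine.slope_of_X_ne hx]
  have hodd := Count.odd_card hℓ
  set m := (ℓ - 1) / 2 with hm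
  have hη := eta0_pow ℓ W K
  have hpow : (eta0 ℓ W K ^ 2) ^ m * eta0 ℓ W K = eta0 ℓ W K ^ ℓ := by
    rw [← pow_mul, ← pow_succ, hodd]
  have e1 : eta0 ℓ W K ^ 2 * ((eta0 ℓ W K ^ 2) ^ m + 1) ^ 2 =
      (eta0 ℓ W K ^ ℓ + eta0 ℓ W K) ^ 2 := by
    rw [← hpow]; ring
  rw [e1, hη]
  simp only [eta0, WeierstrassCurve.Affine.addX, WeierstrassCurve.Affine.negY,
    WeierstrassCurve.b₂]
  field_simp
  ring

/-- **Manin's count for the generic point**: `hgt (φ G - G) = #W(F_ℓ)`. -/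
theorem hgt_phi_sub_G (hℓ : ℓ ≠ 2) (hΔ : W.Δ ≠ 0) :
    hgt ℓ W K (phi ℓ W K (Gpt ℓ W K hΔ) - Gpt ℓ W K hΔ) = Nat.card W.toAffine.Point := by
  obtain ⟨h', he⟩ := phi_G ℓ W K hΔ
  have hx : Xf K ^ ℓ ≠ Xf K := Xf_pow_ne ℓ K
  rw [he, Gpt, sub_eq_add_neg, WeierstrassCurve.Affine.Point.neg_some,
    WeierstrassCurve.Affine.Point.add_of_X_ne hx, hgt_some, addX_identity ℓ W K hℓ, xInv_iota]
  refine manin_count ℓ hℓ W hΔ K (aM ℓ W K) ?_
  rw [aM]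
  exact div_mul_cancel₀ _ (RatFunc.algebraMap_ne_zero (denK_ne_zero ℓ K hℓ))

end ManinPt

end

end Fermat.Agent.S52.Frob
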