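/-
S52 / block [Frob] (sub-captain helper98).  Assembly: THEOREM F,
`Frob² - [t] Frob + [ℓ] = 0` on the points of a Weierstrass curve over `ZMod ℓ` (`ℓ` odd),
`t = ℓ + 1 - #E(ZMod ℓ)`, over an arbitrary field `κ ⊇ ZMod ℓ`.
-/
import Fermat.Prelude.Def_FLTPrelim_Modularity
import Fermat.Agent.S52.Frob.Gamma
import Fermat.Agent.S52.Frob.Chain
import Fermat.Agent.S52.Frob.ManinPt
import Fermat.Agent.S52.Frob.GlueR
import Fermat.Agent.S52.Frob.GlueF
import Fermat.Agent.S52.Frob.GlueC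
import Fermat.Agent.S52.Frob.Endgame
import Fermat.Agent.S52.Frob.Descent
import Fermat.Agent.S52.Frob.GlueT

set_option autoImplicit false

open Polynomial
open scoped WeierstrassCurve.Affine

namespace Fermat.Agent.S52.Frob

universe u

noncomputable section

attribute [local instance] Classical.propDecidable

variable (ℓ : ℕ) [Fact ℓ.Prime] (W : WeierstrassCurve (ZMod ℓ)) (K : Type u) [Field K]
  [Algebra (ZMod ℓ) K]

lemma card_pos : 0 < Nat.card W.toAffine.Point := Nat.card_pos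

/-- The relation for the generic point. -/
theorem theta_Gpt [IsAlgClosed K] (hℓ : ℓ ≠ 2) (hΔ : W.Δ ≠ 0) :
    phi ℓ W K (phi ℓ W K (Gpt ℓ W K hΔ))
      - ((ℓ : ℤ) + 1 - (Nat.card W.toAffine.Point : ℕ)) • phi ℓ W K (Gpt ℓ W K hΔ)
      + (ℓ : ℤ) • Gpt ℓ W K hΔ = 0 := by
  refine Chain.chain_relation (Gam ℓ W K hℓ) (phi ℓ W K) (hgt ℓ W K) (Gpt ℓ W K hΔ) ℓ
    (Nat.card W.toAffine.Point) (card_pos ℓ W) (Gpt_mem_Gam ℓ W K hℓ hΔ) (glueF_mem ℓ W K hℓ)
    (hgt_neg ℓ W K) (glueR ℓ W K hℓ hΔ) (glueF_hgt ℓ W K hℓ) (hgt_Gpt ℓ W K hΔ)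
    (ManinPt.hgt_phi_sub_G ℓ W K hℓ hΔ) ?_ ?_
  · intro Q hQ hQpos
    obtain ⟨s, hs1, hs2, hs3, hs4⟩ := glueC ℓ W K hℓ hΔ Q hQ hQpos
    refine ⟨s, hs1, hs2, hs3, ?_⟩
    intro P hP hP0
    rcases (glueZ ℓ W K hℓ hΔ P hP hP0).2 with rfl | ⟨x, y, h, rfl, hx, hy⟩
    · exact map_zero s
    · exact hs4 x y h hx hy
  · intro P hP hP0
    exact (glueZ ℓ W K hℓ hΔ P hP hP0).1

/-- The relation over an algebraically closed field. -/
theorem relation_closed [IsAlgClosed K] (hℓ : ℓ ≠ 2) (hΔ : W.Δ ≠ 0) (P : (W.toAffine⁄K).Point) :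
    WeierstrassCurve.Affine.Point.map (W' := W.toAffine) (FiniteField.frobeniusAlgHom (ZMod ℓ) K)
        (WeierstrassCurve.Affine.Point.map (W' := W.toAffine)
          (FiniteField.frobeniusAlgHom (ZMod ℓ) K) P)
      - ((ℓ : ℤ) + 1 - (Nat.card W.toAffine.Point : ℕ)) •
          WeierstrassCurve.Affine.Point.map (W' := W.toAffine)
            (FiniteField.frobeniusAlgHom (ZMod ℓ) K) P
      + (ℓ : ℤ) • P = 0 := by
  obtain ⟨s, hs, hsG⟩ := glueT ℓ W K hℓ hΔ P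
  have h1 := Chain.chain_transfer (phi ℓ W K) (Gpt ℓ W K hΔ)
    ((ℓ : ℤ) + 1 - (Nat.card W.toAffine.Point : ℕ)) ℓ (theta_Gpt ℓ W K hℓ hΔ)
    (WeierstrassCurve.Affine.Point.baseChange (W' := W.toAffine) K (FF K) P) s hs hsG
  apply WeierstrassCurve.Affine.Point.map_injective (W' := W.toAffine) (Algebra.ofId K (FF K))
  change WeierstrassCurve.Affine.Point.baseChange (W' := W.toAffine) K (FF K) _ =
    WeierstrassCurve.Affine.Point.baseChange (W' := W.toAffine) K (FF K) 0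
  rw [map_zero, map_add, map_sub, map_zsmul, map_zsmul, ← phi_baseChange, ← phi_baseChange]
  exact h1

end

/-- **THEOREM F.**  For an odd prime `ℓ`, a Weierstrass curve `W` over `ZMod ℓ` with `Δ ≠ 0` and
any field `κ ⊇ ZMod ℓ`, the coordinatewise `ℓ`-power Frobenius `φ` on `W(κ)` satisfies
`φ² - t φ + ℓ = 0` with `t = ℓ + 1 - #W(ZMod ℓ)`. -/
theorem frob_relation (ℓ : ℕ) [Fact ℓ.Prime] (hℓ : ℓ ≠ 2) (W : WeierstrassCurve (ZMod ℓ))
    (hΔ : W.Δ ≠ 0) (κ : Type u) [Field κ] [DecidableEq κ] [Algebra (ZMod ℓ) κ]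
    (P : (W.toAffine⁄κ).Point) :
    WeierstrassCurve.Affine.Point.map (W' := W.toAffine) (FiniteField.frobeniusAlgHom (ZMod ℓ) κ)
        (WeierstrassCurve.Affine.Point.map (W' := W.toAffine)
          (FiniteField.frobeniusAlgHom (ZMod ℓ) κ) P)
      - ((Nat.card (ZMod ℓ) : ℤ) + 1 - (Nat.card W.toAffine.Point : ℤ)) •
          WeierstrassCurve.Affine.Point.map (W' := W.toAffine)
            (FiniteField.frobeniusAlgHom (ZMod ℓ) κ) P
      + (ℓ : ℤ) • P = 0 := by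
  have hcard : (Nat.card (ZMod ℓ) : ℤ) = ℓ := by simp
  rw [hcard]
  refine descent_kappa ℓ W _ ?_ κ P
  intro K _ _ _ inst Q
  cases Subsingleton.elim inst (Classical.decEq K)
  exact relation_closed ℓ W K hℓ hΔ Q

end Fermat.Agent.S52.Frob
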