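/-
S52 / block [Frob] (helper71): count transfer between a general Weierstrass curve over a field of
characteristic `≠ 2, 3` and its short model `Y² = X³ - 27 c₄ X - 54 c₆`.

The map `(x, y) ↦ (36 x + 3 b₂, 108 (2 y + a₁ x + a₃))`, `0 ↦ 0` is a bijection on points, hence
both curves have the same number of points; over `ZMod ℓ` (`ℓ ≥ 5`) the same trace of Frobenius.
-/
import Mathlib
import Fermat.Prelude.Def_FLTPrelim_Modularity

set_option autoImplicit false

namespace Fermat.Agent.S52.Frob.ShortCount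

open WeierstrassCurve

/-- The short model `Y² = X³ - 27 c₄ X - 54 c₆`. -/
def shortModel {R : Type*} [CommRing R] (W : WeierstrassCurve R) : WeierstrassCurve R :=
  ⟨0, 0, 0, -27 * W.c₄, -54 * W.c₆⟩

@[simp] lemma shortModel_a₁ {R : Type*} [CommRing R] (W : WeierstrassCurve R) :
    (shortModel W).a₁ = 0 := rfl
@[simp] lemma shortModel_a₂ {R : Type*} [CommRing R] (W : WeierstrassCurve R) :
    (shortModel W).a₂ = 0 := rfl
@[simp] lemma shortModel_a₃ {R : Type*} [CommRing R] (W : WeierstrassCurve R) :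
    (shortModel W).a₃ = 0 := rfl
@[simp] lemma shortModel_a₄ {R : Type*} [CommRing R] (W : WeierstrassCurve R) :
    (shortModel W).a₄ = -27 * W.c₄ := rfl
@[simp] lemma shortModel_a₆ {R : Type*} [CommRing R] (W : WeierstrassCurve R) :
    (shortModel W).a₆ = -54 * W.c₆ := rfl

/-- Passing to the short model commutes with base change. -/
lemma shortModel_map {R S : Type*} [CommRing R] [CommRing S] (W : WeierstrassCurve R)
    (f : R →+* S) : shortModel (W.map f) = (shortModel W).map f := by
  ext <;> simp [shortModel, WeierstrassCurve.map_c₄, WeierstrassCurve.map_c₆, map_ofNat]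

section Field

variable {F : Type*} [Field F]

/-- The `x`-coordinate map. -/
def trX (W : WeierstrassCurve F) (x : F) : F := 36 * x + 3 * W.b₂

/-- The `y`-coordinate map. -/
def trY (W : WeierstrassCurve F) (x y : F) : F := 108 * (2 * y + W.a₁ * x + W.a₃)

variable (h2 : (2 : F) ≠ 0) (h3 : (3 : F) ≠ 0) (W : WeierstrassCurve F)

include h2 h3 in
lemma consts_ne_zero : (36 : F) ≠ 0 ∧ (108 : F) ≠ 0 ∧ (216 : F) ≠ 0 ∧ (46656 : F) ≠ 0 := by
  refine ⟨?_, ?_, ?_, ?_⟩
  · have : (36 : F) = 2 ^ 2 * 3 ^ 2 := by norm_num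
    rw [this]; exact mul_ne_zero (pow_ne_zero _ h2) (pow_ne_zero _ h3)
  · have : (108 : F) = 2 ^ 2 * 3 ^ 3 := by norm_num
    rw [this]; exact mul_ne_zero (pow_ne_zero _ h2) (pow_ne_zero _ h3)
  · have : (216 : F) = 2 ^ 3 * 3 ^ 3 := by norm_num
    rw [this]; exact mul_ne_zero (pow_ne_zero _ h2) (pow_ne_zero _ h3)
  · have : (46656 : F) = 2 ^ 6 * 3 ^ 6 := by norm_num
    rw [this]; exact mul_ne_zero (pow_ne_zero _ h2) (pow_ne_zero _ h3)

include h2 h3 in
lemma equation_iff (x y : F) :
    (shortModel W).toAffine.Equation (trX W x) (trY W x y) ↔ W.toAffine.Equation x y := by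
  obtain ⟨-, -, -, h46656⟩ := consts_ne_zero h2 h3
  rw [WeierstrassCurve.Affine.equation_iff', WeierstrassCurve.Affine.equation_iff']
  have key : trY W x y ^ 2 + (shortModel W).a₁ * trX W x * trY W x y
        + (shortModel W).a₃ * trY W x y -
      (trX W x ^ 3 + (shortModel W).a₂ * trX W x ^ 2 + (shortModel W).a₄ * trX W x
        + (shortModel W).a₆) =
      46656 * (y ^ 2 + W.a₁ * x * y + W.a₃ * y - (x ^ 3 + W.a₂ * x ^ 2 + W.a₄ * x + W.a₆)) := by
    simp only [trX, trY, shortModel_a₁, shortModel_a₂, shortModel_a₃, shortModel_a₄,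
      shortModel_a₆, WeierstrassCurve.c₄, WeierstrassCurve.c₆, WeierstrassCurve.b₂,
      WeierstrassCurve.b₄, WeierstrassCurve.b₆]
    ring
  rw [key]
  constructor
  · intro h
    rcases mul_eq_zero.mp h with h | h
    · exact absurd h h46656
    · exact h
  · intro h
    rw [h, mul_zero]

include h2 h3 in
lemma nonsingular_iff (x y : F) :
    (shortModel W).toAffine.Nonsingular (trX W x) (trY W x y) ↔ W.toAffine.Nonsingular x y := by
  obtain ⟨-, -, h216, -⟩ := consts_ne_zero h2 h3
  rw [WeierstrassCurve.Affine.nonsingular_iff', WeierstrassCurve.Affine.nonsingular_iff',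
    equation_iff h2 h3 W]
  refine and_congr_right fun _ => ?_
  have k1 : (shortModel W).a₁ * trY W x y
        - (3 * trX W x ^ 2 + 2 * (shortModel W).a₂ * trX W x + (shortModel W).a₄) =
      1296 * (W.a₁ * y - (3 * x ^ 2 + 2 * W.a₂ * x + W.a₄)) -
        648 * W.a₁ * (2 * y + W.a₁ * x + W.a₃) := by
    simp only [trX, trY, shortModel_a₁, shortModel_a₂, shortModel_a₄, WeierstrassCurve.c₄,
      WeierstrassCurve.b₂, WeierstrassCurve.b₄]
    ring
  have k2 : 2 * trY W x y + (shortModel W).a₁ * trX W x + (shortModel W).a₃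
      = 216 * (2 * y + W.a₁ * x + W.a₃) := by
    simp only [trY, shortModel_a₁, shortModel_a₃]
    ring
  rw [k1, k2]
  have h1296 : (1296 : F) ≠ 0 := by
    have : (1296 : F) = 2 ^ 4 * 3 ^ 4 := by norm_num
    rw [this]; exact mul_ne_zero (pow_ne_zero _ h2) (pow_ne_zero _ h3)
  by_cases hη : 2 * y + W.a₁ * x + W.a₃ = 0
  · rw [hη]
    simp [h1296]
  · constructor
    · intro _
      exact Or.inr hη
    · intro _
      exact Or.inr (mul_ne_zero h216 hη)

include h2 h3 in
lemma trX_injective {x x' : F} (h : trX W x = trX W x') : x = x' := by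
  obtain ⟨h36, -, -, -⟩ := consts_ne_zero h2 h3
  simp only [trX] at h
  exact mul_left_cancel₀ h36 (add_right_cancel h)

include h2 h3 in
lemma trY_injective {x y y' : F} (h : trY W x y = trY W x y') : y = y' := by
  obtain ⟨-, h108, -, -⟩ := consts_ne_zero h2 h3
  simp only [trY] at h
  have := mul_left_cancel₀ h108 h
  have := add_right_cancel (add_right_cancel this)
  exact mul_left_cancel₀ h2 this

/-- The point map `(x, y) ↦ (36 x + 3 b₂, 108 (2 y + a₁ x + a₃))`. -/
def toShort : W.toAffine.Point → (shortModel W).toAffine.Point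
  | .zero => .zero
  | .some x y h => .some (trX W x) (trY W x y) ((nonsingular_iff h2 h3 W x y).mpr h)

lemma some_congr {V : WeierstrassCurve F} {x x' y y' : F} (h : V.toAffine.Nonsingular x y)
    (h' : V.toAffine.Nonsingular x' y') (hx : x = x') (hy : y = y') :
    (WeierstrassCurve.Affine.Point.some x y h : V.toAffine.Point) =
      WeierstrassCurve.Affine.Point.some x' y' h' := by
  subst hx hy
  rfl

lemma toShort_injective : Function.Injective (toShort h2 h3 W) := by
  rintro (_ | ⟨x, y, h⟩) (_ | ⟨x', y', h'⟩) hPQ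
  · rfl
  · exact absurd hPQ (by simp [toShort])
  · exact absurd hPQ (by simp [toShort])
  · simp only [toShort, WeierstrassCurve.Affine.Point.some.injEq] at hPQ
    obtain ⟨hx, hy⟩ := hPQ
    have hx' := trX_injective h2 h3 W hx
    subst hx'
    have hy' := trY_injective h2 h3 W hy
    subst hy'
    rfl

lemma toShort_surjective : Function.Surjective (toShort h2 h3 W) := by
  obtain ⟨h36, h108, -, -⟩ := consts_ne_zero h2 h3
  rintro (_ | ⟨X, Y, h⟩)
  · exact ⟨.zero, rfl⟩
  · have hX : trX W ((X - 3 * W.b₂) / 36) = X := by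
      simp only [trX]
      field_simp
      ring
    have hY : trY W ((X - 3 * W.b₂) / 36)
        ((Y / 108 - W.a₁ * ((X - 3 * W.b₂) / 36) - W.a₃) / 2) = Y := by
      simp only [trY]
      field_simp
      ring
    have h' : W.toAffine.Nonsingular ((X - 3 * W.b₂) / 36)
        ((Y / 108 - W.a₁ * ((X - 3 * W.b₂) / 36) - W.a₃) / 2) := by
      rw [← nonsingular_iff h2 h3 W, hX, hY]
      exact h
    exact ⟨.some _ _ h', some_congr _ _ hX hY⟩

/-- The bijection between the points of `W` and of its short model. -/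
noncomputable def pointEquiv : W.toAffine.Point ≃ (shortModel W).toAffine.Point :=
  Equiv.ofBijective (toShort h2 h3 W) ⟨toShort_injective h2 h3 W, toShort_surjective h2 h3 W⟩

include h2 h3 in
/-- **Count transfer**: a Weierstrass curve over a field of characteristic `≠ 2, 3` and its short
model have the same number of points. -/
theorem natCard_shortModel :
    Nat.card (shortModel W).toAffine.Point = Nat.card W.toAffine.Point :=
  (Nat.card_congr (pointEquiv h2 h3 W)).symm

include h2 h3 in
theorem card_shortModel : (shortModel W).card = W.card :=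
  natCard_shortModel h2 h3 W

include h2 h3 in
theorem traceOfFrobenius_shortModel :
    (shortModel W).traceOfFrobenius = W.traceOfFrobenius := by
  unfold WeierstrassCurve.traceOfFrobenius
  rw [card_shortModel h2 h3 W]

end Field

section ZMod

variable (ℓ : ℕ) [Fact ℓ.Prime]

lemma two_ne_zero_zmod (hℓ : 5 ≤ ℓ) : (2 : ZMod ℓ) ≠ 0 := by
  intro h
  have h' : ((2 : ℕ) : ZMod ℓ) = 0 := by exact_mod_cast h
  rw [ZMod.natCast_eq_zero_iff] at h'
  have := Nat.le_of_dvd (by norm_num) h'
  omega

lemma three_ne_zero_zmod (hℓ : 5 ≤ ℓ) : (3 : ZMod ℓ) ≠ 0 := by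
  intro h
  have h' : ((3 : ℕ) : ZMod ℓ) = 0 := by exact_mod_cast h
  rw [ZMod.natCast_eq_zero_iff] at h'
  have := Nat.le_of_dvd (by norm_num) h'
  omega

/-- Over `ZMod ℓ`, `ℓ ≥ 5`: same trace of Frobenius for `W` and its short model. -/
theorem traceOfFrobenius_shortModel_zmod (hℓ : 5 ≤ ℓ) (W : WeierstrassCurve (ZMod ℓ)) :
    (shortModel W).traceOfFrobenius = W.traceOfFrobenius :=
  traceOfFrobenius_shortModel (two_ne_zero_zmod ℓ hℓ) (three_ne_zero_zmod ℓ hℓ) W

/-- For an integral model `W`, `a_ℓ(W)` is the trace of Frobenius of the short model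
`Y² = X³ - 27 c₄ X - 54 c₆` over `ZMod ℓ` (`ℓ ≥ 5`). -/
theorem apOfModel_eq_short (hℓ : 5 ≤ ℓ) (W : WeierstrassCurve ℤ) :
    W.apOfModel ℓ
      = (⟨0, 0, 0, -27 * ((W.c₄ : ℤ) : ZMod ℓ), -54 * ((W.c₆ : ℤ) : ZMod ℓ)⟩ :
          WeierstrassCurve (ZMod ℓ)).traceOfFrobenius := by
  unfold WeierstrassCurve.apOfModel
  rw [← traceOfFrobenius_shortModel_zmod ℓ hℓ (W.reductionMod ℓ)]
  congr 1
  unfold WeierstrassCurve.reductionMod
  ext <;> simp [shortModel, WeierstrassCurve.map_c₄, WeierstrassCurve.map_c₆]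

/-- Same statement, phrased with the short model of the integral curve. -/
theorem apOfModel_shortModel (hℓ : 5 ≤ ℓ) (W : WeierstrassCurve ℤ) :
    ((shortModel W).reductionMod ℓ).traceOfFrobenius = W.apOfModel ℓ := by
  unfold WeierstrassCurve.apOfModel WeierstrassCurve.reductionMod
  rw [← shortModel_map]
  exact traceOfFrobenius_shortModel_zmod ℓ hℓ _

end ZMod

end Fermat.Agent.S52.Frob.ShortCount
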