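/-
S52 / block [Frob], leaf [P1c] (helper71): the degree of a composition of rational functions is
multiplicative, `rdeg (rcomp r a) = rdeg r * rdeg a` for nonconstant `a`.

Proof: tower law along `X ↦ a`, using Mathlib's `RatFunc.finrank_eq_max_natDegree`
(`[K(X) : K(f)] = max (deg num) (deg denom)`).
-/
import Mathlib
import Fermat.Agent.S52.Frob.Defs

set_option autoImplicit false

open Polynomial IntermediateField

namespace Fermat.Agent.S52.Frob

universe u

variable {K : Type u} [Field K]

namespace RatComp

/-- `rdeg a = [K(X) : K(a)]` (both sides are `0` for constant `a`). -/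
theorem rdeg_eq_finrank (a : RatFunc K) :
    rdeg a = Module.finrank (IntermediateField.adjoin K {a}) (RatFunc K) :=
  (RatFunc.finrank_eq_max_natDegree a).symm

/-- A rational function of positive degree is not constant. -/
theorem not_exists_eq_C_of_rdeg_pos {a : RatFunc K} (ha : 0 < rdeg a) :
    ¬ ∃ c : K, a = RatFunc.C c := by
  rintro ⟨c, rfl⟩
  simp [rdeg] at ha

/-- A rational function of positive degree is transcendental over the constants. -/
theorem transcendental_of_rdeg_pos {a : RatFunc K} (ha : 0 < rdeg a) : Transcendental K a :=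
  RatFunc.transcendental_of_ne_C a (not_exists_eq_C_of_rdeg_pos ha)

/-- The substitution `X ↦ a` as a `K`-algebra endomorphism of `K(X)`, for nonconstant `a`. -/
noncomputable def substHom (a : RatFunc K) (ha : 0 < rdeg a) : RatFunc K →ₐ[K] RatFunc K :=
  RatFunc.liftAlgHom (aeval a)
    (nonZeroDivisors_le_comap_nonZeroDivisors_of_injective _
      (transcendental_iff_injective.mp (transcendental_of_rdeg_pos ha)))

theorem substHom_apply (a : RatFunc K) (ha : 0 < rdeg a) (r : RatFunc K) :
    substHom a ha r = rcomp r a :=
  RatFunc.liftAlgHom_apply _ _ r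

theorem substHom_X (a : RatFunc K) (ha : 0 < rdeg a) : substHom a ha RatFunc.X = a := by
  rw [substHom_apply]; simp [rcomp]

end RatComp

open RatComp in
/-- **Degree of a composition.** -/
theorem rdeg_rcomp (r a : RatFunc K) (ha : 0 < rdeg a) :
    rdeg (rcomp r a) = rdeg r * rdeg a := by
  set ψ := substHom a ha with hψ
  have h1 : (adjoin K {r}).map ψ = adjoin K {rcomp r a} := by
    rw [adjoin_map, Set.image_singleton, hψ, substHom_apply]
  have h2 : (⊤ : IntermediateField K (RatFunc K)).map ψ = adjoin K {a} := by
    rw [← RatFunc.adjoin_X, adjoin_map, Set.image_singleton, hψ, substHom_X]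
  have hle : adjoin K {rcomp r a} ≤ adjoin K {a} := by
    rw [← h1, ← h2]; exact IntermediateField.map_mono ψ le_top
  calc rdeg (rcomp r a)
      = Module.finrank (adjoin K {rcomp r a}) (RatFunc K) := rdeg_eq_finrank _
    _ = relfinrank (adjoin K {rcomp r a}) (adjoin K {a})
          * Module.finrank (adjoin K {a}) (RatFunc K) := (relfinrank_mul_finrank_top hle).symm
    _ = relfinrank ((adjoin K {r}).map ψ) ((⊤ : IntermediateField K (RatFunc K)).map ψ)
          * rdeg a := by rw [h1, h2, rdeg_eq_finrank a]
    _ = relfinrank (adjoin K {r}) (⊤ : IntermediateField K (RatFunc K)) * rdeg a := by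
          rw [relfinrank_map_map]
    _ = rdeg r * rdeg a := by rw [relfinrank_top_right, ← rdeg_eq_finrank]

end Fermat.Agent.S52.Frob
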