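/-
S52 / block [Frob], glue step [S4] (helper71).  Substitution endomorphisms of the group of
points of `E(F)`, `F = AlgebraicClosure K(X)`: for an odd point `Q` of positive height there is
an endomorphism `s` of `E(F)` commuting with Frobenius, sending the generic point `G` to `± Q`,
multiplying heights of odd points by `hgt Q`, and fixing the points with constant coordinates.

`s` is induced by a `K`-algebra endomorphism `s₀` of `F` with `s₀ X = x(Q)` (`exists_subst`).
-/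
import Fermat.Agent.S52.Frob.Gamma
import Fermat.Agent.S52.Frob.Subst
import Fermat.Agent.S52.Frob.RatComp
import Fermat.Agent.S52.Frob.RatDeg

set_option autoImplicit false

open Polynomial
open scoped WeierstrassCurve.Affine

namespace Fermat.Agent.S52.Frob

universe u

noncomputable section

attribute [local instance] Classical.propDecidable

variable (ℓ : ℕ) [Fact ℓ.Prime] (W : WeierstrassCurve (ZMod ℓ)) (K : Type u) [Field K]
  [Algebra (ZMod ℓ) K]

namespace GlueC

/-- The endomorphism of the group of points induced by a `K`-algebra endomorphism of `F`. -/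
def sMap (s₀ : FF K →ₐ[K] FF K) : (WF ℓ W K).toAffine.Point →+ (WF ℓ W K).toAffine.Point :=
  WeierstrassCurve.Affine.Point.map (W' := W.toAffine) (s₀.restrictScalars (ZMod ℓ))

lemma sMap_zero (s₀ : FF K →ₐ[K] FF K) : sMap ℓ W K s₀ 0 = 0 := map_zero _

lemma sMap_some (s₀ : FF K →ₐ[K] FF K) {x y : FF K}
    (h : (WF ℓ W K).toAffine.Nonsingular x y) :
    ∃ h' : (WF ℓ W K).toAffine.Nonsingular (s₀ x) (s₀ y),
      sMap ℓ W K s₀ (WeierstrassCurve.Affine.Point.some x y h) =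
        WeierstrassCurve.Affine.Point.some (s₀ x) (s₀ y) h' := by
  have h2 : (WF ℓ W K).toAffine.Nonsingular ((s₀.restrictScalars (ZMod ℓ)) x)
      ((s₀.restrictScalars (ZMod ℓ)) y) :=
    (W.toAffine.baseChange_nonsingular (s₀.restrictScalars (ZMod ℓ)).injective ..).mpr h
  exact ⟨h2, rfl⟩

/-- Congruence for affine points. -/
lemma some_congr {x x' y y' : FF K} (h : (WF ℓ W K).toAffine.Nonsingular x y)
    (h' : (WF ℓ W K).toAffine.Nonsingular x' y') (hx : x = x') (hy : y = y') :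
    WeierstrassCurve.Affine.Point.some x y h = WeierstrassCurve.Affine.Point.some x' y' h' := by
  subst hx hy
  rfl

/-- Substitutions commute with Frobenius. -/
lemma sMap_phi (s₀ : FF K →ₐ[K] FF K) (P : (WF ℓ W K).toAffine.Point) :
    sMap ℓ W K s₀ (phi ℓ W K P) = phi ℓ W K (sMap ℓ W K s₀ P) := by
  rcases P with _ | ⟨x, y, h⟩
  · change sMap ℓ W K s₀ (phi ℓ W K 0) = phi ℓ W K (sMap ℓ W K s₀ 0)
    rw [map_zero, sMap_zero, map_zero]
  · obtain ⟨h1, e1⟩ := phi_some ℓ W K h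
    obtain ⟨h2, e2⟩ := sMap_some ℓ W K s₀ h1
    obtain ⟨h3, e3⟩ := sMap_some ℓ W K s₀ h
    obtain ⟨h4, e4⟩ := phi_some ℓ W K h3
    rw [e1, e2, e3, e4]
    exact some_congr ℓ W K _ _ (map_pow s₀ x ℓ) (map_pow s₀ y ℓ)

/-- Substitutions fix the points with constant coordinates. -/
lemma sMap_const (s₀ : FF K →ₐ[K] FF K) (x y : FF K)
    (h : (WF ℓ W K).toAffine.Nonsingular x y) (hx : x ∈ Set.range (algebraMap K (FF K)))
    (hy : y ∈ Set.range (algebraMap K (FF K))) :
    sMap ℓ W K s₀ (WeierstrassCurve.Affine.Point.some x y h) =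
      WeierstrassCurve.Affine.Point.some x y h := by
  obtain ⟨c, rfl⟩ := hx
  obtain ⟨d, rfl⟩ := hy
  obtain ⟨h', e⟩ := sMap_some ℓ W K s₀ h
  rw [e]
  exact some_congr ℓ W K _ _ (s₀.commutes c) (s₀.commutes d)

/-- A rational function of positive degree is not a constant of `F`. -/
lemma iota_not_mem_range {a : RatFunc K} (ha : 0 < rdeg a) :
    iota K a ∉ Set.range (algebraMap K (FF K)) := by
  rintro ⟨c, hc⟩
  rw [← iota_C] at hc
  have h := iota_injective K hc
  have h0 : rdeg a = 0 := (rdeg_eq_zero_iff a).mpr ⟨c, h.symm⟩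
  omega

/-- Heights of odd points are multiplied by the degree of the substitution. -/
lemma hgt_sMap (hℓ : ℓ ≠ 2) (s₀ : FF K →ₐ[K] FF K) (a : RatFunc K) (ha : 0 < rdeg a)
    (hs : s₀ (Xf K) = iota K a) (R : (WF ℓ W K).toAffine.Point) (hR : R ∈ Gam ℓ W K hℓ) :
    hgt ℓ W K (sMap ℓ W K s₀ R) = hgt ℓ W K R * rdeg a := by
  rcases R with _ | ⟨x, y, h⟩
  · change hgt ℓ W K (sMap ℓ W K s₀ 0) = hgt ℓ W K 0 * rdeg a
    rw [sMap_zero, hgt_zero, zero_mul]
  · obtain ⟨r, b, rfl, -⟩ := (some_mem_Gam ℓ W K hℓ h).mp hR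
    obtain ⟨h', e⟩ := sMap_some ℓ W K s₀ h
    have hx : s₀ (iota K r) = iota K (rcomp r a) := subst_algebraMap s₀ a hs r
    rw [e, hgt_some_iota]
    have h'' : (WF ℓ W K).toAffine.Nonsingular (iota K (rcomp r a)) (s₀ y) := hx ▸ h'
    rw [some_congr ℓ W K h' h'' hx rfl, hgt_some_iota, rdeg_rcomp r a ha]

end GlueC

open GlueC in
/-- **[S4]** the substitution endomorphism attached to an odd point of positive height. -/
theorem glueC [IsAlgClosed K] (hℓ : ℓ ≠ 2) (hΔ : W.Δ ≠ 0) :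
    ∀ Q ∈ Gam ℓ W K hℓ, 0 < hgt ℓ W K Q →
      ∃ s : (WF ℓ W K).toAffine.Point →+ (WF ℓ W K).toAffine.Point,
        (∀ P, s (phi ℓ W K P) = phi ℓ W K (s P)) ∧
        (s (Gpt ℓ W K hΔ) = Q ∨ s (Gpt ℓ W K hΔ) = -Q) ∧
        (∀ R ∈ Gam ℓ W K hℓ, hgt ℓ W K (s R) = hgt ℓ W K R * hgt ℓ W K Q) ∧
        (∀ (x y : FF K) (h : (WF ℓ W K).toAffine.Nonsingular x y),
          x ∈ Set.range (algebraMap K (FF K)) → y ∈ Set.range (algebraMap K (FF K)) →
            s (WeierstrassCurve.Affine.Point.some x y h) =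
              WeierstrassCurve.Affine.Point.some x y h) := by
  intro Q hQ hpos
  rcases Q with _ | ⟨x, y, h⟩
  · exact absurd hpos (lt_irrefl 0)
  obtain ⟨a, b, rfl, -⟩ := (some_mem_Gam ℓ W K hℓ h).mp hQ
  have ha : 0 < rdeg a := by rwa [hgt_some_iota] at hpos
  obtain ⟨s₀, hs₀⟩ := exists_subst (iota K a) (iota_not_mem_range K ha)
  have hs : s₀ (Xf K) = iota K a := hs₀
  refine ⟨sMap ℓ W K s₀, sMap_phi ℓ W K s₀, ?_, ?_, sMap_const ℓ W K s₀⟩
  · obtain ⟨h', e⟩ := sMap_some ℓ W K s₀ (y0_nonsingular ℓ W K hΔ)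
    have e' : sMap ℓ W K s₀ (Gpt ℓ W K hΔ) =
        WeierstrassCurve.Affine.Point.some (s₀ (Xf K)) (s₀ (y0 ℓ W K)) h' := e
    rw [e']
    rcases WeierstrassCurve.Affine.Y_eq_of_X_eq h'.1 h.1 hs with hy | hy
    · left
      exact some_congr ℓ W K _ _ hs hy
    · right
      rw [WeierstrassCurve.Affine.Point.neg_some]
      exact some_congr ℓ W K _ _ hs hy
  · intro R hR
    rw [hgt_some_iota]
    exact hgt_sMap ℓ W K hℓ s₀ a ha hs R hR

end

end Fermat.Agent.S52.Frob
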