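import Mathlib

/-!
# Exact parallelogram law for heights of `x`-coordinates (rational-function form)

For a Weierstrass curve `W` over a field `K` with `Δ ≠ 0` and rational functions
`u = x(P)`, `v = x(Q)`, `x₃ = x(P+Q)`, `x₄ = x(P-Q)` in `K(X)` related by the classical
sum / product formulas, the heights `ht r = max (deg num) (deg denom)` satisfy
`ht x₃ + ht x₄ = 2 ht u + 2 ht v` exactly; similarly `ht x(2P) = 4 ht x(P)`.

The no-common-zero certificate is Mathlib's `WeierstrassCurve.addSubMapCoeff_condition`.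
-/

set_option autoImplicit false

open Polynomial

namespace Fermat.Agent.S52.HeightPar

variable {K : Type*} [Field K]

/-- Maximal `natDegree` of a triple of polynomials. -/
noncomputable def maxDeg (X : Fin 3 → K[X]) : ℕ := Finset.univ.sup fun i => (X i).natDegree

/-- A triple of polynomials generating the unit ideal. -/
def IsCop (X : Fin 3 → K[X]) : Prop := Ideal.span (Set.range X) = ⊤

lemma natDegree_le_maxDeg (X : Fin 3 → K[X]) (i : Fin 3) : (X i).natDegree ≤ maxDeg X :=
  Finset.le_sup (f := fun i => (X i).natDegree) (Finset.mem_univ i)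

lemma maxDeg_le {X : Fin 3 → K[X]} {n : ℕ} (h : ∀ i, (X i).natDegree ≤ n) : maxDeg X ≤ n :=
  Finset.sup_le fun i _ => h i

lemma exists_natDegree_eq_maxDeg (X : Fin 3 → K[X]) : ∃ i, (X i).natDegree = maxDeg X := by
  obtain ⟨i, -, hi⟩ := Finset.exists_mem_eq_sup Finset.univ Finset.univ_nonempty
    (fun i => (X i).natDegree)
  exact ⟨i, hi.symm⟩

lemma IsCop.exists_coeff {X : Fin 3 → K[X]} (h : IsCop X) :
    ∃ a : Fin 3 → K[X], ∑ i, a i * X i = 1 := by
  have : (1 : K[X]) ∈ Ideal.span (Set.range X) := by rw [h]; trivial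
  exact Ideal.mem_span_range_iff_exists_fun.mp this

lemma isCop_of_coeff {X : Fin 3 → K[X]} (a : Fin 3 → K[X]) (h : ∑ i, a i * X i = 1) :
    IsCop X := by
  rw [IsCop, Ideal.eq_top_iff_one]
  exact Ideal.mem_span_range_iff_exists_fun.mpr ⟨a, h⟩

lemma IsCop.ne_zero {X : Fin 3 → K[X]} (h : IsCop X) : ∃ i, X i ≠ 0 := by
  by_contra hne
  simp only [not_exists, not_not] at hne
  obtain ⟨a, ha⟩ := h.exists_coeff
  simp [hne] at ha

/-- (A) Proportional coprime triples have the same maximal degree. -/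
theorem maxDeg_eq_of_prop {X Y : Fin 3 → K[X]} (hX : IsCop X) (hY : IsCop Y)
    (h : ∀ i j, X i * Y j = X j * Y i) : maxDeg X = maxDeg Y := by
  obtain ⟨a, ha⟩ := hX.exists_coeff
  obtain ⟨b, hb⟩ := hY.exists_coeff
  set e : K[X] := ∑ i, a i * Y i with he
  set e' : K[X] := ∑ i, b i * X i with he'
  have h1 : ∀ j, Y j = X j * e := by
    intro j
    calc Y j = (∑ i, a i * X i) * Y j := by rw [ha, one_mul]
      _ = ∑ i, a i * (X i * Y j) := by rw [Finset.sum_mul]; simp [mul_assoc]
      _ = ∑ i, a i * (X j * Y i) := by simp [h]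
      _ = X j * e := by
          rw [he, Finset.mul_sum]; exact Finset.sum_congr rfl fun i _ => by ring
  have h2 : ∀ j, X j = Y j * e' := by
    intro j
    calc X j = (∑ i, b i * Y i) * X j := by rw [hb, one_mul]
      _ = ∑ i, b i * (Y i * X j) := by rw [Finset.sum_mul]; simp [mul_assoc]
      _ = ∑ i, b i * (Y j * X i) := by
          refine Finset.sum_congr rfl fun i _ => ?_
          rw [mul_comm (Y i) (X j), h j i, mul_comm (X i) (Y j)]
      _ = Y j * e' := by
          rw [he', Finset.mul_sum]; exact Finset.sum_congr rfl fun i _ => by ring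
  obtain ⟨j₀, hj₀⟩ := hY.ne_zero
  have hee : e' * e = 1 := by
    have : Y j₀ * (e' * e) = Y j₀ * 1 := by
      rw [mul_one, ← mul_assoc, ← h2 j₀, ← h1 j₀]
    exact mul_left_cancel₀ hj₀ this
  have hunit : IsUnit e := IsUnit.of_mul_eq_one e' (by rw [mul_comm]; exact hee)
  obtain ⟨c, hc, hce⟩ := Polynomial.isUnit_iff.mp hunit
  have hc0 : c ≠ 0 := hc.ne_zero
  unfold maxDeg
  congr 1
  ext i
  rw [h1 i, ← hce, mul_comm, natDegree_C_mul hc0]

/-! ### (G) Gauss' lemma for a product of two linear polynomials -/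

/-- The symmetric-function triple `(a₁b₁ : a₁b₂ + a₂b₁ : a₂b₂)` of two fractions
`a₁/a₂`, `b₁/b₂`. -/
noncomputable def symTriple (a₁ a₂ b₁ b₂ : K[X]) : Fin 3 → K[X] :=
  ![a₁ * b₁, a₁ * b₂ + a₂ * b₁, a₂ * b₂]

theorem isCop_symTriple {a₁ a₂ b₁ b₂ : K[X]} (ha : IsCoprime a₁ a₂) (hb : IsCoprime b₁ b₂) :
    IsCop (symTriple a₁ a₂ b₁ b₂) := by
  obtain ⟨A, B, hAB⟩ := (ha.pow (m := 2) (n := 2))
  obtain ⟨r, s, hrs⟩ := hb
  refine isCop_of_coeff
    ![A * (r * a₁ - s * a₂), A * s * a₁ + B * r * a₂, B * (s * a₂ - r * a₁)] ?_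
  simp only [symTriple, Fin.sum_univ_three, Matrix.cons_val_zero, Matrix.cons_val_one,
    Matrix.cons_val_two, Matrix.head_cons, Matrix.tail_cons]
  linear_combination (A * a₁ ^ 2 + B * a₂ ^ 2) * hrs + hAB

theorem maxDeg_symTriple {a₁ a₂ b₁ b₂ : K[X]} (ha₂ : a₂ ≠ 0) (hb₂ : b₂ ≠ 0) :
    maxDeg (symTriple a₁ a₂ b₁ b₂) =
      max a₁.natDegree a₂.natDegree + max b₁.natDegree b₂.natDegree := by
  have h0 : symTriple a₁ a₂ b₁ b₂ 0 = a₁ * b₁ := rfl
  have h1 : symTriple a₁ a₂ b₁ b₂ 1 = a₁ * b₂ + a₂ * b₁ := rfl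
  have h2 : symTriple a₁ a₂ b₁ b₂ 2 = a₂ * b₂ := rfl
  apply le_antisymm
  · apply maxDeg_le
    intro i
    fin_cases i
    · show (a₁ * b₁).natDegree ≤ _
      exact natDegree_mul_le.trans (add_le_add (le_max_left _ _) (le_max_left _ _))
    · show (a₁ * b₂ + a₂ * b₁).natDegree ≤ _
      refine natDegree_add_le_of_degree_le ?_ ?_
      · exact natDegree_mul_le.trans (add_le_add (le_max_left _ _) (le_max_right _ _))
      · exact natDegree_mul_le.trans (add_le_add (le_max_right _ _) (le_max_left _ _))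
    · show (a₂ * b₂).natDegree ≤ _
      exact natDegree_mul_le.trans (add_le_add (le_max_right _ _) (le_max_right _ _))
  · rcases le_or_gt a₁.natDegree a₂.natDegree with ha | ha <;>
      rcases le_or_gt b₁.natDegree b₂.natDegree with hb | hb
    · rw [max_eq_right ha, max_eq_right hb, ← natDegree_mul ha₂ hb₂, ← h2]
      exact natDegree_le_maxDeg _ 2
    · have hb₁ : b₁ ≠ 0 := by rintro rfl; simp at hb
      rw [max_eq_right ha, max_eq_left hb.le, ← natDegree_mul ha₂ hb₁]
      have hlt : (a₁ * b₂).natDegree < (a₂ * b₁).natDegree := by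
        rw [natDegree_mul ha₂ hb₁]
        exact natDegree_mul_le.trans_lt (by omega)
      rw [← natDegree_add_eq_right_of_natDegree_lt hlt, ← h1]
      exact natDegree_le_maxDeg _ 1
    · have ha₁ : a₁ ≠ 0 := by rintro rfl; simp at ha
      rw [max_eq_left ha.le, max_eq_right hb, ← natDegree_mul ha₁ hb₂]
      have hlt : (a₂ * b₁).natDegree < (a₁ * b₂).natDegree := by
        rw [natDegree_mul ha₁ hb₂]
        exact natDegree_mul_le.trans_lt (by omega)
      rw [← natDegree_add_eq_left_of_natDegree_lt hlt, ← h1]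
      exact natDegree_le_maxDeg _ 1
    · have ha₁ : a₁ ≠ 0 := by rintro rfl; simp at ha
      have hb₁ : b₁ ≠ 0 := by rintro rfl; simp at hb
      rw [max_eq_left ha.le, max_eq_left hb.le, ← natDegree_mul ha₁ hb₁, ← h0]
      exact natDegree_le_maxDeg _ 0

/-! ### (M) The addition-and-subtraction map doubles the projective height -/

section addSub

variable (W : WeierstrassCurve K)

/-- The three quadratic forms of Mathlib's `WeierstrassCurve.addSubMap`, evaluated at a
triple of polynomials. -/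
noncomputable def asMap (X : Fin 3 → K[X]) : Fin 3 → K[X] :=
  ![X 0 ^ 2 - C W.b₄ * X 0 * X 2 - C W.b₆ * X 1 * X 2 - C W.b₈ * X 2 ^ 2,
    C 2 * X 1 * X 0 + C W.b₂ * X 0 * X 2 + C W.b₄ * X 1 * X 2 + C W.b₆ * X 2 ^ 2,
    X 1 ^ 2 - C 4 * X 0 * X 2]

/-- The same three forms evaluated at a triple of scalars. -/
def asMapK (l : Fin 3 → K) : Fin 3 → K :=
  ![l 0 ^ 2 - W.b₄ * l 0 * l 2 - W.b₆ * l 1 * l 2 - W.b₈ * l 2 ^ 2,
    2 * l 1 * l 0 + W.b₂ * l 0 * l 2 + W.b₄ * l 1 * l 2 + W.b₆ * l 2 ^ 2,
    l 1 ^ 2 - 4 * l 0 * l 2]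

lemma asMap_eq_eval (X : Fin 3 → K[X]) (j : Fin 3) :
    asMap W X j = MvPolynomial.eval X (WeierstrassCurve.addSubMap (W.map (C : K →+* K[X])) j) := by
  have hC2 : (C (2 : K) : K[X]) = 2 := map_ofNat C 2
  have hC4 : (C (4 : K) : K[X]) = 4 := map_ofNat C 4
  fin_cases j <;> simp [asMap, WeierstrassCurve.addSubMap, hC2, hC4]

lemma asMapK_eq_eval (l : Fin 3 → K) (j : Fin 3) :
    asMapK W l j = MvPolynomial.eval l (WeierstrassCurve.addSubMap W j) := by
  fin_cases j <;> simp [asMapK, WeierstrassCurve.addSubMap]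

variable {W}

theorem isCop_asMap (hΔ : W.Δ ≠ 0) {X : Fin 3 → K[X]} (hX : IsCop X) : IsCop (asMap W X) := by
  have : W.IsElliptic := ⟨isUnit_iff_ne_zero.mpr hΔ⟩
  have hpow : Ideal.span ((fun x => x ^ 4) '' Set.range X) = ⊤ :=
    Ideal.span_pow_eq_top _ hX 4
  rw [IsCop, eq_top_iff, ← hpow, Ideal.span_le]
  rintro _ ⟨_, ⟨i, rfl⟩, rfl⟩
  have hc := WeierstrassCurve.addSubMapCoeff_condition (W.map (C : K →+* K[X])) X i
  show X i ^ 4 ∈ Ideal.span (Set.range (asMap W X))
  rw [← hc]
  refine Ideal.sum_mem _ fun j _ => Ideal.mul_mem_left _ _ ?_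
  rw [← asMap_eq_eval]
  exact Ideal.subset_span ⟨j, rfl⟩

theorem maxDeg_asMap (hΔ : W.Δ ≠ 0) {X : Fin 3 → K[X]} (hX : ∃ i, X i ≠ 0) :
    maxDeg (asMap W X) = 2 * maxDeg X := by
  have : W.IsElliptic := ⟨isUnit_iff_ne_zero.mpr hΔ⟩
  set D := maxDeg X with hD
  have hd : ∀ i, (X i).natDegree ≤ D := natDegree_le_maxDeg X
  have hmul : ∀ (c : K) (i k : Fin 3), (C c * X i * X k).natDegree ≤ 2 * D := by
    intro c i k
    refine natDegree_mul_le.trans ?_
    have h1 : (C c * X i).natDegree ≤ D := (natDegree_C_mul_le _ _).trans (hd i)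
    have h2 := hd k
    omega
  have hsq : ∀ i : Fin 3, (X i ^ 2).natDegree ≤ 2 * D := by
    intro i
    refine natDegree_pow_le.trans ?_
    have := hd i
    omega
  have hCsq : ∀ (c : K) (i : Fin 3), (C c * X i ^ 2).natDegree ≤ 2 * D := fun c i =>
    (natDegree_C_mul_le _ _).trans (hsq i)
  apply le_antisymm
  · apply maxDeg_le
    intro j
    fin_cases j
    · show (X 0 ^ 2 - C W.b₄ * X 0 * X 2 - C W.b₆ * X 1 * X 2 - C W.b₈ * X 2 ^ 2).natDegree ≤ _
      refine (natDegree_sub_le_of_le (m := 2 * D) (n := 2 * D) ?_ (hCsq _ _)).trans (by simp)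
      refine (natDegree_sub_le_of_le (m := 2 * D) (n := 2 * D) ?_ (hmul _ _ _)).trans (by simp)
      exact (natDegree_sub_le_of_le (m := 2 * D) (n := 2 * D) (hsq _) (hmul _ _ _)).trans
        (by simp)
    · show (C 2 * X 1 * X 0 + C W.b₂ * X 0 * X 2 + C W.b₄ * X 1 * X 2
        + C W.b₆ * X 2 ^ 2).natDegree ≤ _
      refine natDegree_add_le_of_degree_le ?_ (hCsq _ _)
      refine natDegree_add_le_of_degree_le ?_ (hmul _ _ _)
      exact natDegree_add_le_of_degree_le (hmul _ _ _) (hmul _ _ _)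
    · show (X 1 ^ 2 - C 4 * X 0 * X 2).natDegree ≤ _
      exact (natDegree_sub_le_of_le (m := 2 * D) (n := 2 * D) (hsq _) (hmul _ _ _)).trans
        (by simp)
  · -- leading coefficient vector
    set l : Fin 3 → K := fun i => (X i).coeff D with hl
    have hl0 : l ≠ 0 := by
      obtain ⟨i₀, hi₀⟩ := exists_natDegree_eq_maxDeg X
      by_cases h0 : X i₀ = 0
      · obtain ⟨i₁, hi₁⟩ := hX
        have hD0 : D = 0 := by rw [hD, ← hi₀, h0, natDegree_zero]
        intro hcon
        have hz : (X i₁).coeff D = 0 := congrFun hcon i₁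
        have hdeg : (X i₁).natDegree = 0 := by have := hd i₁; omega
        rw [hD0] at hz
        apply hi₁
        rw [eq_C_of_natDegree_eq_zero hdeg, hz, C_0]
      · intro hcon
        have hz : (X i₀).coeff D = 0 := congrFun hcon i₀
        rw [hD, ← hi₀] at hz
        exact h0 (leadingCoeff_eq_zero.mp hz)
    have hne := WeierstrassCurve.addSubMap_ne_zero W hl0
    have hex : ∃ j, asMapK W l j ≠ 0 := by
      by_contra hcon
      simp only [not_exists, not_not] at hcon
      apply hne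
      funext j
      rw [← asMapK_eq_eval, hcon j]
      rfl
    obtain ⟨j, hj⟩ := hex
    have hcoeff : (asMap W X j).coeff (D + D) = asMapK W l j := by
      have c1 : ∀ i k : Fin 3, (X i * X k).coeff (D + D) = l i * l k := fun i k =>
        coeff_mul_add_eq_of_natDegree_le (hd i) (hd k)
      fin_cases j
      · show (X 0 ^ 2 - C W.b₄ * X 0 * X 2 - C W.b₆ * X 1 * X 2 - C W.b₈ * X 2 ^ 2).coeff
          (D + D) = l 0 ^ 2 - W.b₄ * l 0 * l 2 - W.b₆ * l 1 * l 2 - W.b₈ * l 2 ^ 2
        simp only [coeff_sub, sq, mul_assoc, coeff_C_mul, c1]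
      · show (C 2 * X 1 * X 0 + C W.b₂ * X 0 * X 2 + C W.b₄ * X 1 * X 2
          + C W.b₆ * X 2 ^ 2).coeff (D + D)
            = 2 * l 1 * l 0 + W.b₂ * l 0 * l 2 + W.b₄ * l 1 * l 2 + W.b₆ * l 2 ^ 2
        simp only [coeff_add, sq, mul_assoc, coeff_C_mul, c1]
      · show (X 1 ^ 2 - C 4 * X 0 * X 2).coeff (D + D) = l 1 ^ 2 - 4 * l 0 * l 2
        simp only [coeff_sub, sq, mul_assoc, coeff_C_mul, c1]
    have hle : D + D ≤ (asMap W X j).natDegree :=
      le_natDegree_of_ne_zero (by rw [hcoeff]; exact hj)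
    calc 2 * D = D + D := two_mul D
      _ ≤ (asMap W X j).natDegree := hle
      _ ≤ maxDeg (asMap W X) := natDegree_le_maxDeg _ j

end addSub

/-! ### The rational-function statements -/

lemma prop_of_three {X Y : Fin 3 → K[X]} (h01 : X 0 * Y 1 = X 1 * Y 0)
    (h02 : X 0 * Y 2 = X 2 * Y 0) (h12 : X 1 * Y 2 = X 2 * Y 1) :
    ∀ i j, X i * Y j = X j * Y i := by
  intro i j
  fin_cases i <;> fin_cases j
  · rfl
  · exact h01
  · exact h02
  · exact h01.symm
  · rfl
  · exact h12
  · exact h02.symm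
  · exact h12.symm
  · rfl

/-- Height of a rational function: the maximum of the degrees of numerator and denominator. -/
noncomputable def ht (r : RatFunc K) : ℕ := max r.num.natDegree r.denom.natDegree

lemma algebraMap_num (r : RatFunc K) :
    algebraMap K[X] (RatFunc K) r.num = r * algebraMap K[X] (RatFunc K) r.denom := by
  have h0 : algebraMap K[X] (RatFunc K) r.denom ≠ 0 := by
    rw [Ne, map_eq_zero_iff _ (RatFunc.algebraMap_injective K)]
    exact r.denom_ne_zero
  have := RatFunc.num_div_denom r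
  field_simp at this
  rw [this, mul_comm]

lemma isCop_pair {p q : K[X]} (h : IsCoprime p q) : IsCop ![p, q, 0] := by
  obtain ⟨a, b, hab⟩ := h
  refine isCop_of_coeff ![a, b, 0] ?_
  simp only [Fin.sum_univ_three, Matrix.cons_val_zero, Matrix.cons_val_one,
    Matrix.cons_val_two, Matrix.head_cons, Matrix.tail_cons]
  linear_combination hab

lemma maxDeg_pair (p q : K[X]) : maxDeg ![p, q, 0] = max p.natDegree q.natDegree := by
  apply le_antisymm
  · apply maxDeg_le
    intro i
    fin_cases i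
    · exact le_max_left _ _
    · exact le_max_right _ _
    · show (0 : K[X]).natDegree ≤ _
      simp
  · exact max_le (natDegree_le_maxDeg ![p, q, 0] 0) (natDegree_le_maxDeg ![p, q, 0] 1)

section main

variable (W : WeierstrassCurve K)

local notation "φ" => algebraMap K[X] (RatFunc K)
local notation "c" => algebraMap K (RatFunc K)

lemma algebraMap_C_eq (a : K) : φ (C a) = c a := by
  rw [RatFunc.algebraMap_C, RatFunc.algebraMap_eq_C]

lemma algebraMap_asMap_symTriple_zero (u v : RatFunc K) :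
    φ (asMap W (symTriple u.num u.denom v.num v.denom) 0) =
      (φ u.denom * φ v.denom) ^ 2 *
        ((u * v) ^ 2 - c W.b₄ * (u * v) - c W.b₆ * (u + v) - c W.b₈) := by
  show φ ((u.num * v.num) ^ 2 - C W.b₄ * (u.num * v.num) * (u.denom * v.denom)
    - C W.b₆ * (u.num * v.denom + u.denom * v.num) * (u.denom * v.denom)
    - C W.b₈ * (u.denom * v.denom) ^ 2) = _
  simp only [map_sub, map_add, map_mul, map_pow, algebraMap_C_eq, algebraMap_num u,
    algebraMap_num v]
  ring

lemma algebraMap_asMap_symTriple_one (u v : RatFunc K) :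
    φ (asMap W (symTriple u.num u.denom v.num v.denom) 1) =
      (φ u.denom * φ v.denom) ^ 2 *
        (2 * (u * v) * (u + v) + c W.b₂ * (u * v) + c W.b₄ * (u + v) + c W.b₆) := by
  show φ (C 2 * (u.num * v.denom + u.denom * v.num) * (u.num * v.num)
    + C W.b₂ * (u.num * v.num) * (u.denom * v.denom)
    + C W.b₄ * (u.num * v.denom + u.denom * v.num) * (u.denom * v.denom)
    + C W.b₆ * (u.denom * v.denom) ^ 2) = _
  have h2 : c (2 : K) = 2 := map_ofNat _ 2
  simp only [map_add, map_mul, map_pow, algebraMap_C_eq, algebraMap_num u,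
    algebraMap_num v, h2]
  ring

lemma algebraMap_asMap_symTriple_two (u v : RatFunc K) :
    φ (asMap W (symTriple u.num u.denom v.num v.denom) 2) =
      (φ u.denom * φ v.denom) ^ 2 * (u - v) ^ 2 := by
  show φ ((u.num * v.denom + u.denom * v.num) ^ 2
    - C 4 * (u.num * v.num) * (u.denom * v.denom)) = _
  have h4 : c (4 : K) = 4 := map_ofNat _ 4
  simp only [map_sub, map_add, map_mul, map_pow, algebraMap_C_eq, algebraMap_num u,
    algebraMap_num v, h4]
  ring

lemma algebraMap_symTriple_zero (x y : RatFunc K) :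
    φ (symTriple x.num x.denom y.num y.denom 0) = (φ x.denom * φ y.denom) * (x * y) := by
  show φ (x.num * y.num) = _
  simp only [map_mul, algebraMap_num x, algebraMap_num y]
  ring

lemma algebraMap_symTriple_one (x y : RatFunc K) :
    φ (symTriple x.num x.denom y.num y.denom 1) = (φ x.denom * φ y.denom) * (x + y) := by
  show φ (x.num * y.denom + x.denom * y.num) = _
  simp only [map_mul, map_add, algebraMap_num x, algebraMap_num y]
  ring

lemma algebraMap_symTriple_two (x y : RatFunc K) :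
    φ (symTriple x.num x.denom y.num y.denom 2) = φ x.denom * φ y.denom := by
  show φ (x.denom * y.denom) = _
  simp only [map_mul]

lemma maxDeg_symTriple_ratFunc (x y : RatFunc K) :
    maxDeg (symTriple x.num x.denom y.num y.denom) = ht x + ht y :=
  maxDeg_symTriple x.denom_ne_zero y.denom_ne_zero

variable {W}

/-- **Exact parallelogram law for heights**: `u = x(P)`, `v = x(Q)`, `x₃ = x(P+Q)`,
`x₄ = x(P-Q)`. -/
theorem ht_add_sub' (hΔ : W.Δ ≠ 0) (u v x₃ x₄ : RatFunc K)
    (hs : (x₃ + x₄) * (u - v) ^ 2 =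
      2 * (u * v) * (u + v) + c W.b₂ * (u * v) + c W.b₄ * (u + v) + c W.b₆)
    (hp : x₃ * x₄ * (u - v) ^ 2 =
      (u * v) ^ 2 - c W.b₄ * (u * v) - c W.b₆ * (u + v) - c W.b₈) :
    ht x₃ + ht x₄ = 2 * ht u + 2 * ht v := by
  set X := symTriple u.num u.denom v.num v.denom with hX
  set Z := symTriple x₃.num x₃.denom x₄.num x₄.denom with hZ
  have hXcop : IsCop X := isCop_symTriple (RatFunc.isCoprime_num_denom u)
    (RatFunc.isCoprime_num_denom v)
  have hZcop : IsCop Z := isCop_symTriple (RatFunc.isCoprime_num_denom x₃)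
    (RatFunc.isCoprime_num_denom x₄)
  have hYcop : IsCop (asMap W X) := isCop_asMap hΔ hXcop
  have hinj := RatFunc.algebraMap_injective K
  have hprop : ∀ i j, asMap W X i * Z j = asMap W X j * Z i := by
    apply prop_of_three
    · apply hinj
      rw [map_mul, map_mul, hX, hZ, algebraMap_asMap_symTriple_zero,
        algebraMap_asMap_symTriple_one, algebraMap_symTriple_zero, algebraMap_symTriple_one]
      linear_combination ((φ u.denom * φ v.denom) ^ 2 * (φ x₃.denom * φ x₄.denom)) *
        ((x₃ * x₄) * hs - (x₃ + x₄) * hp)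
    · apply hinj
      rw [map_mul, map_mul, hX, hZ, algebraMap_asMap_symTriple_zero,
        algebraMap_asMap_symTriple_two, algebraMap_symTriple_zero, algebraMap_symTriple_two]
      linear_combination (-(φ u.denom * φ v.denom) ^ 2 * (φ x₃.denom * φ x₄.denom)) * hp
    · apply hinj
      rw [map_mul, map_mul, hX, hZ, algebraMap_asMap_symTriple_one,
        algebraMap_asMap_symTriple_two, algebraMap_symTriple_one, algebraMap_symTriple_two]
      linear_combination (-(φ u.denom * φ v.denom) ^ 2 * (φ x₃.denom * φ x₄.denom)) * hs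
  have h1 := maxDeg_eq_of_prop hYcop hZcop hprop
  rw [maxDeg_asMap hΔ hXcop.ne_zero, hX, hZ, maxDeg_symTriple_ratFunc,
    maxDeg_symTriple_ratFunc] at h1
  omega

/-- **Exact parallelogram law for heights** (announced signature; the hypothesis `u ≠ v` is
not needed, see `ht_add_sub'`). -/
theorem ht_add_sub (hΔ : W.Δ ≠ 0) (u v x₃ x₄ : RatFunc K) (_huv : u ≠ v)
    (hs : (x₃ + x₄) * (u - v) ^ 2 =
      2 * (u * v) * (u + v) + c W.b₂ * (u * v) + c W.b₄ * (u + v) + c W.b₆)
    (hp : x₃ * x₄ * (u - v) ^ 2 =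
      (u * v) ^ 2 - c W.b₄ * (u * v) - c W.b₆ * (u + v) - c W.b₈) :
    ht x₃ + ht x₄ = 2 * ht u + 2 * ht v :=
  ht_add_sub' hΔ u v x₃ x₄ hs hp

/-! ### Duplication -/

lemma asMap_symTriple_self_two (u : RatFunc K) :
    asMap W (symTriple u.num u.denom u.num u.denom) 2 = 0 := by
  show (u.num * u.denom + u.denom * u.num) ^ 2 - C 4 * (u.num * u.num) * (u.denom * u.denom) = 0
  have h4 : (C (4 : K) : K[X]) = 4 := map_ofNat C 4
  rw [h4]
  ring

lemma algebraMap_asMap_self_zero (u : RatFunc K) :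
    φ (asMap W (symTriple u.num u.denom u.num u.denom) 0) =
      φ u.denom ^ 4 * (u ^ 4 - c W.b₄ * u ^ 2 - 2 * c W.b₆ * u - c W.b₈) := by
  rw [algebraMap_asMap_symTriple_zero]
  ring

lemma algebraMap_asMap_self_one (u : RatFunc K) :
    φ (asMap W (symTriple u.num u.denom u.num u.denom) 1) =
      φ u.denom ^ 4 * (4 * u ^ 3 + c W.b₂ * u ^ 2 + 2 * c W.b₄ * u + c W.b₆) := by
  rw [algebraMap_asMap_symTriple_one]
  ring

/-- **Duplication**: `u = x(P)`, `x₂ = x(2P)`. -/
theorem ht_double (hΔ : W.Δ ≠ 0) (u x₂ : RatFunc K)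
    (h : x₂ * (4 * u ^ 3 + c W.b₂ * u ^ 2 + 2 * c W.b₄ * u + c W.b₆) =
      u ^ 4 - c W.b₄ * u ^ 2 - 2 * c W.b₆ * u - c W.b₈) :
    ht x₂ = 4 * ht u := by
  set X := symTriple u.num u.denom u.num u.denom with hX
  have hXcop : IsCop X := isCop_symTriple (RatFunc.isCoprime_num_denom u)
    (RatFunc.isCoprime_num_denom u)
  have hZcop : IsCop ![x₂.num, x₂.denom, 0] := isCop_pair (RatFunc.isCoprime_num_denom x₂)
  have hYcop : IsCop (asMap W X) := isCop_asMap hΔ hXcop
  have hinj := RatFunc.algebraMap_injective K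
  have hY2 : asMap W X 2 = 0 := asMap_symTriple_self_two u
  have hprop : ∀ i j, asMap W X i * ![x₂.num, x₂.denom, 0] j
      = asMap W X j * ![x₂.num, x₂.denom, 0] i := by
    apply prop_of_three
    · show asMap W X 0 * x₂.denom = asMap W X 1 * x₂.num
      apply hinj
      rw [map_mul, map_mul, hX, algebraMap_asMap_self_zero, algebraMap_asMap_self_one,
        algebraMap_num x₂]
      linear_combination (-(φ u.denom) ^ 4 * φ x₂.denom) * h
    · show asMap W X 0 * 0 = asMap W X 2 * x₂.num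
      rw [hY2]; ring
    · show asMap W X 1 * 0 = asMap W X 2 * x₂.denom
      rw [hY2]; ring
  have h1 := maxDeg_eq_of_prop hYcop hZcop hprop
  rw [maxDeg_asMap hΔ hXcop.ne_zero, hX, maxDeg_symTriple_ratFunc, maxDeg_pair] at h1
  show max x₂.num.natDegree x₂.denom.natDegree = 4 * ht u
  omega

/-- If `u = x(P)` with `2P = O` (i.e. `u` is a root of the `2`-division cubic) then `u` has
height `0`. -/
theorem ht_eq_zero_of_two_torsion (hΔ : W.Δ ≠ 0) (u : RatFunc K)
    (h : 4 * u ^ 3 + c W.b₂ * u ^ 2 + 2 * c W.b₄ * u + c W.b₆ = 0) : ht u = 0 := by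
  set X := symTriple u.num u.denom u.num u.denom with hX
  have hXcop : IsCop X := isCop_symTriple (RatFunc.isCoprime_num_denom u)
    (RatFunc.isCoprime_num_denom u)
  have hZcop : IsCop ![(1 : K[X]), 0, 0] := isCop_pair isCoprime_one_left
  have hYcop : IsCop (asMap W X) := isCop_asMap hΔ hXcop
  have hinj := RatFunc.algebraMap_injective K
  have hY2 : asMap W X 2 = 0 := asMap_symTriple_self_two u
  have hY1 : asMap W X 1 = 0 := by
    apply hinj
    rw [hX, algebraMap_asMap_self_one, h, mul_zero, map_zero]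
  have hprop : ∀ i j, asMap W X i * ![(1 : K[X]), 0, 0] j
      = asMap W X j * ![(1 : K[X]), 0, 0] i := by
    apply prop_of_three
    · show asMap W X 0 * 0 = asMap W X 1 * 1
      rw [hY1]; ring
    · show asMap W X 0 * 0 = asMap W X 2 * 1
      rw [hY2]; ring
    · show asMap W X 1 * 0 = asMap W X 2 * 0
      ring
  have h1 := maxDeg_eq_of_prop hYcop hZcop hprop
  rw [maxDeg_asMap hΔ hXcop.ne_zero, hX, maxDeg_symTriple_ratFunc, maxDeg_pair] at h1
  simp only [natDegree_one, natDegree_zero, max_self] at h1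
  omega

end main

/-! ### Basic API for `ht` -/

section api

local notation "φ" => algebraMap K[X] (RatFunc K)
local notation "c" => algebraMap K (RatFunc K)

/-- The height can be computed from any coprime representation `r = p / q`. -/
theorem ht_eq_of_coprime {p q : K[X]} (hpq : IsCoprime p q) (r : RatFunc K)
    (hr : r * φ q = φ p) : ht r = max p.natDegree q.natDegree := by
  have hinj := RatFunc.algebraMap_injective K
  have hprop : ∀ i j, ![r.num, r.denom, 0] i * ![p, q, 0] j
      = ![r.num, r.denom, 0] j * ![p, q, 0] i := by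
    apply prop_of_three
    · show r.num * q = r.denom * p
      apply hinj
      rw [map_mul, map_mul, algebraMap_num r]
      linear_combination (φ r.denom) * hr
    · show r.num * 0 = 0 * p
      ring
    · show r.denom * 0 = 0 * q
      ring
  have h1 := maxDeg_eq_of_prop (isCop_pair (RatFunc.isCoprime_num_denom r)) (isCop_pair hpq) hprop
  rwa [maxDeg_pair, maxDeg_pair] at h1

theorem ht_div_of_coprime {p q : K[X]} (hpq : IsCoprime p q) (hq : q ≠ 0) :
    ht (φ p / φ q) = max p.natDegree q.natDegree := by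
  apply ht_eq_of_coprime hpq
  have h0 : φ q ≠ 0 := by
    rw [Ne, map_eq_zero_iff _ (RatFunc.algebraMap_injective K)]
    exact hq
  field_simp

theorem ht_algebraMap (p : K[X]) : ht (φ p) = p.natDegree := by
  have := ht_eq_of_coprime (p := p) (q := 1) isCoprime_one_right (φ p) (by simp)
  simpa using this

theorem ht_C (a : K) : ht (c a) = 0 := by
  have h := ht_algebraMap (C a)
  rw [RatFunc.algebraMap_C, ← RatFunc.algebraMap_eq_C, natDegree_C] at h
  exact h

theorem ht_X : ht (RatFunc.X : RatFunc K) = 1 := by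
  have h := ht_algebraMap (X : K[X])
  rwa [RatFunc.algebraMap_X, natDegree_X] at h

theorem ht_pow (r : RatFunc K) (n : ℕ) : ht (r ^ n) = n * ht r := by
  have h := ht_eq_of_coprime (p := r.num ^ n) (q := r.denom ^ n)
    ((RatFunc.isCoprime_num_denom r).pow) (r ^ n)
    (by rw [map_pow, map_pow, algebraMap_num r, mul_pow])
  rw [h, natDegree_pow, natDegree_pow, ht, Nat.mul_max_mul_left]

theorem ht_eq_zero_iff (r : RatFunc K) : ht r = 0 ↔ ∃ a : K, r = c a := by
  constructor
  · intro h
    have hn : r.num.natDegree = 0 := by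
      have := le_max_left r.num.natDegree r.denom.natDegree
      unfold ht at h; omega
    have hd : r.denom.natDegree = 0 := by
      have := le_max_right r.num.natDegree r.denom.natDegree
      unfold ht at h; omega
    have hmon : r.denom = 1 := by
      have h1 := eq_C_of_natDegree_eq_zero hd
      have h2 := RatFunc.monic_denom r
      rw [h1] at h2 ⊢
      rw [Monic, leadingCoeff_C] at h2
      rw [h2, C_1]
    refine ⟨r.num.coeff 0, ?_⟩
    have h3 := algebraMap_num r
    rw [hmon, map_one, mul_one] at h3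
    calc r = φ r.num := h3.symm
      _ = φ (C (r.num.coeff 0)) := congrArg φ (eq_C_of_natDegree_eq_zero hn)
      _ = c (r.num.coeff 0) := by rw [RatFunc.algebraMap_C, RatFunc.algebraMap_eq_C]
  · rintro ⟨a, rfl⟩
    exact ht_C a

end api

end Fermat.Agent.S52.HeightPar
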