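/-
S52 / [Frob] : polynomial core of the exact parallelogram law for heights.

`maxDeg A` is the maximal degree of a triple of polynomials, `Cop A` says the triple is
coprime (spans the unit ideal).  Three facts:
* `natDegree_eq_of_cop`  : proportional coprime triples have the same degrees;
* `cop_sym`, `maxDeg_sym` : the symmetric triple `(f₁ f₂, f₁ g₂ + f₂ g₁, g₁ g₂)` of two coprime
  pairs is coprime of maximal degree `max (deg f₁) (deg g₁) + max (deg f₂) (deg g₂)`;
* `cop_addSub`, `maxDeg_addSub` : Mathlib's `WeierstrassCurve.addSubMap` (three quadratic forms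
  without common zero) maps a coprime triple to a coprime triple of exactly twice the degree.
-/
import Mathlib

set_option autoImplicit false

namespace Fermat.Agent.S52.HtPoly

open Polynomial

variable {κ : Type*} [Field κ]

/-- the maximal degree of a triple of polynomials. -/
noncomputable def maxDeg (A : Fin 3 → κ[X]) : ℕ :=
  max (A 0).natDegree (max (A 1).natDegree (A 2).natDegree)

/-- a coprime triple: the three polynomials span the unit ideal. -/
def Cop (A : Fin 3 → κ[X]) : Prop := Ideal.span (Set.range A) = ⊤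

lemma cop_iff_bezout (A : Fin 3 → κ[X]) :
    Cop A ↔ ∃ a : Fin 3 → κ[X], ∑ i, a i * A i = 1 := by
  rw [Cop, Ideal.eq_top_iff_one, Ideal.mem_span_range_iff_exists_fun]

lemma natDegree_le_maxDeg (A : Fin 3 → κ[X]) (i : Fin 3) : (A i).natDegree ≤ maxDeg A := by
  unfold maxDeg
  fin_cases i <;> simp

lemma maxDeg_le {A : Fin 3 → κ[X]} {d : ℕ} (h : ∀ i, (A i).natDegree ≤ d) : maxDeg A ≤ d := by
  unfold maxDeg
  simp only [max_le_iff]
  exact ⟨h 0, h 1, h 2⟩

lemma exists_natDegree_eq_maxDeg (A : Fin 3 → κ[X]) : ∃ i, (A i).natDegree = maxDeg A := by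
  unfold maxDeg
  rcases le_total (A 1).natDegree (A 2).natDegree with h12 | h12
  · rcases le_total (A 0).natDegree (A 2).natDegree with h02 | h02
    · exact ⟨2, by simp [h12, h02]⟩
    · exact ⟨0, by simp [h12, h02]⟩
  · rcases le_total (A 0).natDegree (A 1).natDegree with h01 | h01
    · exact ⟨1, by simp [h12, h01]⟩
    · exact ⟨0, by simp [h12, h01]⟩

/-- a coprime triple is not identically zero. -/
lemma Cop.ne_zero {A : Fin 3 → κ[X]} (hA : Cop A) : ∃ i, A i ≠ 0 := by
  by_contra h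
  push Not at h
  obtain ⟨a, ha⟩ := (cop_iff_bezout A).mp hA
  simp [h] at ha

/-- a prime cannot divide all members of a coprime triple. -/
lemma Cop.not_dvd {A : Fin 3 → κ[X]} (hA : Cop A) {p : κ[X]} (hp : ¬ IsUnit p) :
    ¬ ∀ i, p ∣ A i := by
  intro h
  obtain ⟨a, ha⟩ := (cop_iff_bezout A).mp hA
  apply hp
  apply isUnit_of_dvd_one
  rw [← ha]
  exact Finset.dvd_sum fun i _ => Dvd.dvd.mul_left (h i) _

/-- in `κ[X]`, a triple without common prime divisor is coprime. -/
lemma cop_of_forall_prime {A : Fin 3 → κ[X]} (h : ∀ p : κ[X], Prime p → ¬ ∀ i, p ∣ A i) :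
    Cop A := by
  unfold Cop
  by_contra htop
  obtain ⟨M, hM, hle⟩ := Ideal.exists_le_maximal _ htop
  have hprin : Submodule.IsPrincipal M := IsPrincipalIdealRing.principal M
  obtain ⟨g, hg⟩ := hprin
  have hg' : M = Ideal.span {g} := hg
  have hdvd : ∀ i, g ∣ A i := by
    intro i
    have : A i ∈ M := hle (Ideal.subset_span ⟨i, rfl⟩)
    rw [hg'] at this
    exact Ideal.mem_span_singleton.mp this
  have hgu : ¬ IsUnit g := by
    intro hu
    apply hM.ne_top
    rw [hg']
    exact Ideal.span_singleton_eq_top.mpr hu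
  by_cases hg0 : g = 0
  · -- all `A i` vanish; `X` is a prime dividing them
    refine h X prime_X fun i => ?_
    have := hdvd i
    rw [hg0, zero_dvd_iff] at this
    rw [this]
    exact dvd_zero _
  · obtain ⟨p, hp, hpg⟩ := WfDvdMonoid.exists_irreducible_factor hgu hg0
    exact h p hp.prime fun i => hpg.trans (hdvd i)

/-- **(U)** proportional coprime triples have the same degrees. -/
theorem natDegree_eq_of_cop {A B : Fin 3 → κ[X]} (hA : Cop A) (hB : Cop B)
    (h : ∀ i j, A i * B j = A j * B i) (j : Fin 3) : (A j).natDegree = (B j).natDegree := by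
  obtain ⟨a, ha⟩ := (cop_iff_bezout A).mp hA
  obtain ⟨b, hb⟩ := (cop_iff_bezout B).mp hB
  set e : κ[X] := ∑ i, a i * B i with he
  set e' : κ[X] := ∑ i, b i * A i with he'
  have h1 : ∀ j, B j = A j * e := by
    intro j
    calc B j = (∑ i, a i * A i) * B j := by rw [ha, one_mul]
      _ = ∑ i, a i * (A i * B j) := by rw [Finset.sum_mul]; simp [mul_assoc]
      _ = ∑ i, a i * (A j * B i) := by simp [h _ j]
      _ = A j * e := by rw [he, Finset.mul_sum]; refine Finset.sum_congr rfl fun i _ => by ring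
  have h2 : ∀ j, A j = B j * e' := by
    intro j
    calc A j = A j * (∑ i, b i * B i) := by rw [hb, mul_one]
      _ = ∑ i, b i * (A j * B i) := by rw [Finset.mul_sum]; refine Finset.sum_congr rfl fun i _ => by ring
      _ = ∑ i, b i * (A i * B j) := by simp [h j _]
      _ = B j * e' := by rw [he', Finset.mul_sum]; refine Finset.sum_congr rfl fun i _ => by ring
  have h3 : e * e' = 1 := by
    calc e * e' = (∑ i, a i * A i) * (e * e') := by rw [ha, one_mul]
      _ = ∑ i, a i * (A i * e * e') := by rw [Finset.sum_mul]; refine Finset.sum_congr rfl fun i _ => by ring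
      _ = ∑ i, a i * A i := by
          refine Finset.sum_congr rfl fun i _ => ?_
          rw [← h1 i, ← h2 i]
      _ = 1 := ha
  have heu : IsUnit e := IsUnit.of_mul_eq_one _ h3
  obtain ⟨r, hr, hre⟩ := Polynomial.isUnit_iff.mp heu
  rw [h1 j, ← hre, natDegree_mul_C hr.ne_zero]

theorem maxDeg_eq_of_cop {A B : Fin 3 → κ[X]} (hA : Cop A) (hB : Cop B)
    (h : ∀ i j, A i * B j = A j * B i) : maxDeg A = maxDeg B := by
  unfold maxDeg
  rw [natDegree_eq_of_cop hA hB h 0, natDegree_eq_of_cop hA hB h 1, natDegree_eq_of_cop hA hB h 2]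

/-! ### the symmetric triple -/

/-- the symmetric triple `(f₁ f₂, f₁ g₂ + f₂ g₁, g₁ g₂)`. -/
noncomputable def symT (f₁ g₁ f₂ g₂ : κ[X]) : Fin 3 → κ[X] :=
  ![f₁ * f₂, f₁ * g₂ + f₂ * g₁, g₁ * g₂]

/-- **(S), coprimality.** -/
theorem cop_sym {f₁ g₁ f₂ g₂ : κ[X]} (h₁ : IsCoprime f₁ g₁) (h₂ : IsCoprime f₂ g₂) :
    Cop (symT f₁ g₁ f₂ g₂) := by
  apply cop_of_forall_prime
  intro p hp hall
  have h0 : p ∣ f₁ * f₂ := by simpa [symT] using hall 0
  have h1 : p ∣ f₁ * g₂ + f₂ * g₁ := by simpa [symT] using hall 1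
  have h2 : p ∣ g₁ * g₂ := by simpa [symT] using hall 2
  have hnu : ¬ IsUnit p := hp.not_isUnit
  rcases hp.dvd_or_dvd h0 with hf | hf
  · -- p ∣ f₁, so p ∤ g₁, p ∣ g₂, then p ∣ f₂ g₁ so p ∣ f₂
    have hg1 : ¬ p ∣ g₁ := fun hg => hnu (h₁.isUnit_of_dvd' hf hg)
    have hg2 : p ∣ g₂ := (hp.dvd_or_dvd h2).resolve_left hg1
    have h3 : p ∣ f₂ * g₁ := (dvd_add_right (Dvd.dvd.mul_right hf g₂)).mp h1
    have hf2 : p ∣ f₂ := (hp.dvd_or_dvd h3).resolve_right hg1
    exact hnu (h₂.isUnit_of_dvd' hf2 hg2)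
  · have hg2 : ¬ p ∣ g₂ := fun hg => hnu (h₂.isUnit_of_dvd' hf hg)
    have hg1 : p ∣ g₁ := (hp.dvd_or_dvd h2).resolve_right hg2
    have h3 : p ∣ f₁ * g₂ := (dvd_add_left (Dvd.dvd.mul_right hf g₁)).mp h1
    have hf1 : p ∣ f₁ := (hp.dvd_or_dvd h3).resolve_right hg2
    exact hnu (h₁.isUnit_of_dvd' hf1 hg1)

lemma coeff_max_ne_zero {f g : κ[X]} (h : IsCoprime f g) :
    f.coeff (max f.natDegree g.natDegree) ≠ 0 ∨ g.coeff (max f.natDegree g.natDegree) ≠ 0 := by
  have hne : f ≠ 0 ∨ g ≠ 0 := by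
    by_contra hcon
    push Not at hcon
    obtain ⟨a, b, hab⟩ := h
    simp [hcon.1, hcon.2] at hab
  rcases le_total f.natDegree g.natDegree with hle | hle
  · rw [max_eq_right hle]
    by_cases hg : g = 0
    · have hf : f ≠ 0 := hne.resolve_right (not_not.mpr hg)
      left
      have : f.natDegree = 0 := by
        have := hle
        rw [hg, natDegree_zero] at this
        omega
      rw [hg, natDegree_zero, ← this]
      exact leadingCoeff_ne_zero.mpr hf
    · right
      exact leadingCoeff_ne_zero.mpr hg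
  · rw [max_eq_left hle]
    by_cases hf : f = 0
    · have hg : g ≠ 0 := hne.resolve_left (not_not.mpr hf)
      right
      have : g.natDegree = 0 := by
        have := hle
        rw [hf, natDegree_zero] at this
        omega
      rw [hf, natDegree_zero, ← this]
      exact leadingCoeff_ne_zero.mpr hg
    · left
      exact leadingCoeff_ne_zero.mpr hf

/-- **(S), degree.** -/
theorem maxDeg_sym {f₁ g₁ f₂ g₂ : κ[X]} (h₁ : IsCoprime f₁ g₁) (h₂ : IsCoprime f₂ g₂) :
    maxDeg (symT f₁ g₁ f₂ g₂) =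
      max f₁.natDegree g₁.natDegree + max f₂.natDegree g₂.natDegree := by
  set d₁ := max f₁.natDegree g₁.natDegree with hd₁
  set d₂ := max f₂.natDegree g₂.natDegree with hd₂
  have hf1 : f₁.natDegree ≤ d₁ := le_max_left _ _
  have hg1 : g₁.natDegree ≤ d₁ := le_max_right _ _
  have hf2 : f₂.natDegree ≤ d₂ := le_max_left _ _
  have hg2 : g₂.natDegree ≤ d₂ := le_max_right _ _
  apply le_antisymm
  · apply maxDeg_le
    intro i
    fin_cases i
    · simpa [symT] using natDegree_mul_le_of_le hf1 hf2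
    · simp only [symT, Fin.mk_one, Matrix.cons_val_one, Matrix.cons_val_zero]
      refine natDegree_add_le_of_degree_le (natDegree_mul_le_of_le hf1 hg2) ?_
      rw [add_comm]
      exact natDegree_mul_le_of_le hf2 hg1
    · simpa [symT] using natDegree_mul_le_of_le hg1 hg2
  · -- one of the three top coefficients does not vanish
    have c0 : (f₁ * f₂).coeff (d₁ + d₂) = f₁.coeff d₁ * f₂.coeff d₂ :=
      coeff_mul_add_eq_of_natDegree_le hf1 hf2
    have c2 : (g₁ * g₂).coeff (d₁ + d₂) = g₁.coeff d₁ * g₂.coeff d₂ :=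
      coeff_mul_add_eq_of_natDegree_le hg1 hg2
    have c1 : (f₁ * g₂ + f₂ * g₁).coeff (d₁ + d₂)
        = f₁.coeff d₁ * g₂.coeff d₂ + f₂.coeff d₂ * g₁.coeff d₁ := by
      rw [coeff_add, coeff_mul_add_eq_of_natDegree_le hf1 hg2, add_comm d₁ d₂,
        coeff_mul_add_eq_of_natDegree_le hf2 hg1]
    have key : (f₁ * f₂).coeff (d₁ + d₂) ≠ 0 ∨ (f₁ * g₂ + f₂ * g₁).coeff (d₁ + d₂) ≠ 0 ∨
        (g₁ * g₂).coeff (d₁ + d₂) ≠ 0 := by
      rw [c0, c1, c2]
      have e1 := coeff_max_ne_zero h₁
      have e2 := coeff_max_ne_zero h₂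
      rw [← hd₁] at e1
      rw [← hd₂] at e2
      by_contra hcon
      push Not at hcon
      obtain ⟨k0, k1, k2⟩ := hcon
      rcases mul_eq_zero.mp k0 with hz | hz
      · have hg : g₁.coeff d₁ ≠ 0 := e1.resolve_left (not_not.mpr hz)
        rw [hz, zero_mul, zero_add] at k1
        have hf2' : f₂.coeff d₂ = 0 := (mul_eq_zero.mp k1).resolve_right hg
        have hg2' : g₂.coeff d₂ = 0 := (mul_eq_zero.mp k2).resolve_left hg
        rcases e2 with e2 | e2 <;> contradiction
      · have hg : g₂.coeff d₂ ≠ 0 := e2.resolve_left (not_not.mpr hz)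
        rw [hz, zero_mul, add_zero] at k1
        have hf1' : f₁.coeff d₁ = 0 := (mul_eq_zero.mp k1).resolve_right hg
        have hg1' : g₁.coeff d₁ = 0 := (mul_eq_zero.mp k2).resolve_right hg
        rcases e1 with e1 | e1 <;> contradiction
    rcases key with k | k | k
    · exact (le_natDegree_of_ne_zero k).trans (by simpa [symT] using natDegree_le_maxDeg (symT f₁ g₁ f₂ g₂) 0)
    · exact (le_natDegree_of_ne_zero k).trans (by simpa [symT] using natDegree_le_maxDeg (symT f₁ g₁ f₂ g₂) 1)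
    · exact (le_natDegree_of_ne_zero k).trans (by simpa [symT] using natDegree_le_maxDeg (symT f₁ g₁ f₂ g₂) 2)

end Fermat.Agent.S52.HtPoly
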