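import Mathlib
import Fermat.Agent.S52.Frob.Defs
import Fermat.Agent.S52.Frob.HeightPar

/-!
# [P3] of the S52 [Frob] table (B-route): the degree recursion and the duplication degree

Exact statements of `rdeg_recursion` and `rdeg_dup` from the block table, derived from the
general exact parallelogram law of `HeightPar.lean`.
-/

set_option autoImplicit false

open Polynomial

namespace Fermat.Agent.S52.HeightPar

universe u

variable {K : Type u} [Field K]

open Fermat.Agent.S52.Frob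

lemma rdeg_eq_ht (a : RatFunc K) : rdeg a = ht a := rfl

/-- General exact parallelogram law in the `rdeg` / `RatFunc.C` normal form. -/
theorem rdeg_add_sub (W : WeierstrassCurve K) (hΔ : W.Δ ≠ 0) (u v x₃ x₄ : RatFunc K)
    (hs : (x₃ + x₄) * (u - v) ^ 2 =
      2 * (u + v) * (u * v) + RatFunc.C W.b₂ * (u * v) + RatFunc.C W.b₄ * (u + v)
        + RatFunc.C W.b₆)
    (hp : x₃ * x₄ * (u - v) ^ 2 =
      (u * v) ^ 2 - RatFunc.C W.b₄ * (u * v) - RatFunc.C W.b₆ * (u + v) - RatFunc.C W.b₈) :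
    rdeg x₃ + rdeg x₄ = 2 * rdeg u + 2 * rdeg v := by
  simp only [rdeg_eq_ht]
  apply ht_add_sub' hΔ u v x₃ x₄
  · rw [hs]; simp only [RatFunc.algebraMap_eq_C]; ring
  · rw [hp]; simp only [RatFunc.algebraMap_eq_C]

/-- [P3] the degree recursion `h(P+G) + h(P-G) = 2 h(P) + 2` in rational-function form. -/
theorem rdeg_recursion (W : WeierstrassCurve K) (hΔ : W.Δ ≠ 0) (a ap am : RatFunc K)
    (_ha : a ≠ RatFunc.X)
    (hsum : (ap + am) * (a - RatFunc.X) ^ 2 =
      2 * (a + RatFunc.X) * (a * RatFunc.X) + RatFunc.C W.b₂ * (a * RatFunc.X)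
        + RatFunc.C W.b₄ * (a + RatFunc.X) + RatFunc.C W.b₆)
    (hprod : ap * am * (a - RatFunc.X) ^ 2 =
      (a * RatFunc.X) ^ 2 - RatFunc.C W.b₄ * (a * RatFunc.X)
        - RatFunc.C W.b₆ * (a + RatFunc.X) - RatFunc.C W.b₈) :
    rdeg ap + rdeg am = 2 * rdeg a + 2 := by
  have h := rdeg_add_sub W hΔ a RatFunc.X ap am hsum hprod
  rw [rdeg_eq_ht (RatFunc.X : RatFunc K), ht_X] at h
  omega

/-- [P3] the duplication degree: `x(2G)` has degree `4`. -/
theorem rdeg_dup (W : WeierstrassCurve K) (hΔ : W.Δ ≠ 0) (a2 : RatFunc K)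
    (h : a2 * algebraMap K[X] (RatFunc K) (dPoly W) =
      algebraMap K[X] (RatFunc K) (X ^ 4 - C W.b₄ * X ^ 2 - C (2 * W.b₆) * X - C W.b₈)) :
    rdeg a2 = 4 := by
  have h2 : algebraMap K (RatFunc K) (2 : K) = 2 := map_ofNat _ 2
  have h4 : algebraMap K (RatFunc K) (4 : K) = 4 := map_ofNat _ 4
  have key := ht_double (W := W) hΔ (RatFunc.X : RatFunc K) a2 (by
    have e1 : algebraMap K[X] (RatFunc K) (dPoly W) =
        4 * (RatFunc.X : RatFunc K) ^ 3 + algebraMap K (RatFunc K) W.b₂ * RatFunc.X ^ 2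
          + 2 * algebraMap K (RatFunc K) W.b₄ * RatFunc.X + algebraMap K (RatFunc K) W.b₆ := by
      simp only [dPoly, map_add, map_mul, map_pow, RatFunc.algebraMap_X, RatFunc.algebraMap_C,
        ← RatFunc.algebraMap_eq_C, h2, h4]
    have e2 : algebraMap K[X] (RatFunc K) (X ^ 4 - C W.b₄ * X ^ 2 - C (2 * W.b₆) * X - C W.b₈) =
        (RatFunc.X : RatFunc K) ^ 4 - algebraMap K (RatFunc K) W.b₄ * RatFunc.X ^ 2
          - 2 * algebraMap K (RatFunc K) W.b₆ * RatFunc.X - algebraMap K (RatFunc K) W.b₈ := by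
      simp only [map_sub, map_mul, map_pow, RatFunc.algebraMap_X, RatFunc.algebraMap_C,
        ← RatFunc.algebraMap_eq_C, h2]
    rw [← e1, ← e2]
    exact h)
  rw [ht_X] at key
  exact key

end Fermat.Agent.S52.HeightPar
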